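import Fermat.Agent.Row24.Chart.Ops

/-!
# Tensor product and dual of glued bundles

The lattices of the product are spanned by products of sections; those of the dual are the
integral functionals.  Both operations respect isomorphisms, rigidity and base change, and a
product with a dual is trivial only for isomorphic bundles.
-/

set_option autoImplicit false

universe u

noncomputable section

namespace Fermat.Agent.Row24.Chart

open TensorProduct

section Lattice

variable {A S M N : Type*} [CommRing A] [CommRing S] [Algebra A S] [AddCommGroup M] [Module S M]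
  [AddCommGroup N] [Module S N] {T : Subalgebra A S}

/-- The lattice spanned by the products. -/
def tensorLat (P : Submodule T M) (Q : Submodule T N) : Submodule T (M ⊗[S] N) :=
  Submodule.span T {z | ∃ m ∈ P, ∃ n ∈ Q, m ⊗ₜ[S] n = z}

theorem tmul_mem_tensorLat {P : Submodule T M} {Q : Submodule T N} {m : M} {n : N} (hm : m ∈ P)
    (hn : n ∈ Q) : m ⊗ₜ[S] n ∈ tensorLat P Q := Submodule.subset_span ⟨m, hm, n, hn, rfl⟩

/-- A linear map sending the products into a lattice sends `tensorLat` there. -/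
theorem map_tensorLat {L : Type*} [AddCommGroup L] [Module S L] {R : Submodule T L}
    {P : Submodule T M} {Q : Submodule T N} (f : M ⊗[S] N →ₗ[S] L)
    (h : ∀ m ∈ P, ∀ n ∈ Q, f (m ⊗ₜ[S] n) ∈ R) {z : M ⊗[S] N} (hz : z ∈ tensorLat P Q) :
    f z ∈ R := by
  induction hz using Submodule.span_induction with
  | mem z hz => obtain ⟨m, hm, n, hn, rfl⟩ := hz; exact h m hm n hn
  | zero => rw [map_zero]; exact R.zero_mem
  | add a b _ _ ha hb => rw [map_add]; exact R.add_mem ha hb
  | smul c a _ ha =>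
    rw [show c • a = (c : S) • a from rfl, map_smul]
    exact R.smul_mem c ha

/-- The product of two functionals. -/
def tensorFun (φ : M →ₗ[S] S) (ψ : N →ₗ[S] S) : M ⊗[S] N →ₗ[S] S :=
  LinearMap.mul' S S ∘ₗ TensorProduct.map φ ψ

@[simp] theorem tensorFun_tmul (φ : M →ₗ[S] S) (ψ : N →ₗ[S] S) (m : M) (n : N) :
    tensorFun φ ψ (m ⊗ₜ[S] n) = φ m * ψ n := by simp [tensorFun]

theorem tensorFun_mem {P : Submodule T M} {Q : Submodule T N} {φ : M →ₗ[S] S} {ψ : N →ₗ[S] S}
    (hφ : ∀ m ∈ P, φ m ∈ T) (hψ : ∀ n ∈ Q, ψ n ∈ T) {z : M ⊗[S] N} (hz : z ∈ tensorLat P Q) :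
    tensorFun φ ψ z ∈ T := by
  induction hz using Submodule.span_induction with
  | mem z hz =>
    obtain ⟨m, hm, n, hn, rfl⟩ := hz
    rw [tensorFun_tmul]; exact mul_mem (hφ m hm) (hψ n hn)
  | zero => rw [map_zero]; exact zero_mem _
  | add a b _ _ ha hb => rw [map_add]; exact add_mem ha hb
  | smul c a _ ha =>
    rw [show c • a = (c : S) • a from rfl, map_smul, smul_eq_mul]
    exact mul_mem c.2 ha

theorem IsLattice.tensor {P : Submodule T M} {Q : Submodule T N} (hP : IsLattice T P)
    (hQ : IsLattice T Q) : IsLattice T (tensorLat P Q) := by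
  obtain ⟨n, φ, v, hv, hφ, h1⟩ := hP
  obtain ⟨l, ψ, w, hw, hψ, h2⟩ := hQ
  refine IsLattice.intro (ι := Fin n × Fin l) (fun p => tensorFun (φ p.1) (ψ p.2))
    (fun p => v p.1 ⊗ₜ[S] w p.2) (fun p => tmul_mem_tensorLat (hv _) (hw _))
    (fun p z hz => tensorFun_mem (hφ _) (hψ _) hz) ?_
  simp only [tensorFun_tmul, Fintype.sum_prod_type]
  rw [← Finset.sum_mul_sum, h1, h2, one_mul]

/-- The functionals which are integral on a lattice. -/
def dualLat (P : Submodule T M) : Submodule T (M →ₗ[S] S) where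
  carrier := {φ | ∀ m ∈ P, φ m ∈ T}
  add_mem' ha hb m hm := T.add_mem (ha m hm) (hb m hm)
  zero_mem' _ _ := T.zero_mem
  smul_mem' c _ hφ m hm := T.mul_mem c.2 (hφ m hm)

theorem IsLattice.dual {P : Submodule T M} (hP : IsLattice T P) : IsLattice T (dualLat P) := by
  obtain ⟨n, φ, v, hv, hφ, h1⟩ := hP
  exact IsLattice.intro (fun i => LinearMap.applyₗ (v i)) φ hφ (fun i ψ hψ => hψ _ (hv i)) h1

section Semilinear

variable {A' S' M' N' : Type*} [CommRing A'] [CommRing S'] [Algebra A' S'] [AddCommGroup M']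
  [Module S' M'] [AddCommGroup N'] [Module S' N'] {T' : Subalgebra A' S'} (σ : S →+* S')

/-- The product of two semilinear maps. -/
def tensorHom (f : M →+ M') (g : N →+ N') (hf : ∀ (r : S) m, f (r • m) = σ r • f m)
    (hg : ∀ (r : S) n, g (r • n) = σ r • g n) : M ⊗[S] N →+ M' ⊗[S'] N' :=
  TensorProduct.liftAddHom
    { toFun := fun m =>
        { toFun := fun n => f m ⊗ₜ[S'] g n
          map_zero' := by simp
          map_add' := fun a b => by simp [tmul_add] }
      map_zero' := by ext n; simp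
      map_add' := fun a b => by ext n; simp [add_tmul] }
    fun r m n => by simp [hf, hg, smul_tmul]

variable {σ} {f : M →+ M'} {g : N →+ N'} {hf : ∀ (r : S) m, f (r • m) = σ r • f m}
  {hg : ∀ (r : S) n, g (r • n) = σ r • g n}

@[simp] theorem tensorHom_tmul (m : M) (n : N) :
    tensorHom σ f g hf hg (m ⊗ₜ[S] n) = f m ⊗ₜ[S'] g n := rfl

theorem tensorHom_smul (r : S) (z : M ⊗[S] N) :
    tensorHom σ f g hf hg (r • z) = σ r • tensorHom σ f g hf hg z := by
  induction z using TensorProduct.induction_on with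
  | zero => simp
  | tmul m n => simp [smul_tmul', hf]
  | add a b ha hb => simp [smul_add, ha, hb]

theorem span_tensorHom {P : Submodule T M} {Q : Submodule T N} {P' : Submodule T' M'}
    {Q' : Submodule T' N'} (hT : ∀ r ∈ T, σ r ∈ T') (hP : Submodule.span T' (f '' P) = P')
    (hQ : Submodule.span T' (g '' Q) = Q') :
    Submodule.span T' (tensorHom σ f g hf hg '' (tensorLat P Q : Set (M ⊗[S] N))) =
      tensorLat P' Q' := by
  refine le_antisymm (Submodule.span_le.2 ?_) (Submodule.span_le.2 ?_)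
  · rintro _ ⟨z, hz, rfl⟩
    induction hz using Submodule.span_induction with
    | mem z hz =>
      obtain ⟨m, hm, n, hn, rfl⟩ := hz
      exact tmul_mem_tensorLat (hP ▸ Submodule.subset_span ⟨m, hm, rfl⟩)
        (hQ ▸ Submodule.subset_span ⟨n, hn, rfl⟩)
    | zero => rw [map_zero]; exact zero_mem _
    | add a b _ _ ha hb => rw [map_add]; exact add_mem ha hb
    | smul c a _ ha =>
      rw [show c • a = (c : S) • a from rfl, tensorHom_smul]
      exact Submodule.smul_mem _ (⟨σ c, hT _ c.2⟩ : T') ha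
  · rintro _ ⟨m', hm', n', hn', rfl⟩
    rw [← hP] at hm'
    rw [← hQ] at hn'
    induction hm' using Submodule.span_induction with
    | mem x hx =>
      obtain ⟨m, hm, rfl⟩ := hx
      induction hn' using Submodule.span_induction with
      | mem y hy =>
        obtain ⟨n, hn, rfl⟩ := hy
        exact Submodule.subset_span ⟨_, tmul_mem_tensorLat hm hn, rfl⟩
      | zero => rw [tmul_zero]; exact zero_mem _
      | add a b _ _ ha hb => rw [tmul_add]; exact add_mem ha hb
      | smul c a _ ha =>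
        rw [show c • a = (c : S') • a from rfl, tmul_smul]
        exact Submodule.smul_mem _ c ha
    | zero => rw [zero_tmul]; exact zero_mem _
    | add a b _ _ ha hb => rw [add_tmul]; exact add_mem ha hb
    | smul c a _ ha =>
      rw [show c • a = (c : S') • a from rfl, ← smul_tmul']
      exact Submodule.smul_mem _ c ha

/-- The extensions of the integral functionals span the integral functionals downstairs. -/
theorem span_extend [Module.Invertible S' M'] {P : Submodule T M} {P' : Submodule T' M'}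
    (hlat : IsLattice T P) (hT : ∀ r ∈ T, σ r ∈ T') (hP : Submodule.span T' (f '' P) = P')
    (d : (M →ₗ[S] S) →+ (M' →ₗ[S'] S')) (hd : ∀ ψ m, d ψ (f m) = σ (ψ m)) :
    Submodule.span T' (d '' (dualLat P : Set (M →ₗ[S] S))) = dualLat P' := by
  refine le_antisymm (Submodule.span_le.2 ?_) fun θ hθ => ?_
  · rintro _ ⟨ψ, hψ, rfl⟩ m' hm'
    rw [← hP] at hm'
    induction hm' using Submodule.span_induction with
    | mem x hx => obtain ⟨m, hm, rfl⟩ := hx; rw [hd]; exact hT _ (hψ m hm)
    | zero => rw [map_zero]; exact zero_mem _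
    | add a b _ _ ha hb => rw [map_add]; exact add_mem ha hb
    | smul c a _ ha =>
      rw [show c • a = (c : S') • a from rfl, map_smul, smul_eq_mul]
      exact mul_mem c.2 ha
  · obtain ⟨n, φ, v, hv, hφ, h1⟩ := hlat
    have h1' : ∑ i, d (φ i) (f (v i)) = 1 := by
      rw [Finset.sum_congr rfl fun i _ => hd (φ i) (v i), ← map_sum, h1, map_one]
    have hθ' : θ = ∑ i, θ (f (v i)) • d (φ i) := by
      refine LinearMap.ext fun m' => ?_
      conv_lhs => rw [← sum_smul_eq (fun i => d (φ i)) (fun i => f (v i)) h1' m', map_sum]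
      rw [LinearMap.sum_apply]
      exact Finset.sum_congr rfl fun i _ => by
        rw [map_smul, LinearMap.smul_apply, smul_eq_mul, smul_eq_mul, mul_comm]
    rw [hθ']
    exact sum_mem fun i _ => Submodule.smul_mem _
      (⟨_, hθ _ (hP ▸ Submodule.subset_span ⟨_, hv i, rfl⟩)⟩ : T')
      (Submodule.subset_span ⟨φ i, hφ i, rfl⟩)

end Semilinear

end Lattice

namespace Glued

variable {k : Type u} [Field k] {C : CurveRings k} {A : Type u} [CommRing A] [Algebra k A]
variable (M N L : Glued C A)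

/-- The tensor product of two bundles. -/
@[reducible] def tensor : Glued C A :=
  ofLattices (M.carrier ⊗[C.R12 A] N.carrier) (tensorLat M.M1 N.M1) (tensorLat M.M2 N.M2)
    (M.isLattice1.tensor N.isLattice1) (M.isLattice2.tensor N.isLattice2)

/-- The dual bundle. -/
@[reducible] def dual : Glued C A :=
  ofLattices (M.carrier →ₗ[C.R12 A] C.R12 A) (dualLat M.M1) (dualLat M.M2)
    M.isLattice1.dual M.isLattice2.dual

/-- The difference of two bundles. -/
@[reducible] def diff : Glued C A := M.tensor N.dual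

theorem Rigid.tensor {M N : Glued C A} (hM : M.Rigid) (hN : N.Rigid) : (M.tensor N).Rigid := by
  rw [rigid_iff] at hM hN ⊢
  obtain ⟨e, he, φ, hφ, h, h1⟩ := hM
  obtain ⟨e', he', φ', hφ', h', h1'⟩ := hN
  have hmul : (⟨φ e * φ' e', mul_mem h h'⟩ : C.R2 A) = ⟨φ e, h⟩ * ⟨φ' e', h'⟩ := rfl
  have hval : C.augA A ⟨φ e * φ' e', mul_mem h h'⟩ = 1 := by
    rw [hmul, map_mul, h1, h1', one_mul]
  exact ⟨e ⊗ₜ[C.R12 A] e', tmul_mem_tensorLat he he', tensorFun φ φ',
    fun z hz => tensorFun_mem hφ hφ' hz, (tensorFun_tmul φ φ' e e').symm ▸ ⟨mul_mem h h', hval⟩⟩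

theorem Rigid.dual {M : Glued C A} (hM : M.Rigid) : M.dual.Rigid := by
  rw [rigid_iff] at hM ⊢
  obtain ⟨e, he, φ, hφ, h, h1⟩ := hM
  exact ⟨φ, hφ, LinearMap.applyₗ e, fun ψ hψ => hψ e he, h, h1⟩

theorem Rigid.diff {M N : Glued C A} (hM : M.Rigid) (hN : N.Rigid) : (M.diff N).Rigid :=
  hM.tensor hN.dual

namespace Iso

variable {M N L} {M' N' : Glued C A}

/-- An isomorphism from a linear equivalence preserving the lattices in both directions. -/
def ofMem (e : M.carrier ≃ₗ[C.R12 A] N.carrier) (h1 : ∀ m ∈ M.M1, e m ∈ N.M1)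
    (h1' : ∀ n ∈ N.M1, e.symm n ∈ M.M1) (h2 : ∀ m ∈ M.M2, e m ∈ N.M2)
    (h2' : ∀ n ∈ N.M2, e.symm n ∈ M.M2) : Iso M N where
  equiv := e
  mem1 m := ⟨fun h => by simpa using h1' _ h, h1 m⟩
  mem2 m := ⟨fun h => by simpa using h2' _ h, h2 m⟩

/-- Functoriality of the product. -/
def tensor (e : Iso M M') (e' : Iso N N') : Iso (M.tensor N) (M'.tensor N') :=
  ofMem (TensorProduct.congr e.equiv e'.equiv)
    (fun _ hz => map_tensorLat (TensorProduct.congr e.equiv e'.equiv).toLinearMap
      (fun m hm n hn => tmul_mem_tensorLat ((e.mem1 m).2 hm) ((e'.mem1 n).2 hn)) hz)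
    (fun _ hz => map_tensorLat (TensorProduct.congr e.equiv e'.equiv).symm.toLinearMap
      (fun m hm n hn => tmul_mem_tensorLat ((e.symm.mem1 m).2 hm) ((e'.symm.mem1 n).2 hn)) hz)
    (fun _ hz => map_tensorLat (TensorProduct.congr e.equiv e'.equiv).toLinearMap
      (fun m hm n hn => tmul_mem_tensorLat ((e.mem2 m).2 hm) ((e'.mem2 n).2 hn)) hz)
    (fun _ hz => map_tensorLat (TensorProduct.congr e.equiv e'.equiv).symm.toLinearMap
      (fun m hm n hn => tmul_mem_tensorLat ((e.symm.mem2 m).2 hm) ((e'.symm.mem2 n).2 hn)) hz)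

/-- Functoriality of the dual. -/
def dual (e : Iso M M') : Iso M.dual M'.dual :=
  ofMem e.equiv.symm.dualMap
    (fun _ hφ m hm => hφ _ ((e.symm.mem1 m).2 hm))
    (fun _ hφ m hm => hφ _ ((e.mem1 m).2 hm))
    (fun _ hφ m hm => hφ _ ((e.symm.mem2 m).2 hm))
    (fun _ hφ m hm => hφ _ ((e.mem2 m).2 hm))

/-- Functoriality of the difference. -/
def diff (e : Iso M M') (e' : Iso N N') : Iso (M.diff N) (M'.diff N') := e.tensor e'.dual

variable (M N L)

/-- Commutativity. -/
def tensorComm : Iso (M.tensor N) (N.tensor M) :=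
  ofMem (TensorProduct.comm _ _ _)
    (fun _ hz => map_tensorLat (TensorProduct.comm _ M.carrier N.carrier).toLinearMap
      (fun _ hm _ hn => tmul_mem_tensorLat hn hm) hz)
    (fun _ hz => map_tensorLat (TensorProduct.comm _ M.carrier N.carrier).symm.toLinearMap
      (fun _ hm _ hn => tmul_mem_tensorLat hn hm) hz)
    (fun _ hz => map_tensorLat (TensorProduct.comm _ M.carrier N.carrier).toLinearMap
      (fun _ hm _ hn => tmul_mem_tensorLat hn hm) hz)
    (fun _ hz => map_tensorLat (TensorProduct.comm _ M.carrier N.carrier).symm.toLinearMap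
      (fun _ hm _ hn => tmul_mem_tensorLat hn hm) hz)

theorem assoc_mem {T : Subalgebra A (C.R12 A)} {P : Submodule T M.carrier}
    {Q : Submodule T N.carrier} {R : Submodule T L.carrier}
    {z : (M.carrier ⊗[C.R12 A] N.carrier) ⊗[C.R12 A] L.carrier}
    (hz : z ∈ tensorLat (tensorLat P Q) R) :
    TensorProduct.assoc _ _ _ _ z ∈ tensorLat P (tensorLat Q R) :=
  map_tensorLat (TensorProduct.assoc _ _ _ _).toLinearMap (fun _ ha l hl =>
    map_tensorLat ((TensorProduct.assoc (C.R12 A) M.carrier N.carrier L.carrier).toLinearMap ∘ₗ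
      (TensorProduct.mk _ _ _).flip l)
      (fun _ hm _ hn => tmul_mem_tensorLat hm (tmul_mem_tensorLat hn hl)) ha) hz

theorem assoc_symm_mem {T : Subalgebra A (C.R12 A)} {P : Submodule T M.carrier}
    {Q : Submodule T N.carrier} {R : Submodule T L.carrier}
    {z : M.carrier ⊗[C.R12 A] (N.carrier ⊗[C.R12 A] L.carrier)}
    (hz : z ∈ tensorLat P (tensorLat Q R)) :
    (TensorProduct.assoc _ _ _ _).symm z ∈ tensorLat (tensorLat P Q) R :=
  map_tensorLat (TensorProduct.assoc _ _ _ _).symm.toLinearMap (fun m hm _ ha =>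
    map_tensorLat
      ((TensorProduct.assoc (C.R12 A) M.carrier N.carrier L.carrier).symm.toLinearMap ∘ₗ
        TensorProduct.mk _ _ _ m)
      (fun _ hn _ hl => tmul_mem_tensorLat (tmul_mem_tensorLat hm hn) hl) ha) hz

/-- Associativity. -/
def tensorAssoc : Iso ((M.tensor N).tensor L) (M.tensor (N.tensor L)) :=
  ofMem (TensorProduct.assoc _ _ _ _) (fun _ => assoc_mem M N L) (fun _ => assoc_symm_mem M N L)
    (fun _ => assoc_mem M N L) (fun _ => assoc_symm_mem M N L)

/-- The trivial bundle is neutral. -/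
def tensorTrivial : Iso (M.tensor (trivial C A)) M :=
  ofMem (TensorProduct.rid _ _)
    (fun _ hz => map_tensorLat (TensorProduct.rid _ M.carrier).toLinearMap (fun m hm n hn => by
      rw [LinearEquiv.coe_coe, TensorProduct.rid_tmul]
      exact M.M1.smul_mem (⟨n, mem_span_one.1 hn⟩ : C.R1 A) hm) hz)
    (fun m hm => tmul_mem_tensorLat hm (Submodule.mem_span_singleton_self 1))
    (fun _ hz => map_tensorLat (TensorProduct.rid _ M.carrier).toLinearMap (fun m hm n hn => by
      rw [LinearEquiv.coe_coe, TensorProduct.rid_tmul]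
      exact M.M2.smul_mem (⟨n, mem_span_one.1 hn⟩ : C.R2 A) hm) hz)
    (fun m hm => tmul_mem_tensorLat hm (Submodule.mem_span_singleton_self 1))

/-- The evaluation. -/
def evalEquiv : M.carrier ⊗[C.R12 A] (M.carrier →ₗ[C.R12 A] C.R12 A) ≃ₗ[C.R12 A] C.R12 A :=
  TensorProduct.comm _ _ _ ≪≫ₗ
    LinearEquiv.ofBijective (contractLeft (C.R12 A) M.carrier) (Module.Invertible.bijective)

@[simp] theorem evalEquiv_tmul (m : M.carrier) (φ : M.carrier →ₗ[C.R12 A] C.R12 A) :
    evalEquiv M (m ⊗ₜ φ) = φ m := by simp [evalEquiv, contractLeft_apply]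

theorem evalEquiv_mem {T : Subalgebra A (C.R12 A)} {P : Submodule T M.carrier}
    {z : M.carrier ⊗[C.R12 A] (M.carrier →ₗ[C.R12 A] C.R12 A)}
    (hz : z ∈ tensorLat P (dualLat P)) : evalEquiv M z ∈ Submodule.span T {(1 : C.R12 A)} :=
  map_tensorLat (evalEquiv M).toLinearMap (fun m hm φ hφ => by
    rw [LinearEquiv.coe_coe, evalEquiv_tmul, mem_span_one]
    exact hφ m hm) hz

theorem evalEquiv_symm_mem {T : Subalgebra A (C.R12 A)} {P : Submodule T M.carrier}
    (hP : IsLattice T P) {r : C.R12 A} (hr : r ∈ Submodule.span T {(1 : C.R12 A)}) :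
    (evalEquiv M).symm r ∈ tensorLat P (dualLat P) := by
  obtain ⟨n, φ, v, hv, hφ, h1⟩ := hP
  have h : (evalEquiv M).symm r = r • ∑ i, v i ⊗ₜ[C.R12 A] φ i := by
    rw [LinearEquiv.symm_apply_eq, map_smul, map_sum]
    simp [h1]
  rw [h]
  exact Submodule.smul_mem _ (⟨r, mem_span_one.1 hr⟩ : T)
    (sum_mem fun i _ => tmul_mem_tensorLat (hv i) (hφ i))

/-- A bundle minus itself is trivial. -/
def diffSelf : Iso (M.diff M) (trivial C A) :=
  ofMem (evalEquiv M) (fun _ => evalEquiv_mem M) (fun _ => evalEquiv_symm_mem M M.isLattice1)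
    (fun _ => evalEquiv_mem M) (fun _ => evalEquiv_symm_mem M M.isLattice2)

/-- The dual of the trivial bundle is trivial. -/
def dualTrivial : Iso (trivial C A).dual (trivial C A) :=
  ((tensorTrivial _).symm.trans (tensorComm _ _)).trans (diffSelf _)

/-- Subtracting the trivial bundle. -/
def diffTrivial : Iso (M.diff (trivial C A)) M :=
  ((Iso.refl M).tensor dualTrivial).trans (tensorTrivial M)

variable {M N}

/-- Bundles with trivial difference are isomorphic. -/
def ofDiff (e : Iso (M.diff N) (trivial C A)) : Iso M N :=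
  ((tensorTrivial M).symm.trans
    ((Iso.refl M).tensor ((diffSelf N).symm.trans (tensorComm _ _)))).trans
    ((tensorAssoc M N.dual N).symm.trans
      (((e.tensor (Iso.refl N)).trans (tensorComm _ _)).trans (tensorTrivial N)))

end Iso

namespace Hom

variable {A' : Type u} [CommRing A'] [Algebra k A'] {φ : A →ₐ[k] A'} {M N}
variable {M' N' : Glued C A'}

theorem ext_of_comp (f : Hom φ M M') {ψ ψ' : M'.carrier →ₗ[C.R12 A'] C.R12 A'}
    (h : ∀ m, ψ (f.toFun m) = ψ' (f.toFun m)) : ψ = ψ' :=
  LinearMap.ext_on f.span_range_eq_top (Set.forall_mem_range.2 h)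

/-- The extension of functionals. -/
def dualFun (f : Hom φ M M') :
    (M.carrier →ₗ[C.R12 A] C.R12 A) →+ (M'.carrier →ₗ[C.R12 A'] C.R12 A') where
  toFun ψ := (f.exists_extendFun ψ).choose
  map_zero' := f.ext_of_comp fun m => by
    rw [(f.exists_extendFun 0).choose_spec]; simp
  map_add' a b := f.ext_of_comp fun m => by
    refine ((f.exists_extendFun (a + b)).choose_spec m).trans ?_
    rw [LinearMap.add_apply, map_add, ← (f.exists_extendFun a).choose_spec,
      ← (f.exists_extendFun b).choose_spec]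
    rfl

@[simp] theorem dualFun_apply (f : Hom φ M M') (ψ : M.carrier →ₗ[C.R12 A] C.R12 A)
    (m : M.carrier) : f.dualFun ψ (f.toFun m) = C.mapR φ (ψ m) :=
  (f.exists_extendFun ψ).choose_spec m

/-- Base change of duals. -/
def dual (f : Hom φ M M') : Hom φ M.dual M'.dual where
  toFun := f.dualFun
  map_smul r ψ := f.ext_of_comp fun m => by
    rw [dualFun_apply, LinearMap.smul_apply, LinearMap.smul_apply, dualFun_apply, smul_eq_mul,
      smul_eq_mul, map_mul]
  span1 := span_extend (σ := (C.mapR φ).toRingHom) (f := f.toFun) M.isLattice1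
    (fun _ => C.mapR_mem_sub φ) f.span1 f.dualFun f.dualFun_apply
  span2 := span_extend (σ := (C.mapR φ).toRingHom) (f := f.toFun) M.isLattice2
    (fun _ => C.mapR_mem_sub φ) f.span2 f.dualFun f.dualFun_apply

/-- Base change of products. -/
def tensor (f : Hom φ M M') (g : Hom φ N N') : Hom φ (M.tensor N) (M'.tensor N') where
  toFun := tensorHom (C.mapR φ).toRingHom f.toFun g.toFun f.map_smul g.map_smul
  map_smul := tensorHom_smul
  span1 := span_tensorHom (fun _ => C.mapR_mem_sub φ) f.span1 g.span1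
  span2 := span_tensorHom (fun _ => C.mapR_mem_sub φ) f.span2 g.span2

/-- Base change of differences. -/
def diff (f : Hom φ M M') (g : Hom φ N N') : Hom φ (M.diff N) (M'.diff N') := f.tensor g.dual

end Hom

end Glued

end Fermat.Agent.Row24.Chart

end
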