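import Fermat.Agent.Row24.Cech.Chart
import Fermat.Agent.Row24.TwoTerm.Bijective
import Mathlib.RingTheory.DedekindDomain.Basic
import Mathlib.RingTheory.PicardGroup
import Mathlib.RingTheory.TensorProduct.Basic

/-!
# Line bundles on a curve with two affine charts, as modules

`CurveRings` records the rings of a two-chart cover `U₁ = C ∖ O`, `U₂ ∋ O` of a smooth proper
curve. A line bundle on `C × Spec A` becomes `Glued C A`: a module over the ring of the overlap
with two lattices.
-/

set_option autoImplicit false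

universe u

noncomputable section

namespace Fermat.Agent.Row24.Chart

open TensorProduct

/-- The rings of two affine charts of a curve, the first being the complement of a point. -/
structure CurveRings (k : Type u) [Field k] where
  /-- functions on the overlap -/
  B12 : Type u
  [commRing : CommRing B12]
  [isDomain : IsDomain B12]
  [algebra : Algebra k B12]
  /-- functions on the complement of the point -/
  B1 : Subalgebra k B12
  /-- functions on the chart of the point -/
  B2 : Subalgebra k B12
  /-- a function with pole only at the point -/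
  x : B12
  /-- its inverse -/
  y : B12
  x_mem : x ∈ B1
  y_mem : y ∈ B2
  x_mul_y : x * y = 1
  loc1 : ∀ z, ∃ n : ℕ, z * x ^ n ∈ B1
  loc2 : ∀ z, ∃ n : ℕ, z * y ^ n ∈ B2
  isDedekind1 : IsDedekindDomain B1
  isDedekind2 : IsDedekindDomain B2
  finite1 : (Polynomial.aeval (R := k) (⟨x, x_mem⟩ : B1)).toRingHom.Finite
  finite2 : (Polynomial.aeval (R := k) (⟨y, y_mem⟩ : B2)).toRingHom.Finite
  inf_eq : B1 ⊓ B2 = ⊥
  /-- evaluation at the point -/
  aug : B2 →ₐ[k] k
  aug_y : aug ⟨y, y_mem⟩ = 0
  exists_pow_ker_aug_le : ∃ d : ℕ, (RingHom.ker aug) ^ d ≤ Ideal.span {(⟨y, y_mem⟩ : B2)}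
  /-- the genus -/
  g : ℕ
  /-- the first cohomology of the structure sheaf -/
  h1Equiv : (B12 ⧸ (Subalgebra.toSubmodule B1 ⊔ Subalgebra.toSubmodule B2)) ≃ₗ[k] (Fin g → k)

attribute [instance] CurveRings.commRing CurveRings.isDomain CurveRings.algebra

namespace CurveRings

variable {k : Type u} [Field k] (C : CurveRings k)
variable (A : Type u) [CommRing A] [Algebra k A]

/-- Functions on the overlap over `A`. -/
abbrev R12 : Type u := A ⊗[k] C.B12

/-- Extension of scalars of a subalgebra, inside the overlap ring. -/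
def sub (B : Subalgebra k C.B12) : Subalgebra A (C.R12 A) :=
  (Algebra.TensorProduct.map (AlgHom.id A A) B.val).range

/-- Functions on the first chart over `A`. -/
abbrev R1 : Subalgebra A (C.R12 A) := C.sub A C.B1

/-- Functions on the second chart over `A`. -/
abbrev R2 : Subalgebra A (C.R12 A) := C.sub A C.B2

variable {A}

theorem map_val_injective (B : Subalgebra k C.B12) :
    Function.Injective (Algebra.TensorProduct.map (AlgHom.id A A) B.val) :=
  Module.Flat.lTensor_preserves_injective_linearMap (M := A) B.val.toLinearMap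
    Subtype.val_injective

variable (A) in
/-- The extension of scalars of a subalgebra is the tensor product. -/
def subEquiv (B : Subalgebra k C.B12) : A ⊗[k] B ≃ₐ[A] C.sub A B :=
  AlgEquiv.ofInjective _ (C.map_val_injective B)

@[simp] theorem subEquiv_tmul (B : Subalgebra k C.B12) (a : A) (z : B) :
    ((C.subEquiv A B) (a ⊗ₜ z) : C.R12 A) = a ⊗ₜ (z : C.B12) := rfl

theorem tmul_mem_sub {B : Subalgebra k C.B12} (a : A) {z : C.B12} (hz : z ∈ B) :
    a ⊗ₜ z ∈ C.sub A B := ⟨a ⊗ₜ ⟨z, hz⟩, rfl⟩

variable (A) in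
/-- The coordinate `x` over `A`. -/
def xA : C.R12 A := 1 ⊗ₜ C.x

variable (A) in
/-- The coordinate `y` over `A`. -/
def yA : C.R12 A := 1 ⊗ₜ C.y

theorem xA_mem : C.xA A ∈ C.R1 A := C.tmul_mem_sub 1 C.x_mem

theorem yA_mem : C.yA A ∈ C.R2 A := C.tmul_mem_sub 1 C.y_mem

@[simp] theorem xA_mul_yA : C.xA A * C.yA A = 1 := by
  rw [xA, yA, Algebra.TensorProduct.tmul_mul_tmul, one_mul, C.x_mul_y]; rfl

@[simp] theorem yA_mul_xA : C.yA A * C.xA A = 1 := by rw [mul_comm, xA_mul_yA]

theorem isUnit_xA : IsUnit (C.xA A) := .of_mul_eq_one _ C.xA_mul_yA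

theorem isUnit_yA : IsUnit (C.yA A) := .of_mul_eq_one _ C.yA_mul_xA

variable (A) in
/-- Evaluation at the point over `A`. -/
def augA : C.R2 A →ₐ[A] A :=
  ((Algebra.TensorProduct.rid k A A).toAlgHom.comp
    (Algebra.TensorProduct.map (AlgHom.id A A) C.aug)).comp (C.subEquiv A C.B2).symm.toAlgHom

@[simp] theorem augA_subEquiv_tmul (a : A) (z : C.B2) :
    C.augA A ((C.subEquiv A C.B2) (a ⊗ₜ z)) = C.aug z • a := by
  simp [augA]

section Map

variable {A' : Type u} [CommRing A'] [Algebra k A'] (φ : A →ₐ[k] A')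

/-- Functoriality of the overlap ring. -/
def mapR : C.R12 A →ₐ[k] C.R12 A' := Algebra.TensorProduct.map φ (AlgHom.id k C.B12)

@[simp] theorem mapR_tmul (a : A) (z : C.B12) : C.mapR φ (a ⊗ₜ z) = φ a ⊗ₜ z := rfl

@[simp] theorem mapR_algebraMap (a : A) :
    C.mapR φ (algebraMap A (C.R12 A) a) = algebraMap A' (C.R12 A') (φ a) := rfl

theorem mapR_mem_sub {B : Subalgebra k C.B12} {r : C.R12 A} (hr : r ∈ C.sub A B) :
    C.mapR φ r ∈ C.sub A' B := by
  obtain ⟨w, rfl⟩ := hr
  refine ⟨Algebra.TensorProduct.map φ (AlgHom.id k B) w, ?_⟩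
  induction w using TensorProduct.induction_on with
  | zero => simp
  | tmul a z => rfl
  | add v w hv hw => simp only [map_add] at hv hw ⊢; rw [hv, hw]

@[simp] theorem mapR_xA : C.mapR φ (C.xA A) = C.xA A' := by simp [xA]

@[simp] theorem mapR_yA : C.mapR φ (C.yA A) = C.yA A' := by simp [yA]

theorem mapR_id : C.mapR (AlgHom.id k A) = AlgHom.id k (C.R12 A) :=
  Algebra.TensorProduct.map_id

theorem mapR_comp {A'' : Type u} [CommRing A''] [Algebra k A''] (ψ : A' →ₐ[k] A'') (r : C.R12 A) :
    C.mapR (ψ.comp φ) r = C.mapR ψ (C.mapR φ r) := by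
  induction r using TensorProduct.induction_on with
  | zero => simp
  | tmul a z => simp
  | add v w hv hw => rw [map_add, map_add, map_add, hv, hw]

end Map

end CurveRings

variable {k : Type u} [Field k]

/-- A line bundle on the curve over `A`, as a module on the overlap with two lattices. -/
structure Glued (C : CurveRings k) (A : Type u) [CommRing A] [Algebra k A] where
  /-- sections on the overlap -/
  carrier : Type u
  [addCommGroup : AddCommGroup carrier]
  [moduleA : Module A carrier]
  [module : Module (C.R12 A) carrier]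
  [tower : IsScalarTower A (C.R12 A) carrier]
  [invertible : Module.Invertible (C.R12 A) carrier]
  /-- sections on the first chart -/
  M1 : Submodule (C.R1 A) carrier
  /-- sections on the second chart -/
  M2 : Submodule (C.R2 A) carrier
  [invertible1 : Module.Invertible (C.R1 A) M1]
  [invertible2 : Module.Invertible (C.R2 A) M2]
  loc1 : ∀ m, ∃ n : ℕ, C.xA A ^ n • m ∈ M1
  loc2 : ∀ m, ∃ n : ℕ, C.yA A ^ n • m ∈ M2

attribute [instance] Glued.addCommGroup Glued.moduleA Glued.module Glued.tower Glued.invertible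
  Glued.invertible1 Glued.invertible2

namespace Glued

variable {C : CurveRings k} {A : Type u} [CommRing A] [Algebra k A] (M : Glued C A)

/-- Sections on the second chart vanishing at the point. -/
def M2O : Submodule (C.R2 A) M.carrier := RingHom.ker (C.augA A) • M.M2

theorem M2O_le : M.M2O ≤ M.M2 := Submodule.smul_le_right

/-! Shortcut instances: the searches through subalgebras and lattices are slow. -/

instance : Module A M.M1 := M.M1.module'
instance : Module A M.M2 := M.M2.module'
instance : Module A M.M2O := M.M2O.module'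
instance : Module A (M.M1 × M.M2) := Prod.instModule
instance : Module A (M.M1 × M.M2O) := Prod.instModule
instance : SMul (C.R1 A) M.M1 := M.M1.module.toDistribMulAction.toMulAction.toSMul
instance : SMul (C.R2 A) M.M2 := M.M2.module.toDistribMulAction.toMulAction.toSMul

/-- The Čech differential of the bundle twisted down at the point. -/
def cechO : (M.M1 × M.M2O) →ₗ[A] M.carrier :=
  cechDiff (A := A) (M₁ := M.M1) (M₂ := M.M2O) (N := M.carrier)
    (M.M1.subtype.restrictScalars A) (M.M2O.subtype.restrictScalars A)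

@[simp] theorem cechO_apply (p : M.M1 × M.M2O) :
    M.cechO p = (p.1 : M.carrier) - (p.2 : M.carrier) := cechDiff_apply _ _ p

/-- Both cohomology groups of the bundle twisted down at the point vanish. -/
def Vanish : Prop := Function.Bijective M.cechO

/-- The global sections. -/
def h0 : Submodule A M.carrier := M.M1.restrictScalars A ⊓ M.M2.restrictScalars A

theorem mem_h0 {s : M.carrier} : s ∈ M.h0 ↔ s ∈ M.M1 ∧ s ∈ M.M2 := Iff.rfl

/-- The fibre at the point is free. -/
def Rigid : Prop := ∃ e ∈ M.M2, ∀ m ∈ M.M2, ∃! a : A, m - a • e ∈ M.M2O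

/-- The ideal on the first chart of the divisor of the global sections. -/
def divIdeal : Ideal (C.R1 A) where
  carrier := {r | ∀ m ∈ M.M1, r • m ∈ Submodule.span (C.R1 A) (M.h0 : Set M.carrier)}
  add_mem' hr hr' m hm := by rw [add_smul]; exact add_mem (hr m hm) (hr' m hm)
  zero_mem' m _ := by rw [zero_smul]; exact zero_mem _
  smul_mem' c r hr m hm := by
    rw [smul_eq_mul, mul_smul]; exact Submodule.smul_mem _ _ (hr m hm)

variable {g : ℕ} (b : Fin g → C.B1)

/-- The chosen functions span the functions on the divisor. -/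
def Onto : Prop :=
  ∀ r : C.R1 A, ∃ a : Fin g → A,
    r - ∑ i, a i • C.subEquiv A C.B1 (1 ⊗ₜ b i) ∈ M.divIdeal

/-- The condition of the chart. -/
structure ChartCond : Prop where
  rigid : M.Rigid
  vanish : M.Vanish
  onto : M.Onto b

variable {A' : Type u} [CommRing A'] [Algebra k A']

/-- A map exhibiting a bundle as a base change. -/
structure Hom (φ : A →ₐ[k] A') (M : Glued C A) (M' : Glued C A') where
  /-- the map on sections over the overlap -/
  toFun : M.carrier →+ M'.carrier
  map_smul : ∀ (r : C.R12 A) (m : M.carrier), toFun (r • m) = C.mapR φ r • toFun m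
  span1 : Submodule.span (C.R1 A') (toFun '' M.M1) = M'.M1
  span2 : Submodule.span (C.R2 A') (toFun '' M.M2) = M'.M2

/-- Isomorphism of bundles. -/
structure Iso (M M' : Glued C A) where
  /-- the map on sections over the overlap -/
  equiv : M.carrier ≃ₗ[C.R12 A] M'.carrier
  mem1 : ∀ m, equiv m ∈ M'.M1 ↔ m ∈ M.M1
  mem2 : ∀ m, equiv m ∈ M'.M2 ↔ m ∈ M.M2

namespace Hom

variable {φ : A →ₐ[k] A'} {M} {M' : Glued C A'} (f : Hom φ M M')

theorem mem1 {m : M.carrier} (hm : m ∈ M.M1) : f.toFun m ∈ M'.M1 :=
  f.span1 ▸ Submodule.subset_span ⟨m, hm, rfl⟩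

theorem mem2 {m : M.carrier} (hm : m ∈ M.M2) : f.toFun m ∈ M'.M2 :=
  f.span2 ▸ Submodule.subset_span ⟨m, hm, rfl⟩

theorem map_smul_base (a : A) (m : M.carrier) : f.toFun (a • m) = φ a • f.toFun m := by
  rw [← algebraMap_smul (C.R12 A) a m, f.map_smul, C.mapR_algebraMap, algebraMap_smul]

end Hom

namespace Iso

/-- The identity. -/
def refl (M : Glued C A) : Iso M M := ⟨LinearEquiv.refl _ _, fun _ => Iff.rfl, fun _ => Iff.rfl⟩

variable {M} {M' M'' : Glued C A}

/-- The inverse. -/
def symm (e : Iso M M') : Iso M' M :=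
  ⟨e.equiv.symm, fun m => by simpa using (e.mem1 (e.equiv.symm m)).symm,
    fun m => by simpa using (e.mem2 (e.equiv.symm m)).symm⟩

/-- The composite. -/
def trans (e : Iso M M') (e' : Iso M' M'') : Iso M M'' :=
  ⟨e.equiv.trans e'.equiv, fun m => (e'.mem1 _).trans (e.mem1 m),
    fun m => (e'.mem2 _).trans (e.mem2 m)⟩

/-- An isomorphism is a base change along the identity. -/
def toHom (e : Iso M M') : Hom (AlgHom.id k A) M M' where
  toFun := e.equiv.toAddEquiv.toAddMonoidHom
  map_smul r m := by rw [C.mapR_id]; exact map_smul e.equiv r m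
  span1 := by
    refine le_antisymm (Submodule.span_le.2 ?_) fun m hm => Submodule.subset_span
      ⟨e.equiv.symm m, (e.symm.mem1 m).2 hm, e.equiv.apply_symm_apply m⟩
    rintro _ ⟨m, hm, rfl⟩
    exact (e.mem1 m).2 hm
  span2 := by
    refine le_antisymm (Submodule.span_le.2 ?_) fun m hm => Submodule.subset_span
      ⟨e.equiv.symm m, (e.symm.mem2 m).2 hm, e.equiv.apply_symm_apply m⟩
    rintro _ ⟨m, hm, rfl⟩
    exact (e.mem2 m).2 hm

end Iso

end Glued

end Fermat.Agent.Row24.Chart

end
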