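import Fermat.Agent.Row24.Chart.Data
import Fermat.Agent.Row24.InvertibleModule

/-!
# Lattices in invertible modules and operations on glued bundles

A submodule over a subring is an invertible lattice iff a finite family of functionals which are
integral on it takes the value `1`. This gives trivial bundle, tensor product, dual, base change.
-/

set_option autoImplicit false

universe u

noncomputable section

namespace Fermat.Agent.Row24.Chart

open TensorProduct

/-- For an invertible module `φ m • m' = φ m' • m`. -/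
theorem apply_smul_comm {S M : Type*} [CommRing S] [AddCommGroup M] [Module S M]
    [Module.Invertible S M] (φ : M →ₗ[S] S) (m m' : M) : φ m • m' = φ m' • m := by
  have h := congrArg ((TensorProduct.lid S M).toLinearMap ∘ₗ φ.rTensor M)
    (Module.Invertible.tmul_comm (R := S) (M := M) (m₁ := m) (m₂ := m'))
  simpa using h

section Lattice

variable {A S M : Type*} [CommRing A] [CommRing S] [Algebra A S] [AddCommGroup M] [Module S M]

/-- Integral functionals on `N` take the value `1`. -/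
def IsLattice (T : Subalgebra A S) (N : Submodule T M) : Prop :=
  ∃ (n : ℕ) (φ : Fin n → M →ₗ[S] S) (v : Fin n → M),
    (∀ i, v i ∈ N) ∧ (∀ i, ∀ m ∈ N, φ i m ∈ T) ∧ ∑ i, φ i (v i) = 1

variable {T : Subalgebra A S} {N : Submodule T M}

theorem IsLattice.intro {ι : Type*} [Fintype ι] (φ : ι → M →ₗ[S] S) (v : ι → M)
    (hv : ∀ i, v i ∈ N) (hφ : ∀ i, ∀ m ∈ N, φ i m ∈ T) (h1 : ∑ i, φ i (v i) = 1) :
    IsLattice T N := by
  let e := (Fintype.equivFin ι).symm
  exact ⟨Fintype.card ι, fun i => φ (e i), fun i => v (e i), fun i => hv _, fun i => hφ _,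
    (e.sum_comp fun i => φ i (v i)).trans h1⟩

variable [Module.Invertible S M]

theorem sum_smul_eq {ι : Type*} [Fintype ι] (φ : ι → M →ₗ[S] S) (v : ι → M)
    (h1 : ∑ i, φ i (v i) = 1) (m : M) : ∑ i, φ i m • v i = m := by
  simp only [apply_smul_comm _ m, ← Finset.sum_smul, h1, one_smul]

/-- Membership is detected by the functionals. -/
theorem mem_of_forall_apply_mem {ι : Type*} [Fintype ι] (φ : ι → M →ₗ[S] S) (v : ι → M)
    (hv : ∀ i, v i ∈ N) (h1 : ∑ i, φ i (v i) = 1) {m : M} (hm : ∀ i, φ i m ∈ T) : m ∈ N := by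
  rw [← sum_smul_eq φ v h1 m]
  exact sum_mem fun i _ => N.smul_mem (⟨φ i m, hm i⟩ : T) (hv i)

theorem IsLattice.invertible (h : IsLattice T N) : Module.Invertible T N := by
  obtain ⟨n, φ, v, hv, hφ, h1⟩ := h
  let ψ : Fin n → N →ₗ[T] T := fun i =>
    { toFun := fun m => ⟨φ i m, hφ i m m.2⟩
      map_add' := fun a b => Subtype.ext (map_add (φ i) (a : M) b)
      map_smul' := fun c a => Subtype.ext (map_smul (φ i) (c : S) (a : M)) }
  have h1' : ∑ i, ψ i ⟨v i, hv i⟩ = 1 := Subtype.ext (by simpa [ψ] using h1)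
  have hsum : ∀ m : N, ∑ i, ψ i m • (⟨v i, hv i⟩ : N) = m := fun m =>
    Subtype.ext (by simpa [ψ, Subalgebra.smul_def] using sum_smul_eq φ v h1 (m : M))
  refine Fermat.Agent.Row24.moduleInvertible_of_swap ?_ ?_
  · intro f a b
    have hcomm : ∀ i, ψ i b • a = ψ i a • b := fun i => Subtype.ext (apply_smul_comm (φ i) _ _)
    calc f a • b = f a • ∑ i, ψ i b • (⟨v i, hv i⟩ : N) := by rw [hsum]
      _ = ∑ i, f (ψ i b • a) • (⟨v i, hv i⟩ : N) := by
        rw [Finset.smul_sum]
        refine Finset.sum_congr rfl fun i _ => ?_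
        rw [map_smul, smul_smul, smul_eq_mul, mul_comm]
      _ = ∑ i, f (ψ i a • b) • (⟨v i, hv i⟩ : N) := by simp only [hcomm]
      _ = f b • ∑ i, ψ i a • (⟨v i, hv i⟩ : N) := by
        rw [Finset.smul_sum]
        refine Finset.sum_congr rfl fun i _ => ?_
        rw [map_smul, smul_smul, smul_eq_mul, mul_comm]
      _ = f b • a := by rw [hsum]
  · rw [Ideal.eq_top_iff_one, ← h1']
    exact sum_mem fun i _ => Ideal.subset_span ⟨(ψ i, ⟨v i, hv i⟩), rfl⟩

theorem IsLattice.exists_pow_smul_mem (h : IsLattice T N) {x : S} (hx : x ∈ T)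
    (hloc : ∀ z : S, ∃ e : ℕ, z * x ^ e ∈ T) (m : M) : ∃ e : ℕ, x ^ e • m ∈ N := by
  obtain ⟨n, φ, v, hv, hφ, h1⟩ := h
  choose e he using fun i => hloc (φ i m)
  refine ⟨Finset.univ.sup e, mem_of_forall_apply_mem φ v hv h1 fun i => ?_⟩
  rw [map_smul, smul_eq_mul,
    ← Nat.sub_add_cancel (Finset.le_sup (f := e) (Finset.mem_univ i)), pow_add, mul_assoc]
  exact T.mul_mem (pow_mem hx _) (by rw [mul_comm]; exact he i)

omit [Module.Invertible S M] in
/-- A functional on a lattice extends to the whole module. -/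
theorem exists_extend {x : S} (hx : x ∈ T) (hu : IsUnit x)
    (hlocS : ∀ z : S, ∃ e : ℕ, z * x ^ e ∈ T) (hloc : ∀ m : M, ∃ e : ℕ, x ^ e • m ∈ N)
    (g : N →ₗ[T] T) : ∃ φ : M →ₗ[S] S, ∀ m (hm : m ∈ N), φ m = (g ⟨m, hm⟩ : S) := by
  choose e he using hloc
  set w := hu.unit
  let f : M → S := fun m => ↑(w⁻¹ ^ e m) * (g ⟨_, he m⟩ : S)
  have key : ∀ m l (hl : x ^ l • m ∈ N), x ^ l * f m = (g ⟨_, hl⟩ : S) := by
    intro m l hl
    have h1 : (⟨x, hx⟩ : T) ^ l • (⟨_, he m⟩ : N) = (⟨x, hx⟩ : T) ^ e m • (⟨_, hl⟩ : N) := by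
      apply Subtype.ext
      show (x ^ l : S) • x ^ e m • m = (x ^ e m : S) • x ^ l • m
      rw [smul_comm]
    have h2 := congrArg (fun t : T => (t : S)) (congrArg g h1)
    simp only [map_smul, smul_eq_mul, MulMemClass.coe_mul, SubmonoidClass.coe_pow] at h2
    have h3 : (↑(w⁻¹ ^ e m) : S) * x ^ e m = 1 := by
      rw [inv_pow, ← hu.unit_spec, ← Units.val_pow_eq_pow_val, ← Units.val_mul, inv_mul_cancel]; rfl
    simp only [f]
    rw [← mul_assoc, mul_comm (x ^ l) _, mul_assoc, h2, ← mul_assoc, h3, one_mul]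
  have cancel : ∀ {a b : S} (l : ℕ), x ^ l * a = x ^ l * b → a = b := fun l h =>
    (hu.pow l).mul_left_cancel h
  refine ⟨{ toFun := f, map_add' := ?_, map_smul' := ?_ }, fun m hm => ?_⟩
  · intro a b
    set l := e a + e b
    have ha : x ^ l • a ∈ N := by
      rw [show l = e b + e a from Nat.add_comm _ _, pow_add, mul_smul]
      exact N.smul_mem (⟨_, pow_mem hx _⟩ : T) (he a)
    have hb : x ^ l • b ∈ N := by
      rw [pow_add, mul_smul]
      exact N.smul_mem (⟨_, pow_mem hx _⟩ : T) (he b)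
    have hab : x ^ l • (a + b) ∈ N := by rw [smul_add]; exact add_mem ha hb
    apply cancel l
    rw [mul_add, key _ _ ha, key _ _ hb, key _ _ hab, ← Subalgebra.coe_add, ← map_add]
    exact congrArg (fun n => (g n : S)) (Subtype.ext (smul_add _ _ _))
  · intro z a
    obtain ⟨l, hl⟩ := hlocS z
    have ha : x ^ (l + e a) • z • a ∈ N := by
      rw [smul_smul, show x ^ (l + e a) * z = z * x ^ l * x ^ e a by rw [pow_add]; ring, mul_smul]
      exact N.smul_mem (⟨_, hl⟩ : T) (he a)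
    apply cancel (l + e a)
    rw [key _ _ ha, RingHom.id_apply, smul_eq_mul]
    have : (⟨_, ha⟩ : N) = (⟨_, hl⟩ : T) • (⟨_, he a⟩ : N) := by
      apply Subtype.ext
      show x ^ (l + e a) • z • a = (z * x ^ l) • x ^ e a • a
      rw [smul_smul, smul_smul, pow_add]; congr 1; ring
    rw [this, map_smul, smul_eq_mul, MulMemClass.coe_mul, ← key _ _ (he a), pow_add]
    ring
  · have hm' : x ^ 0 • m ∈ N := by simpa using hm
    show f m = _
    rw [show f m = x ^ 0 * f m by simp, key m 0 hm']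
    exact congrArg (fun n => (g n : S)) (Subtype.ext (by simp))

omit [Module.Invertible S M] in
theorem isLattice_of_invertible [Module.Invertible T N] {x : S} (hx : x ∈ T) (hu : IsUnit x)
    (hlocS : ∀ z : S, ∃ e : ℕ, z * x ^ e ∈ T) (hloc : ∀ m : M, ∃ e : ℕ, x ^ e • m ∈ N) :
    IsLattice T N := by
  classical
  obtain ⟨t, ht⟩ := (Module.Invertible.bijective (R := T) (M := N)).2 1
  obtain ⟨s, hs⟩ := TensorProduct.exists_finset t
  have h1 : ∑ p ∈ s, p.1 p.2 = 1 := by
    rw [← ht, hs, map_sum]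
    exact Finset.sum_congr rfl fun p _ => (contractLeft_apply _ _).symm
  choose φ hφ using fun p : s => exists_extend hx hu hlocS hloc p.1.1
  refine IsLattice.intro φ (fun p => (p.1.2 : M)) (fun p => p.1.2.2)
    (fun p m hm => by rw [hφ p m hm]; exact SetLike.coe_mem _) ?_
  rw [← Finset.sum_coe_sort s] at h1
  have h1' := congrArg T.val h1
  rw [map_sum, map_one] at h1'
  rw [← h1']
  exact Finset.sum_congr rfl fun p _ => hφ p _ p.1.2.2

end Lattice

namespace CurveRings

variable {k : Type u} [Field k] (C : CurveRings k) {A : Type u} [CommRing A] [Algebra k A]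

theorem exists_mul_pow_mem_sub {B : Subalgebra k C.B12} {t : C.B12} (ht : t ∈ B)
    (hloc : ∀ z, ∃ n : ℕ, z * t ^ n ∈ B) (r : C.R12 A) :
    ∃ n : ℕ, r * (1 ⊗ₜ t) ^ n ∈ C.sub A B := by
  induction r using TensorProduct.induction_on with
  | zero => exact ⟨0, by simp⟩
  | tmul a z =>
    obtain ⟨n, hn⟩ := hloc z
    exact ⟨n, by
      rw [Algebra.TensorProduct.tmul_pow, one_pow, Algebra.TensorProduct.tmul_mul_tmul, mul_one]
      exact C.tmul_mem_sub a hn⟩
  | add v w hv hw =>
    obtain ⟨n, hn⟩ := hv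
    obtain ⟨l, hl⟩ := hw
    refine ⟨n + l, ?_⟩
    rw [add_mul]
    refine add_mem ?_ ?_
    · rw [pow_add, ← mul_assoc]
      exact mul_mem hn (pow_mem (C.tmul_mem_sub 1 ht) _)
    · rw [add_comm n l, pow_add, ← mul_assoc]
      exact mul_mem hl (pow_mem (C.tmul_mem_sub 1 ht) _)

theorem exists_mul_xA_mem (r : C.R12 A) : ∃ n : ℕ, r * C.xA A ^ n ∈ C.R1 A :=
  C.exists_mul_pow_mem_sub C.x_mem C.loc1 r

theorem exists_mul_yA_mem (r : C.R12 A) : ∃ n : ℕ, r * C.yA A ^ n ∈ C.R2 A :=
  C.exists_mul_pow_mem_sub C.y_mem C.loc2 r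

theorem one_mem_ker_add {r : C.R2 A} (h : C.augA A r = 1) : 1 - r ∈ RingHom.ker (C.augA A) := by
  rw [RingHom.mem_ker, map_sub, map_one, h, sub_self]

end CurveRings

namespace Glued

variable {k : Type u} [Field k] {C : CurveRings k} {A : Type u} [CommRing A] [Algebra k A]

theorem isLattice1 (M : Glued C A) : IsLattice (C.R1 A) M.M1 :=
  isLattice_of_invertible C.xA_mem C.isUnit_xA C.exists_mul_xA_mem M.loc1

theorem isLattice2 (M : Glued C A) : IsLattice (C.R2 A) M.M2 :=
  isLattice_of_invertible C.yA_mem C.isUnit_yA C.exists_mul_yA_mem M.loc2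

/-- A glued bundle from two lattices. -/
@[reducible] def ofLattices (M : Type u) [AddCommGroup M] [Module A M] [Module (C.R12 A) M]
    [IsScalarTower A (C.R12 A) M] [Module.Invertible (C.R12 A) M]
    (M1 : Submodule (C.R1 A) M) (M2 : Submodule (C.R2 A) M)
    (h1 : IsLattice (C.R1 A) M1) (h2 : IsLattice (C.R2 A) M2) : Glued C A where
  carrier := M
  M1 := M1
  M2 := M2
  invertible1 := h1.invertible
  invertible2 := h2.invertible
  loc1 := h1.exists_pow_smul_mem C.xA_mem C.exists_mul_xA_mem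
  loc2 := h2.exists_pow_smul_mem C.yA_mem C.exists_mul_yA_mem

theorem augA_mul_eq_zero (M : Glued C A) (φ : M.carrier →ₗ[C.R12 A] C.R12 A)
    (hφ : ∀ m ∈ M.M2, φ m ∈ C.R2 A) {m : M.carrier} (hm : m ∈ M.M2O) :
    C.augA A ⟨φ m, hφ m (M.M2O_le hm)⟩ = 0 := by
  suffices ∀ h, C.augA A ⟨φ m, h⟩ = 0 from this _
  induction hm using Submodule.smul_induction_on' with
  | smul r hr n hn =>
    intro h
    have : (⟨φ (r • n), h⟩ : C.R2 A) = r * ⟨φ n, hφ n hn⟩ := Subtype.ext (map_smul φ (r : C.R12 A) n)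
    rw [this, map_mul, RingHom.mem_ker.1 hr, zero_mul]
  | add a ha b hb iha ihb =>
    intro h
    have : (⟨φ (a + b), h⟩ : C.R2 A) =
        ⟨φ a, hφ a (M.M2O_le ha)⟩ + ⟨φ b, hφ b (M.M2O_le hb)⟩ :=
      Subtype.ext (map_add φ a b)
    rw [this, map_add, iha, ihb, add_zero]

/-- The fibre at the point is free iff some integral functional takes a value `≡ 1` there. -/
theorem rigid_iff (M : Glued C A) : M.Rigid ↔
    ∃ e ∈ M.M2, ∃ φ : M.carrier →ₗ[C.R12 A] C.R12 A, (∀ m ∈ M.M2, φ m ∈ C.R2 A) ∧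
      ∃ h : φ e ∈ C.R2 A, C.augA A ⟨φ e, h⟩ = 1 := by
  constructor
  · rintro ⟨e, he, hu⟩
    obtain ⟨n, φ, v, hv, hφ, h1⟩ := M.isLattice2
    choose a ha using fun i => (hu _ (hv i)).exists
    have hψ : ∀ m ∈ M.M2, (∑ i, a i • φ i) m ∈ C.R2 A := by
      intro m hm
      rw [LinearMap.sum_apply]
      exact sum_mem fun i _ => Subalgebra.smul_mem _ (hφ i m hm) _
    refine ⟨e, he, _, hψ, hψ e he, ?_⟩
    have h0 := fun i => M.augA_mul_eq_zero (φ i) (hφ i) (ha i)
    have hsplit : (⟨(∑ i, a i • φ i) e, hψ e he⟩ : C.R2 A) =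
        1 - ∑ i, ⟨φ i (v i - a i • e), hφ i _ (M.M2O_le (ha i))⟩ := by
      apply Subtype.ext
      simp [map_sub, LinearMap.map_smul_of_tower, h1]
    rw [hsplit, map_sub, map_one, map_sum, Finset.sum_eq_zero (fun i _ => h0 i), sub_zero]
  · rintro ⟨e, he, φ, hφ, h, h1⟩
    refine ⟨e, he, fun m hm => ⟨C.augA A ⟨φ m, hφ m hm⟩, ?_, fun a ha => ?_⟩⟩
    · show m - C.augA A ⟨φ m, hφ m hm⟩ • e ∈ M.M2O
      set f : C.R2 A := ⟨φ m, hφ m hm⟩
      have hid : m - C.augA A f • e = (1 - ⟨φ e, h⟩ : C.R2 A) • m +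
          (f - algebraMap A (C.R2 A) (C.augA A f)) • e := by
        rw [sub_smul, sub_smul, one_smul, algebraMap_smul]
        have : (⟨φ e, h⟩ : C.R2 A) • m = f • e := apply_smul_comm φ e m
        rw [this]; abel
      rw [hid]
      refine add_mem (Submodule.smul_mem_smul (C.one_mem_ker_add h1) hm)
        (Submodule.smul_mem_smul ?_ he)
      rw [RingHom.mem_ker, map_sub, AlgHom.commutes]
      simp
    · have h0 := M.augA_mul_eq_zero φ hφ ha
      have : (⟨φ (m - a • e), hφ _ (M.M2O_le ha)⟩ : C.R2 A) =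
          ⟨φ m, hφ m hm⟩ - algebraMap A (C.R2 A) a * ⟨φ e, h⟩ := by
        apply Subtype.ext
        simp [map_sub, LinearMap.map_smul_of_tower, Algebra.smul_def]
      rw [this, map_sub, map_mul, AlgHom.commutes, h1, mul_one, sub_eq_zero] at h0
      rw [h0]; simp

section Trivial

variable (C A)

/-- The trivial bundle. -/
@[reducible] def trivial : Glued C A :=
  ofLattices (C.R12 A) (Submodule.span (C.R1 A) {1}) (Submodule.span (C.R2 A) {1})
    (IsLattice.intro (ι := Unit) (fun _ => LinearMap.id) (fun _ => 1)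
      (fun _ => Submodule.mem_span_singleton_self 1)
      (fun _ m hm => by
        obtain ⟨r, rfl⟩ := Submodule.mem_span_singleton.1 hm
        show (r : C.R12 A) * 1 ∈ _
        rw [mul_one]; exact r.2) (by simp))
    (IsLattice.intro (ι := Unit) (fun _ => LinearMap.id) (fun _ => 1)
      (fun _ => Submodule.mem_span_singleton_self 1)
      (fun _ m hm => by
        obtain ⟨r, rfl⟩ := Submodule.mem_span_singleton.1 hm
        show (r : C.R12 A) * 1 ∈ _
        rw [mul_one]; exact r.2) (by simp))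

end Trivial

theorem mem_span_one {T : Subalgebra A (C.R12 A)} {m : C.R12 A} :
    m ∈ Submodule.span T {(1 : C.R12 A)} ↔ m ∈ T := by
  rw [Submodule.mem_span_singleton]
  constructor
  · rintro ⟨r, rfl⟩
    show (r : C.R12 A) * 1 ∈ _
    rw [mul_one]; exact r.2
  · exact fun h => ⟨⟨m, h⟩, mul_one _⟩

namespace Hom

variable {A A' : Type u} [CommRing A] [Algebra k A] [CommRing A'] [Algebra k A'] {φ : A →ₐ[k] A'}
  {M : Glued C A} {M' : Glued C A'}

theorem span_range_eq_top (f : Hom φ M M') : Submodule.span (C.R12 A') (Set.range f.toFun) = ⊤ := by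
  refine eq_top_iff.2 fun m _ => ?_
  obtain ⟨n, hn⟩ := M'.loc1 m
  rw [← f.span1] at hn
  have h : C.xA A' ^ n • m ∈ Submodule.span (C.R12 A') (Set.range f.toFun) :=
    Submodule.span_le_restrictScalars (C.R1 A') (C.R12 A') _
      (Submodule.span_mono (Set.image_subset_range _ _) hn)
  exact (Submodule.smul_mem_iff_of_isUnit _ ((C.isUnit_xA (A := A')).pow n)).1 h

/-- A functional extends uniquely along a base change. -/
theorem exists_extendFun (f : Hom φ M M') (ψ : M.carrier →ₗ[C.R12 A] C.R12 A) :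
    ∃ ψ' : M'.carrier →ₗ[C.R12 A'] C.R12 A', ∀ m, ψ' (f.toFun m) = C.mapR φ (ψ m) := by
  let σ := (C.mapR φ).toRingHom
  let := σ.toAlgebra
  let := Module.compHom M'.carrier σ
  have : IsScalarTower (C.R12 A) (C.R12 A') M'.carrier :=
    IsScalarTower.of_algebraMap_smul fun _ _ => rfl
  let f₀ : M.carrier →ₗ[C.R12 A] M'.carrier :=
    { toFun := f.toFun
      map_add' := map_add f.toFun
      map_smul' := f.map_smul }
  let F := f₀.liftBaseChange (C.R12 A')
  have hF : Function.Surjective F := by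
    rw [← LinearMap.range_eq_top, eq_top_iff, ← f.span_range_eq_top, Submodule.span_le]
    rintro _ ⟨m, rfl⟩
    exact ⟨1 ⊗ₜ m, by simp [F, f₀]⟩
  let e := LinearEquiv.ofBijective F (Module.Invertible.bijective_of_surjective hF)
  refine ⟨(TensorProduct.AlgebraTensorModule.rid (C.R12 A) (C.R12 A') (C.R12 A')).toLinearMap ∘ₗ
    ψ.baseChange (C.R12 A') ∘ₗ e.symm.toLinearMap, fun m => ?_⟩
  have h : e.symm (f.toFun m) = 1 ⊗ₜ m :=
    e.symm_apply_eq.2 (by simp [e, F, f₀])
  simp [h, Algebra.smul_def, σ, RingHom.algebraMap_toAlgebra]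

end Hom

end Glued

end Fermat.Agent.Row24.Chart

end
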