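import Fermat.Agent.Row24.Chart.Ring
import Fermat.Agent.Row24.Chart.Data

/-!
# Points of the chart ring as ideals on the first chart

A cyclic representation with basis is the same as an ideal of `B₁ ⊗ A` whose quotient has the
chosen functions as a basis.
-/

set_option autoImplicit false

universe u

noncomputable section

namespace Fermat.Agent.Row24.Chart

open TensorProduct Matrix

variable {k : Type u} [Field k] {C : CurveRings k} {g : ℕ} {b : Fin g → C.B1}
  {A : Type u} [CommRing A] [Algebra k A]

variable (A) in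
/-- The chosen functions over `A`. -/
def CurveRings.bA (b : Fin g → C.B1) (i : Fin g) : C.R1 A := C.subEquiv A C.B1 (1 ⊗ₜ b i)

theorem CurveRings.finiteType_B1 (C : CurveRings k) : Algebra.FiniteType k C.B1 := by
  rw [← RingHom.finiteType_algebraMap,
    ← (Polynomial.aeval (R := k) (⟨C.x, C.x_mem⟩ : C.B1)).comp_algebraMap]
  exact RingHom.FiniteType.comp C.finite1.finiteType
    (RingHom.finiteType_algebraMap.2 inferInstance)

theorem CurveRings.sub_induction {B : Subalgebra k C.B12} {p : C.sub A B → Prop}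
    (tmul : ∀ (a : A) (z : B), p (C.subEquiv A B (a ⊗ₜ z))) (zero : p 0)
    (add : ∀ r s, p r → p s → p (r + s)) (r : C.sub A B) : p r := by
  obtain ⟨w, rfl⟩ := (C.subEquiv A B).surjective r
  induction w using TensorProduct.induction_on with
  | zero => rw [map_zero]; exact zero
  | tmul a z => exact tmul a z
  | add v w hv hw => rw [map_add]; exact add _ _ hv hw

namespace CyclicPt

/-- The action extended to `B₁ ⊗ A`. -/
def rhoA (P : CyclicPt k b A) : C.R1 A →ₐ[A] Matrix (Fin g) (Fin g) A :=
  (Algebra.TensorProduct.lift (Algebra.ofId A _) P.rho fun a c =>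
    Algebra.commutes (R := A) a (P.rho c)).comp (C.subEquiv A C.B1).symm.toAlgHom

@[simp] theorem rhoA_subEquiv (P : CyclicPt k b A) (a : A) (z : C.B1) :
    P.rhoA (C.subEquiv A C.B1 (a ⊗ₜ z)) = a • P.rho z := by
  simp [rhoA, Algebra.smul_def, Algebra.ofId_apply]

/-- Evaluation at the cyclic vector. -/
def ev (P : CyclicPt k b A) : C.R1 A →ₗ[A] (Fin g → A) where
  toFun r := P.rhoA r *ᵥ P.q
  map_add' r s := by rw [map_add, Matrix.add_mulVec]
  map_smul' a r := by rw [map_smul, Matrix.smul_mulVec, RingHom.id_apply]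

theorem ev_apply (P : CyclicPt k b A) (r : C.R1 A) : P.ev r = P.rhoA r *ᵥ P.q := rfl

theorem ev_mul (P : CyclicPt k b A) (r s : C.R1 A) : P.ev (r * s) = P.rhoA r *ᵥ P.ev s := by
  rw [ev_apply, ev_apply, map_mul, Matrix.mulVec_mulVec]

@[simp] theorem ev_bA (P : CyclicPt k b A) (i : Fin g) :
    P.ev (C.bA A b i) = Pi.single i 1 := by
  rw [ev_apply, CurveRings.bA, rhoA_subEquiv, one_smul, P.basis]

/-- The ideal of the divisor. -/
def ideal (P : CyclicPt k b A) : Ideal (C.R1 A) where
  carrier := {r | P.ev r = 0}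
  add_mem' {r s} hr hs := by
    simp only [Set.mem_ofPred_eq] at hr hs ⊢
    rw [map_add, hr, hs, add_zero]
  zero_mem' := map_zero P.ev
  smul_mem' c r hr := by
    simp only [Set.mem_ofPred_eq] at hr ⊢
    rw [smul_eq_mul, ev_mul, hr, Matrix.mulVec_zero]

theorem mem_ideal {P : CyclicPt k b A} {r : C.R1 A} : r ∈ P.ideal ↔ P.ev r = 0 := Iff.rfl

theorem ev_combination (P : CyclicPt k b A) (v : Fin g → A) :
    P.ev (∑ i, v i • C.bA A b i) = v := by
  rw [map_sum]
  funext j
  simp [Finset.sum_apply, Pi.single_apply]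

theorem ev_surjective (P : CyclicPt k b A) : Function.Surjective P.ev :=
  fun v => ⟨_, P.ev_combination v⟩

theorem sub_combination_mem (P : CyclicPt k b A) (r : C.R1 A) :
    r - ∑ i, P.ev r i • C.bA A b i ∈ P.ideal := by
  rw [mem_ideal, map_sub, ev_combination, sub_self]

theorem eq_zero_of_combination_mem (P : CyclicPt k b A) {v : Fin g → A}
    (h : ∑ i, v i • C.bA A b i ∈ P.ideal) : v = 0 := by
  rwa [mem_ideal, ev_combination] at h

/-- The ideal determines the point. -/
theorem eq_of_ideal_eq {P P' : CyclicPt k b A} (h : P.ideal = P'.ideal) : P = P' := by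
  have hev : ∀ r, P.ev r = P'.ev r := fun r => by
    have h1 := h ▸ P.sub_combination_mem r
    rw [mem_ideal, map_sub, ev_combination, sub_eq_zero] at h1
    exact h1.symm
  refine CyclicPt.ext (AlgHom.ext fun z => ?_) ?_
  · refine Matrix.ext_of_mulVec_single fun i => ?_
    have h2 : ∀ Q : CyclicPt k b A, Q.rho z *ᵥ Pi.single i 1 =
        Q.ev (C.subEquiv A C.B1 (1 ⊗ₜ z) * C.bA A b i) := fun Q => by
      rw [ev_mul, ev_bA, rhoA_subEquiv, one_smul]
    rw [h2, h2, hev]
  · have h3 := hev 1
    simpa [ev_apply] using h3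

variable {A' : Type u} [CommRing A'] [Algebra k A'] (φ : A →ₐ[k] A')

/-- Base change of a function on the first chart. -/
def mapR1 (r : C.R1 A) : C.R1 A' := ⟨C.mapR φ r, C.mapR_mem_sub φ r.2⟩

theorem rhoA_map (P : CyclicPt k b A) (r : C.R1 A) :
    (P.map φ).rhoA (mapR1 φ r) = φ.mapMatrix (P.rhoA r) := by
  induction r using CurveRings.sub_induction with
  | tmul a z =>
    have : mapR1 φ (C.subEquiv A C.B1 (a ⊗ₜ z)) = C.subEquiv A' C.B1 (φ a ⊗ₜ z) :=
      Subtype.ext (by simp [mapR1])
    rw [this, rhoA_subEquiv, rhoA_subEquiv]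
    ext i j
    simp [CyclicPt.map, Matrix.smul_apply]
  | zero =>
    have : mapR1 φ (0 : C.R1 A) = 0 := Subtype.ext (map_zero (C.mapR φ))
    rw [this, map_zero, map_zero, map_zero]
  | add r s hr hs =>
    have : mapR1 φ (r + s) = mapR1 φ r + mapR1 φ s := Subtype.ext (map_add (C.mapR φ) _ _)
    rw [this, map_add, hr, hs, map_add, map_add]

theorem ev_map (P : CyclicPt k b A) (r : C.R1 A) :
    (P.map φ).ev (mapR1 φ r) = φ ∘ P.ev r := by
  rw [ev_apply, rhoA_map, ev_apply]
  exact funext fun i => ((φ : A →+* A').map_mulVec _ _ i).symm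

theorem mapR1_mem_ideal (P : CyclicPt k b A) {r : C.R1 A} (hr : r ∈ P.ideal) :
    mapR1 φ r ∈ (P.map φ).ideal := by
  rw [mem_ideal, ev_map, mem_ideal.1 hr]
  exact funext fun i => map_zero φ

section OfIdeal

variable {I : Ideal (C.R1 A)} (hs : ∀ r, ∃ v : Fin g → A, r - ∑ i, v i • C.bA A b i ∈ I)
  (hi : ∀ v : Fin g → A, ∑ i, v i • C.bA A b i ∈ I → v = 0)

/-- Coordinates modulo an ideal in the chosen functions. -/
def coords : C.R1 A →ₗ[A] (Fin g → A) where
  toFun r := (hs r).choose
  map_add' r s := sub_eq_zero.1 (hi _ (by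
    have h : ∑ i, ((hs (r + s)).choose - ((hs r).choose + (hs s).choose)) i • C.bA A b i =
        (r - ∑ i, (hs r).choose i • C.bA A b i) + (s - ∑ i, (hs s).choose i • C.bA A b i) -
          (r + s - ∑ i, (hs (r + s)).choose i • C.bA A b i) := by
      simp only [Pi.sub_apply, Pi.add_apply, sub_smul, add_smul, Finset.sum_sub_distrib,
        Finset.sum_add_distrib]
      abel
    rw [h]
    exact sub_mem (add_mem (hs r).choose_spec (hs s).choose_spec) (hs (r + s)).choose_spec))
  map_smul' a r := sub_eq_zero.1 (hi _ (by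
    have h : ∑ i, ((hs (a • r)).choose - a • (hs r).choose) i • C.bA A b i =
        a • (r - ∑ i, (hs r).choose i • C.bA A b i) -
          (a • r - ∑ i, (hs (a • r)).choose i • C.bA A b i) := by
      simp only [Pi.sub_apply, Pi.smul_apply, sub_smul, smul_sub, smul_assoc,
        Finset.sum_sub_distrib, Finset.smul_sum]
      abel
    rw [RingHom.id_apply, h]
    exact sub_mem (Submodule.smul_of_tower_mem I a (hs r).choose_spec) (hs (a • r)).choose_spec))

theorem sub_coords_mem (r : C.R1 A) : r - ∑ i, coords hs hi r i • C.bA A b i ∈ I :=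
  (hs r).choose_spec

theorem coords_eq {r : C.R1 A} {v : Fin g → A} (h : r - ∑ i, v i • C.bA A b i ∈ I) :
    coords hs hi r = v := by
  refine sub_eq_zero.1 (hi _ ?_)
  have : ∑ i, (coords hs hi r - v) i • C.bA A b i = (r - ∑ i, v i • C.bA A b i) -
      (r - ∑ i, coords hs hi r i • C.bA A b i) := by
    simp only [Pi.sub_apply, sub_smul, Finset.sum_sub_distrib]
    abel
  rw [this]
  exact sub_mem h (sub_coords_mem hs hi r)

theorem coords_eq_of_sub_mem {r s : C.R1 A} (h : r - s ∈ I) :
    coords hs hi r = coords hs hi s :=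
  coords_eq hs hi (by simpa using add_mem h (sub_coords_mem hs hi s))

/-- Multiplication on the quotient in coordinates. -/
def mulCoords : C.R1 A →ₐ[A] Module.End A (Fin g → A) :=
  AlgHom.ofLinearMap
    { toFun := fun z => coords hs hi ∘ₗ LinearMap.mulLeft A z ∘ₗ
        Fintype.linearCombination A (C.bA A b)
      map_add' := fun z z' => LinearMap.ext fun v => by simp [add_mul]
      map_smul' := fun a z => LinearMap.ext fun v => by simp }
    (LinearMap.ext fun v => coords_eq hs hi (by simp [Fintype.linearCombination_apply]))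
    (fun z z' => LinearMap.ext fun v => by
      simp only [LinearMap.coe_mk, AddHom.coe_mk, Module.End.mul_apply, LinearMap.comp_apply,
        LinearMap.mulLeft_apply, Fintype.linearCombination_apply]
      refine coords_eq_of_sub_mem hs hi ?_
      rw [mul_assoc, ← mul_sub]
      exact I.mul_mem_left _ (sub_coords_mem hs hi _))

/-- The point of an ideal with the chosen functions as a basis of the quotient. -/
def ofIdeal : CyclicPt k b A where
  rho := ((LinearMap.toMatrixAlgEquiv' (R := A) (n := Fin g)).toAlgHom.comp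
    (mulCoords hs hi)).restrictScalars k |>.comp
      (((C.subEquiv A C.B1).toAlgHom.restrictScalars k).comp Algebra.TensorProduct.includeRight)
  q := coords hs hi 1
  basis i := by
    show LinearMap.toMatrixAlgEquiv' (mulCoords hs hi (C.bA A b i)) *ᵥ coords hs hi 1 = _
    rw [← Matrix.toLinAlgEquiv'_apply, Matrix.toLinAlgEquiv'_toMatrixAlgEquiv']
    refine coords_eq hs hi ?_
    simp only [LinearMap.comp_apply, LinearMap.mulLeft_apply, Fintype.linearCombination_apply, Pi.single_apply, ite_smul,
      one_smul, zero_smul, Finset.sum_ite_eq', Finset.mem_univ, if_true]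
    rw [← mul_sub_one]
    exact I.mul_mem_left _ (by simpa using neg_mem (sub_coords_mem hs hi 1))

theorem rhoA_ofIdeal (r : C.R1 A) (v : Fin g → A) :
    (ofIdeal hs hi).rhoA r *ᵥ v = mulCoords hs hi r v := by
  have h : ∀ (r : C.R1 A), (ofIdeal hs hi).rhoA r =
      LinearMap.toMatrixAlgEquiv' (mulCoords hs hi r) := by
    intro r
    induction r using CurveRings.sub_induction with
    | tmul a z =>
      rw [rhoA_subEquiv, show a ⊗ₜ[k] z = a • ((1 : A) ⊗ₜ[k] z) by
          rw [TensorProduct.smul_tmul', smul_eq_mul, mul_one],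
        map_smul, map_smul, map_smul]
      rfl
    | zero => rw [map_zero, map_zero, map_zero]
    | add r s hr hs' => rw [map_add, hr, hs', map_add, map_add]
  rw [h, ← Matrix.toLinAlgEquiv'_apply, Matrix.toLinAlgEquiv'_toMatrixAlgEquiv']

theorem ev_ofIdeal (r : C.R1 A) : (ofIdeal hs hi).ev r = coords hs hi r := by
  rw [ev_apply, rhoA_ofIdeal]
  refine coords_eq_of_sub_mem hs hi ?_
  show r * Fintype.linearCombination A (C.bA A b) (coords hs hi 1) - r ∈ I
  rw [Fintype.linearCombination_apply, ← mul_sub_one]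
  exact I.mul_mem_left _ (by
    show (∑ i, coords hs hi 1 i • C.bA A b i) - 1 ∈ I
    simpa using neg_mem (sub_coords_mem hs hi 1))

theorem ideal_ofIdeal : (ofIdeal hs hi).ideal = I := by
  ext r
  rw [mem_ideal, ev_ofIdeal]
  constructor
  · intro h
    simpa [h] using sub_coords_mem hs hi r
  · exact fun h => coords_eq hs hi (by simpa using h)

end OfIdeal

end CyclicPt

end Fermat.Agent.Row24.Chart

end
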