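import Fermat.Agent.Row24.Chart.Ideal
import Fermat.Agent.Row24.Chart.Ops
import Fermat.Agent.Row24.Chart.Point
import Mathlib.RingTheory.Jacobson.Ring
import Mathlib.RingTheory.DedekindDomain.Ideal.Lemmas
import Mathlib.FieldTheory.IsAlgClosed.Basic
import Mathlib.LinearAlgebra.Matrix.Charpoly.Coeff

/-!
# The bundle of a divisor on the first chart

For a point of the chart ring over a finitely generated algebra, its ideal is invertible and,
together with the functions on the second chart, gives a glued bundle.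
-/

set_option autoImplicit false
set_option maxSynthPendingDepth 3

universe u

noncomputable section

namespace Fermat.Agent.Row24.Chart

open TensorProduct

variable {k : Type u} [Field k]

/-- A maximal ideal of a finitely generated algebra over an algebraically closed field is the
kernel of a point. -/
theorem exists_algHom_ker_eq [IsAlgClosed k] {S : Type*} [CommRing S] [Algebra k S]
    [Algebra.FiniteType k S] (P : Ideal S) [P.IsMaximal] :
    ∃ χ : S →ₐ[k] k, RingHom.ker χ = P := by
  let := Ideal.Quotient.field P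
  have : Module.Finite k (S ⧸ P) := finite_of_finite_type_of_isJacobsonRing k (S ⧸ P)
  let e := AlgEquiv.ofBijective (Algebra.ofId k (S ⧸ P))
    (IsAlgClosed.algebraMap_bijective_of_isIntegral (k := k) (K := S ⧸ P))
  refine ⟨e.symm.toAlgHom.comp (Ideal.Quotient.mkₐ k P), ?_⟩
  ext s
  simp [RingHom.mem_ker, Ideal.Quotient.eq_zero_iff_mem]

/-- In a Dedekind domain an ideal is principal away from any maximal ideal. -/
theorem exists_notMem_mul_mem_span {B : Type*} [CommRing B] [IsDedekindDomain B]
    {I : Ideal B} (hI : I ≠ ⊥) (P : Ideal B) [P.IsMaximal] :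
    ∃ f ∈ I, f ≠ 0 ∧ ∃ h ∉ P, ∀ s ∈ I, h * s ∈ Ideal.span {f} := by
  have hne : I * P ≠ I := fun h =>
    Ideal.IsMaximal.ne_top ‹_› (Ideal.one_eq_top (R := B) ▸ mul_left_cancel₀ hI (h.trans (mul_one I).symm))
  obtain ⟨f, hfI, hfP⟩ := SetLike.exists_of_lt (lt_of_le_of_ne Ideal.mul_le_left hne)
  obtain ⟨J, hJ⟩ := Ideal.dvd_iff_le.2 ((Ideal.span_singleton_le_iff_mem I).2 hfI)
  obtain ⟨h, hhJ, hhP⟩ := SetLike.not_le_iff_exists.1 fun hle : J ≤ P =>
    hfP (Ideal.mul_mono le_rfl hle (hJ ▸ Ideal.mem_span_singleton_self f))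
  exact ⟨f, hfI, fun h0 => hfP (h0 ▸ zero_mem _), h, hhP, fun s hs => by
    rw [hJ, mul_comm h]; exact Ideal.mul_mem_mul hs hhJ⟩

namespace CurveRings

variable (C : CurveRings k) {A : Type u} [CommRing A] [Algebra k A]

/-- Shortcut instance: the search for the module structure of an ideal is slow. -/
local instance (B : Subalgebra k C.B12) (I : Ideal (C.sub A B)) : Module (C.sub A B) I := I.module

instance free_sub (B : Subalgebra k C.B12) : Module.Free A (C.sub A B) :=
  Module.Free.of_equiv (C.subEquiv A B).toLinearEquiv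

theorem finiteType_sub [Algebra.FiniteType k A] (B : Subalgebra k C.B12)
    [Algebra.FiniteType k B] : Algebra.FiniteType k (C.sub A B) :=
  haveI : Algebra.FiniteType A (C.sub A B) :=
    (inferInstance : Algebra.FiniteType A (A ⊗[k] B)).equiv (C.subEquiv A B)
  Algebra.FiniteType.trans ‹Algebra.FiniteType k A› ‹Algebra.FiniteType A (C.sub A B)›

theorem finiteType_B2 : Algebra.FiniteType k C.B2 := by
  rw [← RingHom.finiteType_algebraMap,
    ← (Polynomial.aeval (R := k) (⟨C.y, C.y_mem⟩ : C.B2)).comp_algebraMap]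
  exact RingHom.FiniteType.comp C.finite2.finiteType
    (RingHom.finiteType_algebraMap.2 inferInstance)

theorem not_finite_B1 [IsAlgClosed k] : ¬ Module.Finite k C.B1 := fun _ => by
  obtain ⟨a, ha⟩ := (IsAlgClosed.algebraMap_bijective_of_isIntegral (k := k) (K := C.B1)).2
    ⟨C.x, C.x_mem⟩
  have hx : algebraMap k C.B12 a = C.x := congrArg Subtype.val ha
  have ha0 : a ≠ 0 := fun h => by
    have := C.x_mul_y; rw [← hx, h, map_zero, zero_mul] at this; exact zero_ne_one this
  have hy : (⟨C.y, C.y_mem⟩ : C.B2) = algebraMap k C.B2 a⁻¹ := Subtype.ext (by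
    show C.y = algebraMap k C.B12 a⁻¹
    calc C.y = algebraMap k C.B12 a⁻¹ * C.x * C.y := by
          rw [← hx, ← map_mul, inv_mul_cancel₀ ha0, map_one, one_mul]
      _ = _ := by rw [mul_assoc, C.x_mul_y, mul_one])
  have := C.aug_y
  rw [hy, AlgHom.commutes] at this
  exact inv_ne_zero ha0 this

theorem not_finite_B2 [IsAlgClosed k] : ¬ Module.Finite k C.B2 := fun _ => by
  obtain ⟨a, ha⟩ := (IsAlgClosed.algebraMap_bijective_of_isIntegral (k := k) (K := C.B2)).2
    ⟨C.y, C.y_mem⟩
  have h0 := C.aug_y
  rw [← ha, AlgHom.commutes] at h0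
  have hy : C.y = 0 := by
    have h1 := congrArg Subtype.val ha
    rw [show a = 0 from h0, map_zero] at h1
    exact h1.symm
  have := C.x_mul_y
  rw [hy, mul_zero] at this
  exact zero_ne_one this

/-- Evaluation of `A` at a point, on functions over a chart. -/
def evalBase (B : Subalgebra k C.B12) (χ : A →ₐ[k] k) : C.sub A B →ₐ[k] B :=
  ((Algebra.TensorProduct.lid k B).toAlgHom.comp
    (Algebra.TensorProduct.map χ (AlgHom.id k B))).comp
      ((C.subEquiv A B).symm.toAlgHom.restrictScalars k)

@[simp] theorem evalBase_tmul (B : Subalgebra k C.B12) (χ : A →ₐ[k] k) (a : A) (z : B) :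
    C.evalBase B χ (C.subEquiv A B (a ⊗ₜ z)) = χ a • z := by simp [evalBase]

theorem evalBase_smul (B : Subalgebra k C.B12) (χ : A →ₐ[k] k) (a : A) (s : C.sub A B) :
    C.evalBase B χ (a • s) = χ a • C.evalBase B χ s := by
  induction s using sub_induction with
  | tmul b z => rw [← map_smul, TensorProduct.smul_tmul', evalBase_tmul, evalBase_tmul, smul_eq_mul,
      map_mul, mul_smul]
  | zero => simp
  | add r s hr hs => rw [smul_add, map_add, map_add, hr, hs, smul_add]

theorem evalBase_surjective (B : Subalgebra k C.B12) (χ : A →ₐ[k] k) :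
    Function.Surjective (C.evalBase B χ) := fun z =>
  ⟨C.subEquiv A B (1 ⊗ₜ z), by rw [evalBase_tmul, map_one, one_smul]⟩

theorem ker_evalBase (B : Subalgebra k C.B12) (χ : A →ₐ[k] k) :
    RingHom.ker (C.evalBase B χ) = (RingHom.ker χ).map (algebraMap A (C.sub A B)) := by
  refine le_antisymm ?_ (Ideal.map_le_iff_le_comap.2 fun a ha => ?_)
  · have h : ∀ s : C.sub A B, s - C.subEquiv A B (1 ⊗ₜ C.evalBase B χ s) ∈
        (RingHom.ker χ).map (algebraMap A (C.sub A B)) := by
      intro s
      induction s using sub_induction with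
      | tmul a z =>
        have : C.subEquiv A B (a ⊗ₜ z) - C.subEquiv A B (1 ⊗ₜ (χ a • z)) =
            algebraMap A _ (a - algebraMap k A (χ a)) * C.subEquiv A B (1 ⊗ₜ z) := by
          rw [← Algebra.smul_def, sub_smul, ← map_smul, ← map_smul, TensorProduct.smul_tmul',
            TensorProduct.smul_tmul', smul_eq_mul, mul_one, smul_eq_mul, mul_one,
            Algebra.algebraMap_eq_smul_one, TensorProduct.smul_tmul]
        rw [evalBase_tmul, this]
        exact Ideal.mul_mem_right _ _ (Ideal.mem_map_of_mem _ (by simp [RingHom.mem_ker]))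
      | zero => simp
      | add r s hr hs =>
        rw [map_add, tmul_add, map_add, show ∀ p q p' q' : C.sub A B,
          p + q - (p' + q') = (p - p') + (q - q') from fun p q p' q' => by abel]
        exact add_mem hr hs
    intro s hs
    simpa [RingHom.mem_ker.1 hs] using h s
  · rw [Ideal.mem_comap, RingHom.mem_ker, ← mul_one (algebraMap A _ a), ← Algebra.smul_def,
      evalBase_smul, RingHom.mem_ker.1 ha, zero_smul]

/-- **An ideal with finite projective quotient over a chart is invertible.** -/
theorem invertible_ideal [IsAlgClosed k] [Algebra.FiniteType k A] (B : Subalgebra k C.B12)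
    [IsDedekindDomain B] [Algebra.FiniteType k B] (hB : ¬ Module.Finite k B)
    (I : Ideal (C.sub A B)) [Module.Finite A (C.sub A B ⧸ I)]
    [Module.Projective A (C.sub A B ⧸ I)] : Module.Invertible (C.sub A B) I := by
  classical
  have := C.finiteType_sub (A := A) B
  have : IsNoetherianRing (C.sub A B) := Algebra.FiniteType.isNoetherianRing k _
  let s : Set (C.sub A B) := {r | Nonempty
    (LocalizedModule.Away r I ≃ₗ[Localization.Away r] Localization.Away r)}
  refine moduleInvertible_of_localizationSpan s ?_ fun r hr => hr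
  by_contra hs
  obtain ⟨P, hP, hle⟩ := Ideal.exists_le_maximal _ hs
  obtain ⟨χ, hχ⟩ := exists_algHom_ker_eq (k := k) P
  let χA : A →ₐ[k] k := χ.comp (IsScalarTower.toAlgHom k A (C.sub A B))
  have hmP : (RingHom.ker χA).map (algebraMap A (C.sub A B)) ≤ P :=
    Ideal.map_le_iff_le_comap.2 fun a ha => hχ ▸ (by simpa [RingHom.mem_ker, χA] using ha)
  set θ := C.evalBase B χA
  have hsur := C.evalBase_surjective B χA
  have hker : RingHom.ker θ = _ := C.ker_evalBase B χA
  have hPbar : (P.map θ).IsMaximal :=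
    (Ideal.map_eq_top_or_isMaximal_of_surjective θ hsur ‹P.IsMaximal›).resolve_left fun htop => by
      have := Ideal.comap_map_of_surjective θ hsur P
      rw [htop, Ideal.comap_top, ← RingHom.ker_eq_comap_bot, hker, sup_eq_left.2 hmP] at this
      exact hP.ne_top this.symm
  have hI : I.map θ ≠ ⊥ := fun hbot => hB <| by
    have hIle : ∀ x ∈ I, θ x = 0 := fun x hx => by
      simpa [hbot] using Ideal.mem_map_of_mem θ hx
    obtain ⟨n, gen, hgen⟩ := Module.Finite.exists_fin (R := A) (M := C.sub A B ⧸ I)
    choose g hg using fun i => Ideal.Quotient.mk_surjective (gen i)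
    refine ⟨⟨Finset.univ.image (θ ∘ g), eq_top_iff.2 fun z _ => ?_⟩⟩
    obtain ⟨w, rfl⟩ := hsur z
    obtain ⟨c, hc⟩ := (Submodule.mem_span_range_iff_exists_fun A).1
      (hgen ▸ Submodule.mem_top : Ideal.Quotient.mk I w ∈ Submodule.span A (Set.range gen))
    have hmem : w - ∑ i, c i • g i ∈ I := by
      rw [← Ideal.Quotient.mk_eq_mk_iff_sub_mem, map_sum, ← hc]
      refine Finset.sum_congr rfl fun i _ => ?_
      rw [← hg i]; rfl
    have hw : θ w = ∑ i, χA (c i) • θ (g i) := by
      have := hIle _ hmem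
      rw [map_sub, map_sum, sub_eq_zero] at this
      rw [this]
      exact Finset.sum_congr rfl fun i _ => C.evalBase_smul B χA _ _
    rw [hw]
    exact Submodule.sum_mem _ fun i _ => Submodule.smul_mem _ _ (Submodule.subset_span (by simp))
  have := hPbar
  obtain ⟨f₀, hf₀, hne, h₀, hh₀, hspan⟩ := exists_notMem_mul_mem_span hI (P.map θ)
  obtain ⟨f, hf, rfl⟩ := (Ideal.mem_map_iff_of_surjective θ hsur).1 hf₀
  obtain ⟨h, rfl⟩ := hsur h₀
  have hgen : ∀ z ∈ I, ∃ t, h * z - t * f ∈ (RingHom.ker χA).map (algebraMap A (C.sub A B)) := by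
    intro z hz
    obtain ⟨t, ht⟩ := Ideal.mem_span_singleton'.1 (hspan _ (Ideal.mem_map_of_mem θ hz))
    obtain ⟨t, rfl⟩ := hsur t
    refine ⟨t, ?_⟩
    rw [← hker, RingHom.mem_ker, map_sub, map_mul, map_mul]
    exact sub_eq_zero.2 ht.symm
  have hreg : ∀ z, z * f ∈ (RingHom.ker χA).map (algebraMap A (C.sub A B)) →
      z ∈ (RingHom.ker χA).map (algebraMap A (C.sub A B)) := by
    intro z hz
    rw [← hker, RingHom.mem_ker] at hz ⊢
    rw [map_mul, mul_eq_zero] at hz
    exact hz.resolve_right hne
  obtain ⟨r, hrP, hr⟩ := exists_free_nhd (A := A) I (RingHom.ker χA) hmP hf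
    (h := h) (fun hh => hh₀ (Ideal.mem_map_of_mem θ hh)) hgen hreg
  exact hrP (hle (Ideal.subset_span hr))

end CurveRings

namespace CyclicPt

variable {C : CurveRings k} {g : ℕ} {b : Fin g → C.B1} {A : Type u} [CommRing A] [Algebra k A]

/-- The quotient by the ideal of a point is free on the chosen functions. -/
def quotientEquiv (P : CyclicPt k b A) : (C.R1 A ⧸ P.ideal) ≃ₗ[A] (Fin g → A) :=
  (Submodule.Quotient.restrictScalarsEquiv A P.ideal).symm ≪≫ₗ
    Submodule.quotEquivOfEq _ _ (Submodule.ext fun _ => mem_ideal.trans LinearMap.mem_ker.symm) ≪≫ₗ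
      P.ev.quotKerEquivOfSurjective P.ev_surjective

/-- **The ideal of a point is invertible.** -/
theorem invertible_idealPt [IsAlgClosed k] [Algebra.FiniteType k A] (P : CyclicPt k b A) :
    Module.Invertible (C.R1 A) P.ideal :=
  haveI := C.isDedekind1
  haveI := C.finiteType_B1
  haveI : Module.Finite A (C.R1 A ⧸ P.ideal) := Module.Finite.equiv P.quotientEquiv.symm
  haveI : Module.Projective A (C.R1 A ⧸ P.ideal) :=
    Module.Projective.of_equiv P.quotientEquiv.symm
  C.invertible_ideal C.B1 C.not_finite_B1 P.ideal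

end CyclicPt

end Fermat.Agent.Row24.Chart
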