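import Fermat.Agent.Row24.Chart.SwapLattice
import Fermat.Agent.Row24.Chart.IdealCurve
import Fermat.Agent.Row24.Chart.Tensor
import Fermat.Agent.Row24.Euler.Family

/-!
# The ideal bundle of a point

A point with values in `A` lying in one of the two charts gives the glued bundle of functions
vanishing on its graph; it commutes with base change, does not depend on the chart, and is rigid
when the point misses the base point or is the base point's universal deformation.
-/

set_option autoImplicit false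

universe u

noncomputable section

namespace Fermat.Agent.Row24.Chart

open TensorProduct

namespace CurveRings

variable {k : Type u} [Field k] (C : CurveRings k) {A : Type u} [CommRing A] [Algebra k A]

/-- The first chart and the second. -/
abbrev pair1 (A : Type u) [CommRing A] [Algebra k A] : ChartPair A (C.R12 A) where
  T := C.R1 A
  T' := C.R2 A
  u := C.xA A
  u' := C.yA A
  u_mem := C.xA_mem
  u'_mem := C.yA_mem
  mul_eq := C.xA_mul_yA
  loc := C.exists_mul_xA_mem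
  loc' := C.exists_mul_yA_mem

/-- The second chart and the first. -/
abbrev pair2 (A : Type u) [CommRing A] [Algebra k A] : ChartPair A (C.R12 A) where
  T := C.R2 A
  T' := C.R1 A
  u := C.yA A
  u' := C.xA A
  u_mem := C.yA_mem
  u'_mem := C.xA_mem
  mul_eq := C.yA_mul_xA
  loc := C.exists_mul_yA_mem
  loc' := C.exists_mul_xA_mem

variable {B : Subalgebra k C.B12} (φ : B →ₐ[k] A)

/-- Evaluation at a point of a chart. -/
def evSub : C.sub A B →ₐ[A] A := (pev φ).comp (C.subEquiv A B).symm.toAlgHom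

@[simp] theorem evSub_subEquiv (w : A ⊗[k] B) : C.evSub φ (C.subEquiv A B w) = pev φ w := by
  simp [evSub]

/-- The ideal of the graph of a point of a chart. -/
abbrev graphIdeal : Ideal (C.sub A B) := RingHom.ker (C.evSub φ)

theorem evSub_tmul_coe {t : C.B12} (ht : t ∈ B) (a : A) :
    C.evSub φ ⟨a ⊗ₜ t, C.tmul_mem_sub a ht⟩ = a * φ ⟨t, ht⟩ := by
  rw [show (⟨a ⊗ₜ t, C.tmul_mem_sub a ht⟩ : C.sub A B) = C.subEquiv A B (a ⊗ₜ ⟨t, ht⟩) from
    Subtype.ext rfl, evSub_subEquiv, pev_tmul]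

theorem sub_algebraMap_mem {t : C.B12} (ht : t ∈ B) :
    (⟨1 ⊗ₜ t, C.tmul_mem_sub 1 ht⟩ : C.sub A B) - algebraMap A (C.sub A B) (φ ⟨t, ht⟩) ∈
      C.graphIdeal φ := by
  rw [RingHom.mem_ker, map_sub, C.evSub_tmul_coe φ ht, AlgHom.commutes, one_mul, Algebra.algebraMap_self,
    RingHom.id_apply, sub_self]

/-- The functions on the graph are the functions on the base. -/
theorem finite_projective_graphIdeal : Module.Finite A (C.sub A B ⧸ C.graphIdeal φ) ∧
    Module.Projective A (C.sub A B ⧸ C.graphIdeal φ) := by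
  let q := (Ideal.quotientKerAlgEquivOfSurjective (f := C.evSub φ)
    fun a => ⟨algebraMap A (C.sub A B) a, AlgHom.commutes _ a⟩).toLinearEquiv
  exact ⟨Module.Finite.equiv q.symm, Module.Projective.of_equiv q.symm⟩

theorem hasPairing_graphIdeal [IsAlgClosed k] [IsDedekindDomain B] [Algebra.FiniteType k B]
    (hns : ¬ Module.Finite k B) : HasPairing (C.graphIdeal φ) := by
  obtain ⟨_, _⟩ := C.finite_projective_graphIdeal (AlgHom.id k B)
  have := C.invertible_ideal B hns (C.graphIdeal (AlgHom.id k B))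
  have hdiag : HasPairing (RingHom.ker (pev (AlgHom.id k B))) :=
    (HasPairing.of_invertible (C.graphIdeal (AlgHom.id k B))).of_equiv
      (C.subEquiv B B).symm.toRingEquiv fun x => by
        rw [RingHom.mem_ker, RingHom.mem_ker, ← C.evSub_subEquiv]; rfl
  exact (hdiag.graph φ).of_equiv (C.subEquiv A B).toRingEquiv fun _ => Iff.rfl

variable {A' : Type u} [CommRing A'] [Algebra k A'] (θ : A →ₐ[k] A')

theorem evSub_mapR (r : C.sub A B) :
    C.evSub (θ.comp φ) ⟨C.mapR θ r, C.mapR_mem_sub θ r.2⟩ = θ (C.evSub φ r) := by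
  suffices ∀ h, C.evSub (θ.comp φ) ⟨C.mapR θ r, h⟩ = θ (C.evSub φ r) from this _
  induction r using sub_induction with
  | tmul a z =>
    intro h
    rw [show (⟨_, h⟩ : C.sub A' B) = C.subEquiv A' B (θ a ⊗ₜ z) from Subtype.ext rfl,
      evSub_subEquiv, evSub_subEquiv, pev_tmul, pev_tmul, map_mul]
    rfl
  | zero =>
    intro h
    rw [show (⟨_, h⟩ : C.sub A' B) = 0 from Subtype.ext (map_zero (C.mapR θ)), map_zero, map_zero,
      map_zero]
  | add r s hr hs =>
    intro h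
    rw [show (⟨_, h⟩ : C.sub A' B) =
        ⟨_, C.mapR_mem_sub θ r.2⟩ + ⟨_, C.mapR_mem_sub θ s.2⟩ from
      Subtype.ext (map_add (C.mapR θ) _ _), map_add, hr, hs, map_add, map_add]

theorem graphIdeal_le_span (t : C.sub A' B) (ht : t ∈ C.graphIdeal (θ.comp φ)) :
    t ∈ Ideal.span (Set.range fun s : C.graphIdeal φ =>
      (⟨C.mapR θ (s : C.sub A B), C.mapR_mem_sub θ s.1.2⟩ : C.sub A' B)) := by
  obtain ⟨w, rfl⟩ := (C.subEquiv A' B).surjective t
  rw [RingHom.mem_ker, evSub_subEquiv] at ht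
  have hw := sub_pev_mem_span (θ.comp φ) w
  rw [ht, TensorProduct.zero_tmul, sub_zero] at hw
  have h := Ideal.mem_map_of_mem (C.subEquiv A' B).toRingEquiv.toRingHom hw
  rw [Ideal.map_span] at h
  refine Ideal.span_mono ?_ h
  rintro _ ⟨_, ⟨b, rfl⟩, rfl⟩
  refine ⟨⟨C.subEquiv A B (delta φ b), ?_⟩, Subtype.ext ?_⟩
  · rw [RingHom.mem_ker, evSub_subEquiv, RingHom.mem_ker.1 (delta φ b).2]
  · simp [map_sub]

variable [IsAlgClosed k]

theorem isLattice_pt1 (φ : C.B1 →ₐ[k] A) :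
    IsLattice (C.R1 A) ((C.pair1 A).fst (C.graphIdeal φ)) :=
  haveI := C.isDedekind1
  haveI := C.finiteType_B1
  (C.pair1 A).isLattice_fst _ (C.hasPairing_graphIdeal φ C.not_finite_B1)

theorem isLattice_pt2 (φ : C.B2 →ₐ[k] A) :
    IsLattice (C.R2 A) ((C.pair2 A).fst (C.graphIdeal φ)) :=
  haveI := C.isDedekind2
  haveI := C.finiteType_B2
  (C.pair2 A).isLattice_fst _ (C.hasPairing_graphIdeal φ C.not_finite_B2)

/-- The ideal bundle of a point of the first chart. -/
@[reducible] def pt1 (φ : C.B1 →ₐ[k] A) : Glued C A :=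
  haveI := ChartPair.invertible_of_isLattice (C.isLattice_pt1 φ)
  Glued.ofLattices ((C.pair1 A).ext (C.graphIdeal φ)) ((C.pair1 A).fst _) ((C.pair1 A).snd _)
    (C.isLattice_pt1 φ)
    ((C.pair1 A).isLattice_snd _ (C.sub_algebraMap_mem φ C.x_mem) (C.isLattice_pt1 φ))

/-- The ideal bundle of a point of the second chart. -/
@[reducible] def pt2 (φ : C.B2 →ₐ[k] A) : Glued C A :=
  haveI := ChartPair.invertible_of_isLattice (C.isLattice_pt2 φ)
  Glued.ofLattices ((C.pair2 A).ext (C.graphIdeal φ)) ((C.pair2 A).snd _) ((C.pair2 A).fst _)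
    ((C.pair2 A).isLattice_snd _ (C.sub_algebraMap_mem φ C.y_mem) (C.isLattice_pt2 φ))
    (C.isLattice_pt2 φ)

variable (A) in
/-- The ideal bundle of the base point. -/
@[reducible] def ptO : Glued C A := C.pt2 ((Algebra.ofId k A).comp C.aug)

/-- Base change of the ideal bundle of a point of the first chart. -/
def pt1Hom (φ : C.B1 →ₐ[k] A) : Glued.Hom θ (C.pt1 φ) (C.pt1 (θ.comp φ)) where
  toFun := (C.pair1 A).mapHom (C.graphIdeal φ) (P' := C.pair1 A') (σ := (C.mapR θ).toRingHom)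
    (fun _ h => C.mapR_mem_sub θ h) (fun t ht => (C.evSub_mapR φ θ t).trans (by
      rw [RingHom.mem_ker.1 ht, map_zero]))
  map_smul r m := Subtype.ext (map_mul (C.mapR θ) r _)
  span1 := (C.pair1 A).span_fst _ _ _ (C.graphIdeal_le_span φ θ)
  span2 := (C.pair1 A).span_snd _ (C.sub_algebraMap_mem φ C.x_mem) _
    (fun _ h => C.mapR_mem_sub θ h) _ (C.graphIdeal_le_span φ θ) (C.mapR_yA θ)
    (a' := θ (φ ⟨C.x, C.x_mem⟩)) (C.mapR_algebraMap θ _)

/-- Base change of the ideal bundle of a point of the second chart. -/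
def pt2Hom (φ : C.B2 →ₐ[k] A) : Glued.Hom θ (C.pt2 φ) (C.pt2 (θ.comp φ)) where
  toFun := (C.pair2 A).mapHom (C.graphIdeal φ) (P' := C.pair2 A') (σ := (C.mapR θ).toRingHom)
    (fun _ h => C.mapR_mem_sub θ h) (fun t ht => (C.evSub_mapR φ θ t).trans (by
      rw [RingHom.mem_ker.1 ht, map_zero]))
  map_smul r m := Subtype.ext (map_mul (C.mapR θ) r _)
  span1 := (C.pair2 A).span_snd _ (C.sub_algebraMap_mem φ C.y_mem) _
    (fun _ h => C.mapR_mem_sub θ h) _ (C.graphIdeal_le_span φ θ) (C.mapR_xA θ)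
    (a' := θ (φ ⟨C.y, C.y_mem⟩)) (C.mapR_algebraMap θ _)
  span2 := (C.pair2 A).span_fst _ _ _ (C.graphIdeal_le_span φ θ)

theorem nonempty_ptO_hom : Nonempty (Glued.Hom θ (C.ptO A) (C.ptO A')) := by
  have h : θ.comp ((Algebra.ofId k A).comp C.aug) = (Algebra.ofId k A').comp C.aug :=
    AlgHom.ext fun z => θ.commutes _
  show Nonempty (Glued.Hom θ (C.pt2 _) (C.pt2 _))
  rw [← h]
  exact ⟨C.pt2Hom θ _⟩

omit [IsAlgClosed k] in
theorem pev_coe {B : Subalgebra k C.B12} (χ : C.B12 →ₐ[k] A) (r : C.sub A B) :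
    pev χ (r : C.R12 A) = C.evSub (χ.comp B.val) r := by
  induction r using sub_induction with
  | tmul a z => simp [evSub_subEquiv]
  | zero => simp
  | add r s hr hs => simp [hr, hs]

omit [IsAlgClosed k] in
theorem mem_graphIdeal_comp {B : Subalgebra k C.B12} (χ : C.B12 →ₐ[k] A) (r : C.sub A B) :
    r ∈ C.graphIdeal (χ.comp B.val) ↔ pev χ (r : C.R12 A) = 0 := by
  rw [RingHom.mem_ker, pev_coe]

/-- On the overlap the two charts give the same bundle. -/
def pt12Iso (χ : C.B12 →ₐ[k] A) :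
    Glued.Iso (C.pt1 (χ.comp C.B1.val)) (C.pt2 (χ.comp C.B2.val)) where
  equiv := LinearEquiv.ofEq _ _
    ((ChartPair.ext_eq_ker (P := C.pair1 A) (I := C.graphIdeal (χ.comp C.B1.val)) (pev χ)
      (C.mem_graphIdeal_comp χ)).trans
      (ChartPair.ext_eq_ker (P := C.pair2 A) (I := C.graphIdeal (χ.comp C.B2.val)) (pev χ)
      (C.mem_graphIdeal_comp χ)).symm)
  mem1 m := by
    have hm : pev χ (m : C.R12 A) = 0 := RingHom.mem_ker.1
      ((ChartPair.ext_eq_ker (P := C.pair1 A) (I := C.graphIdeal (χ.comp C.B1.val)) (pev χ)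
      (C.mem_graphIdeal_comp χ)) ▸ m.2)
    exact ⟨fun h => ⟨h, (C.mem_graphIdeal_comp χ _).2 hm⟩, fun h => h.1⟩
  mem2 m := by
    have hm : pev χ (m : C.R12 A) = 0 := RingHom.mem_ker.1
      ((ChartPair.ext_eq_ker (P := C.pair1 A) (I := C.graphIdeal (χ.comp C.B1.val)) (pev χ)
      (C.mem_graphIdeal_comp χ)) ▸ m.2)
    exact ⟨fun h => h.1, fun h => ⟨h, (C.mem_graphIdeal_comp χ _).2 hm⟩⟩

/-- A point of the first chart gives a rigid bundle. -/
theorem pt1_rigid (φ : C.B1 →ₐ[k] A) : (C.pt1 φ).Rigid := by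
  refine (C.pt1 φ).rigid_iff.2
    ⟨⟨_, (C.pair1 A).one_sub_mem _ (C.sub_algebraMap_mem φ C.x_mem)⟩,
      (C.pair1 A).one_sub_mem', Submodule.subtype _, fun m hm => hm,
      (C.pair1 A).one_sub_mem', ?_⟩
  have h : ∀ (a : A) hm, C.augA A ⟨1 - algebraMap A (C.R12 A) a * C.yA A, hm⟩ = 1 := by
    intro a hm
    rw [show (⟨_, hm⟩ : C.R2 A) =
        1 - algebraMap A (C.R2 A) a * C.subEquiv A C.B2 (1 ⊗ₜ ⟨C.y, C.y_mem⟩) from
      Subtype.ext rfl, map_sub, map_one, map_mul, augA_subEquiv_tmul, C.aug_y, zero_smul,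
      mul_zero, sub_zero]
  exact h _ _

omit [IsAlgClosed k] in
theorem augA_sub_mem_span {φ : C.B2 →ₐ[k] A} {π : A}
    (hdvd : ∀ z, C.aug z = 0 → π ∣ φ z) (r : C.R2 A) : π ∣ C.augA A r - C.evSub φ r := by
  induction r using sub_induction with
  | tmul a z =>
    rw [augA_subEquiv_tmul, evSub_subEquiv, pev_tmul, Algebra.smul_def]
    have : algebraMap k A (C.aug z) * a - a * φ z =
        -a * φ (z - algebraMap k C.B2 (C.aug z)) := by
      rw [map_sub, AlgHom.commutes]; ring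
    rw [this]
    exact Dvd.dvd.mul_left (hdvd _ (by rw [map_sub, AlgHom.commutes]; simp)) _
  | zero => simp
  | add r s hr hs =>
    rw [map_add, map_add, add_sub_add_comm]
    exact dvd_add hr hs

/-- A point of the second chart along which the ideal of the base point is generated by a
non-zero-divisor gives a rigid bundle. -/
theorem pt2_rigid (φ : C.B2 →ₐ[k] A) (b : C.B2) (hb : C.aug b = 0)
    (hreg : ∀ z, φ b * z = 0 → z = 0) (hdvd : ∀ z, C.aug z = 0 → φ b ∣ φ z) :
    (C.pt2 φ).Rigid := by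
  obtain ⟨n, ψ, v, hv, hψ, h1⟩ := (C.pt2 φ).isLattice2
  let t : C.R2 A := ⟨1 ⊗ₜ (b : C.B12), C.tmul_mem_sub 1 b.2⟩ - algebraMap A _ (φ b)
  have ht : t ∈ C.graphIdeal φ := C.sub_algebraMap_mem φ b.2
  let e : (C.pt2 φ).carrier := ⟨(t : C.R12 A), (C.pair2 A).mem_ext_of_mem _ ht⟩
  have he : e ∈ (C.pt2 φ).M2 := ⟨t.2, ht⟩
  have haug : C.augA A t = -φ b := by
    rw [map_sub, AlgHom.commutes, Algebra.algebraMap_self, RingHom.id_apply,
      show (⟨_, C.tmul_mem_sub 1 b.2⟩ : C.R2 A) = C.subEquiv A C.B2 (1 ⊗ₜ b) from Subtype.ext rfl,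
      augA_subEquiv_tmul, hb, zero_smul, zero_sub]
  choose vt hvt using fun i => (hv i)
  choose δ hδ using fun i => show φ b ∣ C.augA A ⟨_, vt i⟩ by
    simpa [RingHom.mem_ker.1 (hvt i)] using C.augA_sub_mem_span hdvd ⟨_, vt i⟩
  set α : Fin n → A := fun i => C.augA A ⟨ψ i e, hψ i e he⟩
  set γ : Fin n → A := fun i => C.augA A ⟨ψ i (v i), hψ i _ (hv i)⟩
  have hrel : ∀ i, φ b * (α i * δ i + γ i) = 0 := fun i => by
    have h2 : (⟨ψ i e, hψ i e he⟩ : C.R2 A) * ⟨_, vt i⟩ = ⟨ψ i (v i), hψ i _ (hv i)⟩ * t :=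
      Subtype.ext (ChartPair.apply_mul_comm (ψ i) e (v i))
    have h3 := congrArg (C.augA A) h2
    rw [map_mul, map_mul, hδ, haug] at h3
    linear_combination h3
  have hsum : ∑ i, γ i = 1 := by
    rw [← map_sum, ← map_one (C.augA A)]
    exact congrArg _ (Subtype.ext (by simp [h1]))
  refine (C.pt2 φ).rigid_iff.2 ⟨e, he, ∑ i, (-δ i) • ψ i, fun m hm => ?_, ?_, ?_⟩
  · rw [LinearMap.sum_apply]
    exact sum_mem fun i _ => Subalgebra.smul_mem _ (hψ i m hm) _
  · rw [LinearMap.sum_apply]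
    exact sum_mem fun i _ => Subalgebra.smul_mem _ (hψ i e he) _
  · rw [show (⟨(∑ i, (-δ i) • ψ i) e, _⟩ : C.R2 A) = ∑ i, (-δ i) • ⟨ψ i e, hψ i e he⟩ from
      Subtype.ext (by simp), map_sum, ← hsum]
    refine Finset.sum_congr rfl fun i _ => ?_
    rw [map_smul, smul_eq_mul]
    linear_combination (-1 : A) * hreg _ (hrel i)

end CurveRings

/-- Rigidity is preserved by base change. -/
theorem Glued.Rigid.baseChange {k : Type u} [Field k] {C : CurveRings k} {A A' : Type u}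
    [CommRing A] [Algebra k A] [CommRing A'] [Algebra k A'] {θ : A →ₐ[k] A'} {M : Glued C A}
    {M' : Glued C A'} (hM : M.Rigid) (f : Glued.Hom θ M M') : M'.Rigid := by
  obtain ⟨e, he, ψ, hψ, h, h1⟩ := M.rigid_iff.1 hM
  obtain ⟨ψ', hψ'⟩ := f.exists_extendFun ψ
  have hint : ∀ m ∈ M'.M2, ψ' m ∈ C.R2 A' := by
    intro m hm
    rw [← f.span2] at hm
    induction hm using Submodule.span_induction with
    | mem x hx =>
      obtain ⟨n, hn, rfl⟩ := hx
      rw [hψ']
      exact C.mapR_mem_sub θ (hψ n hn)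
    | zero => rw [map_zero]; exact zero_mem _
    | add x y _ _ hx hy => rw [map_add]; exact add_mem hx hy
    | smul r x _ hx => rw [Subalgebra.smul_def, map_smul]; exact mul_mem r.2 hx
  refine M'.rigid_iff.2 ⟨f.toFun e, f.mem2 he, ψ', hint, hint _ (f.mem2 he), ?_⟩
  rw [show (⟨ψ' (f.toFun e), hint _ (f.mem2 he)⟩ : C.R2 A') =
      ⟨C.mapR θ (⟨ψ e, h⟩ : C.R2 A), C.mapR_mem_sub θ h⟩ from Subtype.ext (hψ' e),
    CurveRings.augA_mapR, h1, map_one]

/-- The ideal bundle of the base point is rigid. -/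
theorem CurveRings.ptO_rigid {k : Type u} [Field k] [IsAlgClosed k] (C : CurveRings k) (A : Type u)
    [CommRing A] [Algebra k A] : (C.ptO A).Rigid := by
  obtain ⟨f⟩ := C.nonempty_ptO_hom (Algebra.ofId k A)
  exact (Glued.rigid_of_field (C.ptO k)).baseChange f

end Fermat.Agent.Row24.Chart

end
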