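import Fermat.Agent.Row24.Chart.Ops
import Mathlib.RingTheory.Localization.FractionRing
import Mathlib.RingTheory.TensorProduct.Maps

/-!
# Twisting glued bundles by bundles over the constants

A bundle over the constants is a pair of invertible lattices in the function field of the curve.
It acts on the bundles over every base, compatibly with base change.
-/

set_option autoImplicit false

universe u

noncomputable section

namespace Fermat.Agent.Row24.Chart

open TensorProduct

section SpanHom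

variable {S E S' E' : Type*} [CommRing S] [CommRing E] [Algebra S E] [CommRing S'] [CommRing E']
  [Algebra S' E']

/-- Extension of lattices along a map of rings. -/
def spanHom (σ : S →+* S') (ι : E →+* E')
    (h : ∀ s, ι (algebraMap S E s) = algebraMap S' E' (σ s)) : Submodule S E →* Submodule S' E' where
  toFun J := Submodule.span S' (ι '' (J : Set E))
  map_one' := by
    refine le_antisymm (Submodule.span_le.2 ?_) (Submodule.one_le.2 (Submodule.subset_span
      ⟨1, Submodule.one_le.mp le_rfl, map_one ι⟩))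
    rintro _ ⟨j, hj, rfl⟩
    obtain ⟨c, rfl⟩ := Submodule.mem_one.mp hj
    exact Submodule.mem_one.mpr ⟨σ c, (h c).symm⟩
  map_mul' J J' := by
    rw [Submodule.span_mul_span]
    refine le_antisymm (Submodule.span_le.2 ?_) (Submodule.span_le.2 ?_)
    · rintro _ ⟨j, hj, rfl⟩
      refine Submodule.mul_induction_on hj (fun a ha b hb => ?_) (fun a b ha hb => ?_)
      · exact Submodule.subset_span ⟨_, ⟨a, ha, rfl⟩, _, ⟨b, hb, rfl⟩, (map_mul ι a b).symm⟩
      · simp only [SetLike.mem_coe, map_add] at ha hb ⊢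
        exact add_mem ha hb
    · rintro _ ⟨_, ⟨a, ha, rfl⟩, _, ⟨b, hb, rfl⟩, rfl⟩
      exact Submodule.subset_span ⟨a * b, Submodule.mul_mem_mul ha hb, map_mul ι a b⟩

theorem mem_spanHom {σ : S →+* S'} {ι : E →+* E'}
    {h : ∀ s, ι (algebraMap S E s) = algebraMap S' E' (σ s)} {J : Submodule S E} {j : E}
    (hj : j ∈ J) : ι j ∈ spanHom σ ι h J := Submodule.subset_span ⟨j, hj, rfl⟩

theorem exists_sum_eq_one (J : (Submodule S E)ˣ) : ∃ (n : ℕ) (a b : Fin n → E),
    (∀ i, a i ∈ J.1) ∧ (∀ i, b i ∈ (J⁻¹).1) ∧ ∑ i, b i * a i = 1 := by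
  classical
  have hone : (1 : E) ∈ J.1 * (J⁻¹).1 := by rw [J.mul_inv]; exact Submodule.one_le.mp le_rfl
  suffices h : ∀ z : E, z ∈ J.1 * (J⁻¹).1 → ∃ (n : ℕ) (a b : Fin n → E),
      (∀ i, a i ∈ J.1) ∧ (∀ i, b i ∈ (J⁻¹).1) ∧ ∑ i, b i * a i = z from h 1 hone
  intro z hz
  refine Submodule.mul_induction_on hz (fun a ha b hb => ?_) (fun v w hv hw => ?_)
  · exact ⟨1, fun _ => a, fun _ => b, fun _ => ha, fun _ => hb, by simp [mul_comm b]⟩
  · obtain ⟨n, a, b, ha, hb, hv⟩ := hv
    obtain ⟨n', a', b', ha', hb', hw⟩ := hw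
    refine ⟨n + n', Fin.append a a', Fin.append b b', fun i => ?_, fun i => ?_, ?_⟩
    · refine Fin.addCases (fun i => ?_) (fun i => ?_) i
      · simpa using ha i
      · simpa using ha' i
    · refine Fin.addCases (fun i => ?_) (fun i => ?_) i
      · simpa using hb i
      · simpa using hb' i
    · simp [Fin.sum_univ_add, hv, hw]

variable [FaithfulSMul S E]

omit [FaithfulSMul S E] in
theorem exists_algebraMap_eq_mul (J : (Submodule S E)ˣ) {a b : E} (ha : a ∈ J.1)
    (hb : b ∈ (J⁻¹).1) : ∃ s : S, algebraMap S E s = b * a := by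
  have h : b * a ∈ (J⁻¹).1 * J.1 := Submodule.mul_mem_mul hb ha
  rw [J.inv_mul, Submodule.mem_one] at h
  exact h

/-- Multiplication by an element of the inverse lattice. -/
def mulInvMap (J : (Submodule S E)ˣ) (b : (J⁻¹).1) : J.1 →ₗ[S] S where
  toFun a := (exists_algebraMap_eq_mul J a.2 b.2).choose
  map_add' a a' := FaithfulSMul.algebraMap_injective S E (by
    rw [map_add, (exists_algebraMap_eq_mul J (a + a').2 b.2).choose_spec,
      (exists_algebraMap_eq_mul J a.2 b.2).choose_spec,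
      (exists_algebraMap_eq_mul J a'.2 b.2).choose_spec, Submodule.coe_add, mul_add])
  map_smul' c a := FaithfulSMul.algebraMap_injective S E (by
    rw [RingHom.id_apply, smul_eq_mul, map_mul,
      (exists_algebraMap_eq_mul J (c • a).2 b.2).choose_spec,
      (exists_algebraMap_eq_mul J a.2 b.2).choose_spec, Submodule.coe_smul, Algebra.smul_def]
    ring)

theorem algebraMap_mulInvMap (J : (Submodule S E)ˣ) (b : (J⁻¹).1) (a : J.1) :
    algebraMap S E (mulInvMap J b a) = (b : E) * (a : E) :=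
  (exists_algebraMap_eq_mul J a.2 b.2).choose_spec

end SpanHom

variable {k : Type u} [Field k]

namespace CurveRings

variable (C : CurveRings k)

/-- The function field. -/
abbrev Frac : Type u := FractionRing C.B12

variable (A : Type u) [CommRing A] [Algebra k A]

/-- Rational functions over `A` with poles along constant divisors. -/
abbrev RF : Type u := A ⊗[k] C.Frac

/-- The overlap ring inside the rational functions. -/
def toRF : C.R12 A →ₐ[A] C.RF A :=
  Algebra.TensorProduct.map (AlgHom.id A A) (IsScalarTower.toAlgHom k C.B12 C.Frac)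

instance algebraRF : Algebra (C.R12 A) (C.RF A) := (C.toRF A).toRingHom.toAlgebra

instance : IsScalarTower A (C.R12 A) (C.RF A) :=
  IsScalarTower.of_algebraMap_eq fun a => ((C.toRF A).commutes a).symm

variable {A}

@[simp] theorem algebraMap_RF_tmul (a : A) (z : C.B12) :
    algebraMap (C.R12 A) (C.RF A) (a ⊗ₜ z) = a ⊗ₜ algebraMap C.B12 C.Frac z := rfl

theorem algebraMap_RF_injective : Function.Injective (algebraMap (C.R12 A) (C.RF A)) :=
  Module.Flat.lTensor_preserves_injective_linearMap (M := A)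
    (IsScalarTower.toAlgHom k C.B12 C.Frac).toLinearMap (IsFractionRing.injective C.B12 C.Frac)

instance : FaithfulSMul (C.R12 A) (C.RF A) :=
  (faithfulSMul_iff_algebraMap_injective _ _).2 C.algebraMap_RF_injective

instance (B : Subalgebra A (C.R12 A)) : FaithfulSMul B (C.RF A) :=
  (faithfulSMul_iff_algebraMap_injective B (C.RF A)).2 <| by
    show Function.Injective (algebraMap (C.R12 A) (C.RF A) ∘ fun b : B => (b : C.R12 A))
    exact C.algebraMap_RF_injective.comp Subtype.val_injective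

variable (A)

/-- Lattices generated on the overlap. -/
def up (B : Subalgebra k C.B12) : Submodule B C.Frac →* Submodule C.B12 C.Frac :=
  spanHom B.val.toRingHom (RingHom.id _) fun _ => rfl

/-- The constants of a chart inside the functions over `A`. -/
def inclSub (B : Subalgebra k C.B12) : B →+* C.sub A B :=
  (C.subEquiv A B).toAlgHom.toRingHom.comp
    (Algebra.TensorProduct.includeRight : B →ₐ[k] A ⊗[k] B).toRingHom

/-- Extension of lattices on a chart. -/
def ext (B : Subalgebra k C.B12) : Submodule B C.Frac →* Submodule (C.sub A B) (C.RF A) :=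
  spanHom (C.inclSub A B) (Algebra.TensorProduct.includeRight : C.Frac →ₐ[k] C.RF A).toRingHom
    fun _ => rfl

/-- Extension of lattices on the overlap. -/
def ext12 : Submodule C.B12 C.Frac →* Submodule (C.R12 A) (C.RF A) :=
  spanHom (Algebra.TensorProduct.includeRight : C.B12 →ₐ[k] C.R12 A).toRingHom
    (Algebra.TensorProduct.includeRight : C.Frac →ₐ[k] C.RF A).toRingHom fun _ => rfl

variable {A}

theorem tmul_mem_ext {B : Subalgebra k C.B12} {J : Submodule B C.Frac} {j : C.Frac} (hj : j ∈ J)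
    (a : A) : a ⊗ₜ[k] j ∈ C.ext A B J := by
  have e : a ⊗ₜ[k] j =
      (⟨a ⊗ₜ 1, C.tmul_mem_sub a B.one_mem⟩ : C.sub A B) • ((1 : A) ⊗ₜ[k] j : C.RF A) := by
    show a ⊗ₜ[k] j = (a ⊗ₜ 1 : C.R12 A) • ((1 : A) ⊗ₜ[k] j : C.RF A)
    rw [Algebra.smul_def, algebraMap_RF_tmul]
    simp
  rw [e]
  exact Submodule.smul_mem _ _ (Submodule.subset_span ⟨j, hj, rfl⟩)

theorem tmul_mem_ext12 {J : Submodule C.B12 C.Frac} {j : C.Frac} (hj : j ∈ J) (a : A) :
    a ⊗ₜ[k] j ∈ C.ext12 A J := by
  have e : a ⊗ₜ[k] j = (a ⊗ₜ 1 : C.R12 A) • ((1 : A) ⊗ₜ[k] j : C.RF A) := by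
    rw [Algebra.smul_def, algebraMap_RF_tmul]
    simp
  rw [e]
  exact Submodule.smul_mem _ _ (Submodule.subset_span ⟨j, hj, rfl⟩)

theorem mem_ext12_of_mem_ext {B : Subalgebra k C.B12} {J : Submodule B C.Frac} {a : C.RF A}
    (ha : a ∈ C.ext A B J) : a ∈ C.ext12 A (C.up B J) := by
  induction ha using Submodule.span_induction with
  | mem a ha =>
    obtain ⟨j, hj, rfl⟩ := ha
    exact C.tmul_mem_ext12 (J := C.up B J) (mem_spanHom hj) 1
  | zero => exact zero_mem _
  | add a b _ _ ha hb => exact add_mem ha hb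
  | smul r a _ ha =>
    rw [show r • a = (r : C.R12 A) • a from rfl]
    exact Submodule.smul_mem _ _ ha

section Map

variable {A' : Type u} [CommRing A'] [Algebra k A'] (φ : A →ₐ[k] A')

/-- Functoriality of the rational functions. -/
def mapRF : C.RF A →ₐ[k] C.RF A' := Algebra.TensorProduct.map φ (AlgHom.id k C.Frac)

@[simp] theorem mapRF_tmul (a : A) (z : C.Frac) : C.mapRF φ (a ⊗ₜ z) = φ a ⊗ₜ z := rfl

theorem mapRF_algebraMap (r : C.R12 A) :
    C.mapRF φ (algebraMap (C.R12 A) (C.RF A) r) =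
      algebraMap (C.R12 A') (C.RF A') (C.mapR φ r) := by
  induction r using TensorProduct.induction_on with
  | zero => simp
  | tmul a z => simp
  | add v w hv hw => simp only [map_add, hv, hw]

theorem mapRF_smul (r : C.R12 A) (a : C.RF A) :
    C.mapRF φ (r • a) = C.mapR φ r • C.mapRF φ a := by
  rw [Algebra.smul_def, map_mul, mapRF_algebraMap, ← Algebra.smul_def]

theorem mapRF_mem_ext {B : Subalgebra k C.B12} {J : Submodule B C.Frac} {a : C.RF A}
    (ha : a ∈ C.ext A B J) : C.mapRF φ a ∈ C.ext A' B J := by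
  induction ha using Submodule.span_induction with
  | mem a ha =>
    obtain ⟨j, hj, rfl⟩ := ha
    exact C.tmul_mem_ext hj _
  | zero => simp
  | add a b _ _ ha hb => rw [map_add]; exact add_mem ha hb
  | smul r a _ ha =>
    rw [show r • a = (r : C.R12 A) • a from rfl, mapRF_smul]
    exact Submodule.smul_mem _ (⟨_, C.mapR_mem_sub φ r.2⟩ : C.sub A' B) ha

theorem mapRF_mem_ext12 {J : Submodule C.B12 C.Frac} {a : C.RF A}
    (ha : a ∈ C.ext12 A J) : C.mapRF φ a ∈ C.ext12 A' J := by
  induction ha using Submodule.span_induction with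
  | mem a ha =>
    obtain ⟨j, hj, rfl⟩ := ha
    exact C.tmul_mem_ext12 hj _
  | zero => simp
  | add a b _ _ ha hb => rw [map_add]; exact add_mem ha hb
  | smul r a _ ha =>
    rw [mapRF_smul]
    exact Submodule.smul_mem _ _ ha

end Map

end CurveRings

/-- A bundle over the constants: two lattices of rational functions with the same overlap. -/
@[ext] structure Twist (C : CurveRings k) where
  /-- the lattice on the first chart -/
  J1 : (Submodule C.B1 C.Frac)ˣ
  /-- the lattice on the second chart -/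
  J2 : (Submodule C.B2 C.Frac)ˣ
  compat : C.up C.B1 J1.1 = C.up C.B2 J2.1

namespace Twist

variable {C : CurveRings k}

/-- The lattice on the overlap. -/
def J12 (D : Twist C) : (Submodule C.B12 C.Frac)ˣ := Units.map (C.up C.B1) D.J1

theorem J12_val2 (D : Twist C) : D.J12.1 = C.up C.B2 D.J2.1 := D.compat

theorem compat_units (D : Twist C) : Units.map (C.up C.B2) D.J2 = D.J12 := Units.ext D.compat.symm

instance : One (Twist C) := ⟨⟨1, 1, by rw [Units.val_one, Units.val_one, map_one, map_one]⟩⟩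

instance : Mul (Twist C) :=
  ⟨fun D E => ⟨D.J1 * E.J1, D.J2 * E.J2, by
    rw [Units.val_mul, Units.val_mul, map_mul, map_mul, D.compat, E.compat]⟩⟩

instance : Inv (Twist C) :=
  ⟨fun D => ⟨D.J1⁻¹, D.J2⁻¹, congrArg Units.val (show Units.map (C.up C.B1) D.J1⁻¹ =
    Units.map (C.up C.B2) D.J2⁻¹ by rw [map_inv, map_inv, compat_units]; rfl)⟩⟩

@[simp] theorem one_J1 : (1 : Twist C).J1 = 1 := rfl
@[simp] theorem one_J2 : (1 : Twist C).J2 = 1 := rfl
@[simp] theorem mul_J1 (D E : Twist C) : (D * E).J1 = D.J1 * E.J1 := rfl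
@[simp] theorem mul_J2 (D E : Twist C) : (D * E).J2 = D.J2 * E.J2 := rfl
@[simp] theorem inv_J1 (D : Twist C) : D⁻¹.J1 = D.J1⁻¹ := rfl
@[simp] theorem inv_J2 (D : Twist C) : D⁻¹.J2 = D.J2⁻¹ := rfl

instance : CommGroup (Twist C) where
  mul_assoc D E F := Twist.ext (_root_.mul_assoc _ _ _) (_root_.mul_assoc _ _ _)
  one_mul D := Twist.ext (_root_.one_mul _) (_root_.one_mul _)
  mul_one D := Twist.ext (_root_.mul_one _) (_root_.mul_one _)
  inv_mul_cancel D := Twist.ext (_root_.inv_mul_cancel _) (_root_.inv_mul_cancel _)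
  mul_comm D E := Twist.ext (_root_.mul_comm D.J1 E.J1) (_root_.mul_comm D.J2 E.J2)

theorem one_J12 : (1 : Twist C).J12 = 1 := map_one _

theorem mul_J12 (D E : Twist C) : (D * E).J12 = D.J12 * E.J12 := map_mul _ _ _

variable (A : Type u) [CommRing A] [Algebra k A] (D : Twist C)

/-- The lattice on the first chart over `A`. -/
def J1A : (Submodule (C.R1 A) (C.RF A))ˣ := Units.map (C.ext A C.B1) D.J1

/-- The lattice on the second chart over `A`. -/
def J2A : (Submodule (C.R2 A) (C.RF A))ˣ := Units.map (C.ext A C.B2) D.J2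

/-- The lattice on the overlap over `A`. -/
def J12A : (Submodule (C.R12 A) (C.RF A))ˣ := Units.map (C.ext12 A) D.J12

variable {A}

theorem mem12_of_mem1 {a : C.RF A} (ha : a ∈ (D.J1A A).1) : a ∈ (D.J12A A).1 :=
  C.mem_ext12_of_mem_ext ha

theorem mem12_of_mem2 {a : C.RF A} (ha : a ∈ (D.J2A A).1) : a ∈ (D.J12A A).1 := by
  show a ∈ C.ext12 A D.J12.1
  rw [J12_val2]
  exact C.mem_ext12_of_mem_ext ha

theorem mem12_inv_of_mem1 {a : C.RF A} (ha : a ∈ ((D.J1A A)⁻¹).1) : a ∈ ((D.J12A A)⁻¹).1 := by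
  have h := (D⁻¹).mem12_of_mem1 (A := A) (a := a) (by rwa [J1A, inv_J1, map_inv])
  rwa [J12A, J12, inv_J1, map_inv, map_inv] at h

theorem mem12_inv_of_mem2 {a : C.RF A} (ha : a ∈ ((D.J2A A)⁻¹).1) : a ∈ ((D.J12A A)⁻¹).1 := by
  have h := (D⁻¹).mem12_of_mem2 (A := A) (a := a) (by rwa [J2A, inv_J2, map_inv])
  rwa [J12A, J12, inv_J1, map_inv, map_inv] at h

theorem one_J12A : ((1 : Twist C).J12A A).1 = 1 := by rw [J12A, one_J12, map_one, Units.val_one]

theorem mul_J12A (E : Twist C) : ((D * E).J12A A) = D.J12A A * E.J12A A := by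
  rw [J12A, mul_J12, map_mul]; rfl

end Twist

namespace Glued

variable {C : CurveRings k} {A : Type u} [CommRing A] [Algebra k A] (M : Glued C A) (D : Twist C)

/-- Sections of the twisted bundle over the overlap. -/
abbrev TwistCarrier : Type u := M.carrier ⊗[C.R12 A] (D.J12A A).1

variable {B : Subalgebra A (C.R12 A)}

/-- The lattice of the twisted bundle on a chart. -/
def twistLattice (J : Submodule B (C.RF A)) (N : Submodule B M.carrier) :
    Submodule B (M.TwistCarrier D) :=
  Submodule.span B {w | ∃ a : (D.J12A A).1, (a : C.RF A) ∈ J ∧ ∃ m ∈ N, m ⊗ₜ a = w}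

theorem tmul_mem_twistLattice {J : Submodule B (C.RF A)} {N : Submodule B M.carrier}
    {a : (D.J12A A).1} (ha : (a : C.RF A) ∈ J) {m : M.carrier} (hm : m ∈ N) :
    m ⊗ₜ a ∈ M.twistLattice D J N :=
  Submodule.subset_span ⟨a, ha, m, hm, rfl⟩

theorem isLattice_twistLattice (J : (Submodule B (C.RF A))ˣ) (N : Submodule B M.carrier)
    (hJ : ∀ a ∈ J.1, a ∈ (D.J12A A).1) (hJ' : ∀ a ∈ (J⁻¹).1, a ∈ ((D.J12A A)⁻¹).1)
    (hN : IsLattice B N) : IsLattice B (M.twistLattice D J.1 N) := by
  obtain ⟨n, a, b, ha, hb, hab⟩ := exists_sum_eq_one J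
  obtain ⟨l, φ, v, hv, hφ, hφv⟩ := hN
  let μ : Fin n → (D.J12A A).1 →ₗ[C.R12 A] C.R12 A := fun i =>
    mulInvMap (D.J12A A) ⟨b i, hJ' _ (hb i)⟩
  let ψ : Fin n × Fin l → M.TwistCarrier D →ₗ[C.R12 A] C.R12 A := fun p =>
    (TensorProduct.lid _ _).toLinearMap ∘ₗ TensorProduct.map (φ p.2) (μ p.1)
  have hμ : ∀ i (c : (D.J12A A).1), (c : C.RF A) ∈ J.1 → μ i c ∈ B := fun i c hc => by
    obtain ⟨s, hs⟩ := exists_algebraMap_eq_mul J hc (hb i)
    rw [show μ i c = (s : C.R12 A) from C.algebraMap_RF_injective (by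
      rw [algebraMap_mulInvMap]; exact hs.symm)]
    exact s.2
  refine IsLattice.intro ψ (fun p => v p.2 ⊗ₜ (⟨a p.1, hJ _ (ha p.1)⟩ : (D.J12A A).1))
    (fun p => M.tmul_mem_twistLattice D (ha p.1) (hv p.2)) (fun p w hw => ?_) ?_
  · induction hw using Submodule.span_induction with
    | mem w hw =>
      obtain ⟨c, hc, m, hm, rfl⟩ := hw
      show φ p.2 m * μ p.1 c ∈ B
      exact B.mul_mem (hφ _ m hm) (hμ _ _ hc)
    | zero => rw [map_zero]; exact B.zero_mem
    | add v w _ _ hv hw => rw [map_add]; exact B.add_mem hv hw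
    | smul r w _ hw =>
      rw [show r • w = (r : C.R12 A) • w from rfl, map_smul]
      exact B.mul_mem r.2 hw
  · rw [Fintype.sum_prod_type]
    show ∑ i, ∑ j, φ j (v j) * μ i ⟨a i, hJ _ (ha i)⟩ = 1
    rw [Finset.sum_congr rfl fun i _ => (Finset.sum_mul _ _ _).symm.trans (by rw [hφv, one_mul])]
    apply C.algebraMap_RF_injective
    rw [map_sum, map_one, ← hab]
    exact Finset.sum_congr rfl fun i _ => algebraMap_mulInvMap _ _ _

/-- The twisted bundle. -/
def twist : Glued C A where
  carrier := M.TwistCarrier D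
  M1 := M.twistLattice D (D.J1A A).1 M.M1
  M2 := M.twistLattice D (D.J2A A).1 M.M2
  invertible1 := (M.isLattice_twistLattice D _ _ (fun _ => D.mem12_of_mem1)
    (fun _ => D.mem12_inv_of_mem1) M.isLattice1).invertible
  invertible2 := (M.isLattice_twistLattice D _ _ (fun _ => D.mem12_of_mem2)
    (fun _ => D.mem12_inv_of_mem2) M.isLattice2).invertible
  loc1 := (M.isLattice_twistLattice D _ _ (fun _ => D.mem12_of_mem1)
    (fun _ => D.mem12_inv_of_mem1) M.isLattice1).exists_pow_smul_mem C.xA_mem C.exists_mul_xA_mem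
  loc2 := (M.isLattice_twistLattice D _ _ (fun _ => D.mem12_of_mem2)
    (fun _ => D.mem12_inv_of_mem2) M.isLattice2).exists_pow_smul_mem C.yA_mem C.exists_mul_yA_mem

variable {M D}

theorem map_mem_twistLattice {M' : Glued C A}
    (F : M.TwistCarrier D →ₗ[C.R12 A] M'.carrier) {J : Submodule B (C.RF A)}
    {N : Submodule B M.carrier} {N' : Submodule B M'.carrier}
    (h : ∀ a : (D.J12A A).1, (a : C.RF A) ∈ J → ∀ m ∈ N, F (m ⊗ₜ a) ∈ N')
    {w : M.TwistCarrier D} (hw : w ∈ M.twistLattice D J N) : F w ∈ N' := by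
  induction hw using Submodule.span_induction with
  | mem w hw =>
    obtain ⟨a, ha, m, hm, rfl⟩ := hw
    exact h a ha m hm
  | zero => rw [map_zero]; exact zero_mem _
  | add v w _ _ hv hw => rw [map_add]; exact add_mem hv hw
  | smul r w _ hw =>
    rw [show r • w = (r : C.R12 A) • w from rfl, map_smul]
    exact N'.smul_mem r hw

variable (M D)

/-- The trivial lattice is the ring. -/
def oneEquiv : C.R12 A ≃ₗ[C.R12 A] ((1 : Twist C).J12A A).1 :=
  (LinearEquiv.ofInjective (Algebra.linearMap (C.R12 A) (C.RF A))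
    C.algebraMap_RF_injective).trans
    (LinearEquiv.ofEq _ _ (Submodule.one_eq_range.symm.trans Twist.one_J12A.symm))

theorem coe_oneEquiv (r : C.R12 A) :
    ((oneEquiv (C := C) r : ((1 : Twist C).J12A A).1) : C.RF A) = algebraMap _ _ r := rfl

/-- Twisting by the trivial bundle. -/
def twistOne : Iso (M.twist 1) M := by
  let e : M.TwistCarrier 1 ≃ₗ[C.R12 A] M.carrier :=
    (TensorProduct.congr (LinearEquiv.refl _ _) oneEquiv.symm).trans (TensorProduct.rid _ _)
  have hfwd : ∀ {B : Subalgebra A (C.R12 A)} {J : Submodule B (C.RF A)} {N : Submodule B M.carrier},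
      J = 1 → ∀ w : M.TwistCarrier 1, w ∈ M.twistLattice 1 J N → e w ∈ N := fun hJ w hw => by
    refine map_mem_twistLattice e.toLinearMap (fun a ha m hm => ?_) hw
    subst hJ
    obtain ⟨r, hr⟩ := Submodule.mem_one.1 ha
    have : oneEquiv.symm a = (r : C.R12 A) :=
      C.algebraMap_RF_injective ((congrArg Subtype.val (oneEquiv.apply_symm_apply a)).trans hr.symm)
    show oneEquiv.symm a • m ∈ _
    rw [this]
    exact Submodule.smul_mem _ r hm
  have hbwd : ∀ {B : Subalgebra A (C.R12 A)} {J : Submodule B (C.RF A)} {N : Submodule B M.carrier},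
      J = 1 → ∀ w : M.TwistCarrier 1, e w ∈ N → w ∈ M.twistLattice 1 J N := fun hJ w hw => by
    subst hJ
    have : w = e w ⊗ₜ oneEquiv (1 : C.R12 A) := e.injective (by
      show e w = oneEquiv.symm (oneEquiv (1 : C.R12 A)) • e w
      rw [LinearEquiv.symm_apply_apply, one_smul])
    rw [this]
    refine M.tmul_mem_twistLattice 1 ?_ hw
    rw [coe_oneEquiv, map_one]
    exact Submodule.one_le.mp le_rfl
  exact
    { equiv := e
      mem1 := fun w => ⟨hbwd (by rw [Twist.J1A, Twist.one_J1, map_one, Units.val_one]) w,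
        hfwd (by rw [Twist.J1A, Twist.one_J1, map_one, Units.val_one]) w⟩
      mem2 := fun w => ⟨hbwd (by rw [Twist.J2A, Twist.one_J2, map_one, Units.val_one]) w,
        hfwd (by rw [Twist.J2A, Twist.one_J2, map_one, Units.val_one]) w⟩ }

/-- The lattices on the overlap of two twists multiply. -/
def mulEquiv (E : Twist C) :
    ((E.J12A A).1 ⊗[C.R12 A] (D.J12A A).1) ≃ₗ[C.R12 A] ((E * D).J12A A).1 :=
  (Submodule.tensorEquivMul (E.J12A A) (D.J12A A)).trans
    (LinearEquiv.ofEq _ _ (by rw [Twist.mul_J12A, Units.val_mul]))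

theorem coe_mulEquiv (E : Twist C) (e : (E.J12A A).1) (d : (D.J12A A).1) :
    ((mulEquiv D E (e ⊗ₜ d) : ((E * D).J12A A).1) : C.RF A) = (e : C.RF A) * (d : C.RF A) := rfl

/-- Twisting twice. -/
def twistTwist (E : Twist C) : Iso ((M.twist D).twist E) (M.twist (E * D)) := by
  let e : (M.twist D).TwistCarrier E ≃ₗ[C.R12 A] M.TwistCarrier (E * D) :=
    (TensorProduct.assoc (C.R12 A) M.carrier (D.J12A A).1 (E.J12A A).1).trans
      (TensorProduct.congr (LinearEquiv.refl _ M.carrier)
        ((TensorProduct.comm (C.R12 A) _ _).trans (mulEquiv D E)))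
  have hfwd : ∀ {B : Subalgebra A (C.R12 A)} (JD JE JED : Submodule B (C.RF A))
      (N : Submodule B M.carrier), JED = JE * JD → ∀ w : (M.twist D).TwistCarrier E,
      w ∈ (M.twist D).twistLattice E JE (M.twistLattice D JD N) →
        e w ∈ M.twistLattice (E * D) JED N := by
    intro B JD JE JED N hJ w hw
    refine map_mem_twistLattice (M' := M.twist (E * D)) e.toLinearMap
      (fun a ha v hv => ?_) hw
    refine map_mem_twistLattice (M' := M.twist (E * D))
      (e.toLinearMap ∘ₗ (TensorProduct.mk (C.R12 A) (M.twist D).carrier (E.J12A A).1).flip a)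
      (fun d hd m hm => ?_) hv
    refine M.tmul_mem_twistLattice (E * D) ?_ hm
    show ((mulEquiv D E (a ⊗ₜ d) : ((E * D).J12A A).1) : C.RF A) ∈ JED
    rw [hJ, coe_mulEquiv]
    exact Submodule.mul_mem_mul ha hd
  have hbwd : ∀ {B : Subalgebra A (C.R12 A)} (JD JE JED : Submodule B (C.RF A))
      (N : Submodule B M.carrier), JED = JE * JD → (∀ a ∈ JD, a ∈ (D.J12A A).1) →
      (∀ a ∈ JE, a ∈ (E.J12A A).1) → ∀ w : M.TwistCarrier (E * D),
      w ∈ M.twistLattice (E * D) JED N →
        e.symm w ∈ (M.twist D).twistLattice E JE (M.twistLattice D JD N) := by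
    intro B JD JE JED N hJ hD hE w hw
    refine map_mem_twistLattice (M' := (M.twist D).twist E) e.symm.toLinearMap
      (fun c hc m hm => ?_) hw
    subst hJ
    suffices h : ∀ z : C.RF A, z ∈ JE * JD → ∀ hz : z ∈ ((E * D).J12A A).1,
        e.symm (m ⊗ₜ ⟨z, hz⟩) ∈ (M.twist D).twistLattice E JE (M.twistLattice D JD N) from
      h c hc c.2
    intro z hz
    induction hz using Submodule.mul_induction_on' with
    | mem_mul_mem a ha d hd =>
      intro hz
      have : e.symm (m ⊗ₜ ⟨a * d, hz⟩) =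
          (m ⊗ₜ (⟨d, hD d hd⟩ : (D.J12A A).1)) ⊗ₜ (⟨a, hE a ha⟩ : (E.J12A A).1) :=
        e.injective (by
          rw [LinearEquiv.apply_symm_apply]
          show _ = m ⊗ₜ mulEquiv D E (_ ⊗ₜ _)
          congr 1)
      rw [this]
      exact (M.twist D).tmul_mem_twistLattice E ha (M.tmul_mem_twistLattice D hd hm)
    | add a ha b hb iha ihb =>
      intro hz
      have hab : ∀ {x : C.RF A}, x ∈ JE * JD → x ∈ ((E * D).J12A A).1 := fun {x} hx => by
        rw [Twist.mul_J12A, Units.val_mul]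
        exact Submodule.mul_induction_on hx
          (fun a ha d hd => Submodule.mul_mem_mul (hE a ha) (hD d hd)) (fun _ _ => add_mem)
      rw [show (⟨a + b, hz⟩ : ((E * D).J12A A).1) = ⟨a, hab ha⟩ + ⟨b, hab hb⟩ from rfl,
        TensorProduct.tmul_add, map_add]
      exact add_mem (iha _) (ihb _)
  exact
    { equiv := e
      mem1 := fun w => by
        have hJ : ((E * D).J1A A).1 = (E.J1A A).1 * (D.J1A A).1 := by
          rw [Twist.J1A, Twist.mul_J1, map_mul, Units.val_mul]; rfl
        refine ⟨fun h => ?_, hfwd _ _ _ M.M1 hJ w⟩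
        have h2 := hbwd _ _ _ M.M1 hJ (fun _ => D.mem12_of_mem1) (fun _ => E.mem12_of_mem1) _ h
        exact e.symm_apply_apply w ▸ h2
      mem2 := fun w => by
        have hJ : ((E * D).J2A A).1 = (E.J2A A).1 * (D.J2A A).1 := by
          rw [Twist.J2A, Twist.mul_J2, map_mul, Units.val_mul]; rfl
        refine ⟨fun h => ?_, hfwd _ _ _ M.M2 hJ w⟩
        have h2 := hbwd _ _ _ M.M2 hJ (fun _ => D.mem12_of_mem2) (fun _ => E.mem12_of_mem2) _ h
        exact e.symm_apply_apply w ▸ h2 }

/-- Twisting back. -/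
def twistInvTwist : Iso ((M.twist D).twist D⁻¹) M :=
  (M.twistTwist D D⁻¹).trans
    (cast (congrArg (fun E => Iso (M.twist E) M) (inv_mul_cancel D).symm) M.twistOne)

variable {M}

/-- Twisting commutes with isomorphisms. -/
def Iso.twist {M' : Glued C A} (e : Iso M M') (D : Twist C) : Iso (M.twist D) (M'.twist D) := by
  have h : ∀ {M M' : Glued C A} (e : Iso M M') {B : Subalgebra A (C.R12 A)}
      (J : Submodule B (C.RF A)) (N : Submodule B M.carrier) (N' : Submodule B M'.carrier),
      (∀ n ∈ N, e.equiv n ∈ N') → ∀ w ∈ M.twistLattice D J N,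
        TensorProduct.congr e.equiv (LinearEquiv.refl _ _) w ∈ M'.twistLattice D J N' :=
    fun {M M'} e {B} J N N' hN w hw => map_mem_twistLattice (M' := M'.twist D)
      (TensorProduct.congr e.equiv (LinearEquiv.refl (C.R12 A) (D.J12A A).1)).toLinearMap
      (fun a ha m hm => M'.tmul_mem_twistLattice D ha (hN m hm)) hw
  let ec := TensorProduct.congr e.equiv (LinearEquiv.refl (C.R12 A) (D.J12A A).1)
  have hsymm : ∀ w, TensorProduct.congr e.symm.equiv (LinearEquiv.refl (C.R12 A) (D.J12A A).1)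
      (ec w) = w := fun w => by
    induction w using TensorProduct.induction_on with
    | zero => simp
    | tmul m a => simp [ec, Iso.symm]
    | add v w hv hw => simp only [map_add, hv, hw]
  exact
    { equiv := ec
      mem1 := fun w => ⟨fun hw => hsymm w ▸ h e.symm _ _ _ (fun n hn => (e.symm.mem1 n).2 hn) _ hw,
        fun hw => h e _ _ _ (fun n hn => (e.mem1 n).2 hn) w hw⟩
      mem2 := fun w => ⟨fun hw => hsymm w ▸ h e.symm _ _ _ (fun n hn => (e.symm.mem2 n).2 hn) _ hw,
        fun hw => h e _ _ _ (fun n hn => (e.mem2 n).2 hn) w hw⟩ }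

/-- Twisting preserves rigidity. -/
theorem Rigid.twist (h : M.Rigid) (D : Twist C) : (M.twist D).Rigid := by
  rw [rigid_iff] at h ⊢
  obtain ⟨e, he, φ, hφ, hmem, h1⟩ := h
  obtain ⟨n, a, b, ha, hb, hab⟩ := exists_sum_eq_one D.J2
  choose c hc using fun i => exists_algebraMap_eq_mul D.J2 (ha i) (hb i)
  have hsum : ∑ i, c i = 1 := Subtype.ext (IsFractionRing.injective C.B12 C.Frac (by
    rw [AddSubmonoidClass.coe_finsetSum, map_sum]
    exact (Finset.sum_congr rfl fun i _ => hc i).trans (hab.trans (map_one _).symm)))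
  obtain ⟨i, hi⟩ : ∃ i, C.aug (c i) ≠ 0 := by
    by_contra hall
    push Not at hall
    have h0 := congrArg C.aug hsum
    rw [map_sum, map_one, Finset.sum_eq_zero fun i _ => hall i] at h0
    exact zero_ne_one h0
  have hb' : (1 : A) ⊗ₜ[k] b i ∈ ((D.J12A A)⁻¹).1 := D.mem12_inv_of_mem2 (by
    rw [Twist.J2A, ← map_inv, Units.coe_map]
    exact C.tmul_mem_ext (hb i) 1)
  have ha' : (1 : A) ⊗ₜ[k] a i ∈ (D.J12A A).1 := D.mem12_of_mem2 (C.tmul_mem_ext (ha i) 1)
  let μ := mulInvMap (D.J12A A) ⟨_, hb'⟩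
  set t : A := algebraMap k A (C.aug (c i))⁻¹
  let ψ : M.TwistCarrier D →ₗ[C.R12 A] C.R12 A :=
    algebraMap A (C.R12 A) t • ((TensorProduct.lid _ _).toLinearMap ∘ₗ TensorProduct.map φ μ)
  have hμ : ∀ (z : (D.J12A A).1), (z : C.RF A) ∈ (D.J2A A).1 → μ z ∈ C.R2 A := fun z hz => by
    obtain ⟨s, hs⟩ := exists_algebraMap_eq_mul (D.J2A A) hz
      (show (1 : A) ⊗ₜ[k] b i ∈ ((D.J2A A)⁻¹).1 by
        rw [Twist.J2A, ← map_inv, Units.coe_map]; exact C.tmul_mem_ext (hb i) 1)
    rw [show μ z = (s : C.R12 A) from C.algebraMap_RF_injective (by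
      rw [algebraMap_mulInvMap]; exact hs.symm)]
    exact s.2
  have hψ : ∀ w ∈ M.twistLattice D (D.J2A A).1 M.M2, ψ w ∈ C.R2 A := fun w hw => by
    induction hw using Submodule.span_induction with
    | mem w hw =>
      obtain ⟨z, hz, m, hm, rfl⟩ := hw
      exact (C.R2 A).mul_mem ((C.R2 A).algebraMap_mem t) ((C.R2 A).mul_mem (hφ m hm) (hμ z hz))
    | zero => rw [map_zero]; exact zero_mem _
    | add v w _ _ hv hw => rw [map_add]; exact add_mem hv hw
    | smul r w _ hw =>
      rw [show r • w = (r : C.R12 A) • w from rfl, map_smul]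
      exact (C.R2 A).mul_mem r.2 hw
  refine ⟨e ⊗ₜ (⟨_, ha'⟩ : (D.J12A A).1),
    M.tmul_mem_twistLattice D (C.tmul_mem_ext (ha i) 1) he, ψ, hψ,
    hψ _ (M.tmul_mem_twistLattice D (C.tmul_mem_ext (ha i) 1) he), ?_⟩
  have hμe : μ ⟨_, ha'⟩ = (1 : A) ⊗ₜ[k] (c i : C.B12) := C.algebraMap_RF_injective (by
    rw [algebraMap_mulInvMap, C.algebraMap_RF_tmul, Algebra.TensorProduct.tmul_mul_tmul, one_mul]
    exact congrArg _ (hc i).symm)
  have hval : (⟨ψ (e ⊗ₜ ⟨_, ha'⟩), hψ _ (M.tmul_mem_twistLattice D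
      (C.tmul_mem_ext (ha i) 1) he)⟩ : C.R2 A) =
      algebraMap A (C.R2 A) t * (⟨φ e, hmem⟩ * C.subEquiv A C.B2 (1 ⊗ₜ c i)) :=
    Subtype.ext (congrArg (fun z => algebraMap A (C.R12 A) t * (φ e * z)) hμe)
  refine (congrArg (C.augA A) hval).trans ?_
  rw [map_mul, map_mul, AlgHom.commutes, h1, one_mul, C.augA_subEquiv_tmul,
    Algebra.smul_def, mul_one]
  show algebraMap A A t * algebraMap k A (C.aug (c i)) = 1
  rw [Algebra.algebraMap_self, RingHom.id_apply, ← map_mul, inv_mul_cancel₀ hi, map_one]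

variable {A' : Type u} [CommRing A'] [Algebra k A'] {φ : A →ₐ[k] A'} {M' : Glued C A'}

/-- The map of twisted sections over a base change. -/
def Hom.twistMap (f : Hom φ M M') (D : Twist C) :
    M.TwistCarrier D →+ M'.TwistCarrier D :=
  TensorProduct.liftAddHom
    (AddMonoidHom.mk' (fun m => AddMonoidHom.mk'
      (fun a => f.toFun m ⊗ₜ (⟨C.mapRF φ a, C.mapRF_mem_ext12 φ a.2⟩ : (D.J12A A').1))
      fun a b => by
        rw [← TensorProduct.tmul_add]
        congr 1
        exact Subtype.ext (map_add (C.mapRF φ) (a : C.RF A) b))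
      fun m n => AddMonoidHom.ext fun a => by
        show _ ⊗ₜ[C.R12 A'] _ = _ ⊗ₜ[C.R12 A'] _ + _ ⊗ₜ[C.R12 A'] _
        rw [← TensorProduct.add_tmul, map_add])
    fun r m a => by
      show _ ⊗ₜ[C.R12 A'] _ = _ ⊗ₜ[C.R12 A'] _
      rw [f.map_smul, TensorProduct.smul_tmul]
      congr 1
      exact Subtype.ext (C.mapRF_smul φ r a).symm

@[simp] theorem Hom.twistMap_tmul (f : Hom φ M M') (a : (D.J12A A).1) (m : M.carrier) :
    f.twistMap D (m ⊗ₜ a) = f.toFun m ⊗ₜ (⟨C.mapRF φ a, C.mapRF_mem_ext12 φ a.2⟩ : (D.J12A A').1) :=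
  rfl

theorem Hom.twistMap_smul (f : Hom φ M M') (r : C.R12 A) (w : M.TwistCarrier D) :
    f.twistMap D (r • w) = C.mapR φ r • f.twistMap D w := by
  induction w using TensorProduct.induction_on with
  | zero => simp
  | tmul m a =>
    rw [TensorProduct.smul_tmul', twistMap_tmul, twistMap_tmul, TensorProduct.smul_tmul', f.map_smul]
  | add v w hv hw => simp only [smul_add, map_add, hv, hw]

theorem Hom.span_twistMap (f : Hom φ M M') {B : Subalgebra k C.B12}
    (J : Submodule B C.Frac) (hJ : ∀ j ∈ J, j ∈ D.J12.1)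
    (N : Submodule (C.sub A B) M.carrier) (N' : Submodule (C.sub A' B) M'.carrier)
    (hN : Submodule.span (C.sub A' B) (f.toFun '' N) = N') :
    Submodule.span (C.sub A' B)
        (f.twistMap D '' (M.twistLattice D (C.ext A B J) N : Submodule (C.sub A B) _)) =
      M'.twistLattice D (C.ext A' B J) N' := by
  refine le_antisymm (Submodule.span_le.2 ?_) (Submodule.span_le.2 ?_)
  · rintro _ ⟨w, hw, rfl⟩
    induction hw using Submodule.span_induction with
    | mem w hw =>
      obtain ⟨a, ha, m, hm, rfl⟩ := hw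
      exact M'.tmul_mem_twistLattice D (C.mapRF_mem_ext φ ha)
        (hN ▸ Submodule.subset_span ⟨m, hm, rfl⟩)
    | zero => rw [map_zero]; exact zero_mem _
    | add v w _ _ hv hw => rw [map_add]; exact add_mem hv hw
    | smul r w _ hw =>
      rw [show r • w = (r : C.R12 A) • w from rfl, Hom.twistMap_smul]
      exact Submodule.smul_mem _ (⟨_, C.mapR_mem_sub φ r.2⟩ : C.sub A' B) hw
  · rintro _ ⟨a, ha, m', hm', rfl⟩
    set T := Submodule.span (C.sub A' B)
      (f.twistMap D '' (M.twistLattice D (C.ext A B J) N : Submodule (C.sub A B) _))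
    suffices h : ∀ z : C.RF A', z ∈ C.ext A' B J → ∀ hz : z ∈ (D.J12A A').1,
        m' ⊗ₜ[C.R12 A'] (⟨z, hz⟩ : (D.J12A A').1) ∈ T from h a ha a.2
    intro z hz
    induction hz using Submodule.span_induction with
    | mem z hz =>
      intro hz'
      obtain ⟨j, hj, rfl⟩ := hz
      rw [← hN] at hm'
      induction hm' using Submodule.span_induction with
      | mem n hn =>
        obtain ⟨m, hm, rfl⟩ := hn
        refine Submodule.subset_span ⟨m ⊗ₜ (⟨_, C.tmul_mem_ext12 (hJ j hj) 1⟩ : (D.J12A A).1),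
          M.tmul_mem_twistLattice D (C.tmul_mem_ext hj 1) hm, ?_⟩
        rw [Hom.twistMap_tmul]
        congr 1
        exact Subtype.ext ((C.mapRF_tmul φ 1 j).trans (by rw [map_one]; rfl))
      | zero => rw [TensorProduct.zero_tmul]; exact zero_mem _
      | add v w _ _ hv hw => rw [TensorProduct.add_tmul]; exact add_mem hv hw
      | smul r w _ hw =>
        rw [show r • w = (r : C.R12 A') • w from rfl, ← TensorProduct.smul_tmul']
        exact Submodule.smul_mem _ r hw
    | zero =>
      intro hz'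
      rw [show (⟨0, hz'⟩ : (D.J12A A').1) = 0 from rfl, TensorProduct.tmul_zero]
      exact zero_mem _
    | add v w hv hw ihv ihw =>
      intro hz'
      have hup : ∀ {x : C.RF A'}, x ∈ C.ext A' B J → x ∈ (D.J12A A').1 := fun {x} hx => by
        induction hx using Submodule.span_induction with
        | mem x hx => obtain ⟨j, hj, rfl⟩ := hx; exact C.tmul_mem_ext12 (hJ j hj) 1
        | zero => exact zero_mem _
        | add x y _ _ hx hy => exact add_mem hx hy
        | smul r x _ hx =>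
          rw [show r • x = (r : C.R12 A') • x from rfl]
          exact Submodule.smul_mem _ _ hx
      rw [show (⟨v + w, hz'⟩ : (D.J12A A').1) = ⟨v, hup hv⟩ + ⟨w, hup hw⟩ from rfl,
        TensorProduct.tmul_add]
      exact add_mem (ihv _) (ihw _)
    | smul r v hv ihv =>
      intro hz'
      have hup : v ∈ (D.J12A A').1 := by
        refine Submodule.span_induction (p := fun x _ => x ∈ (D.J12A A').1) ?_ (zero_mem _)
          (fun _ _ _ _ => add_mem) (fun c x _ hx => ?_) hv
        · rintro _ ⟨j, hj, rfl⟩; exact C.tmul_mem_ext12 (hJ j hj) 1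
        · rw [show c • x = (c : C.R12 A') • x from rfl]
          exact Submodule.smul_mem _ _ hx
      rw [show (⟨r • v, hz'⟩ : (D.J12A A').1) = (r : C.R12 A') • ⟨v, hup⟩ from rfl,
        TensorProduct.tmul_smul]
      exact Submodule.smul_mem _ r (ihv _)

/-- Twisting commutes with base change. -/
def Hom.twist (f : Hom φ M M') (D : Twist C) : Hom φ (M.twist D) (M'.twist D) where
  toFun := f.twistMap D
  map_smul := f.twistMap_smul D
  span1 := f.span_twistMap D D.J1.1
    (fun j hj => Submodule.subset_span ⟨j, hj, rfl⟩) M.M1 M'.M1 f.span1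
  span2 := f.span_twistMap D D.J2.1
    (fun j hj => by rw [Twist.J12_val2]; exact Submodule.subset_span ⟨j, hj, rfl⟩)
    M.M2 M'.M2 f.span2

end Glued

end Fermat.Agent.Row24.Chart

end
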