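import Fermat.Agent.Row24.Chart.Ops

/-!
# Base change of glued bundles

The lattices spanned by the images of the sections are lattices, so every glued bundle has a base
change with a canonical map to it.
-/

set_option autoImplicit false
set_option maxSynthPendingDepth 3

universe u

noncomputable section

namespace Fermat.Agent.Row24.Chart

open TensorProduct

variable {k : Type u} [Field k] {C : CurveRings k} {A A' : Type u} [CommRing A] [Algebra k A]
  [CommRing A'] [Algebra k A'] (φ : A →ₐ[k] A')

/-- The images of a lattice span a lattice in the base change. -/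
theorem IsLattice.baseChangeSpan {M : Type u} [AddCommGroup M] [Module (C.R12 A) M]
    {B : Subalgebra k C.B12} {N : Submodule (C.sub A B) M} (h : IsLattice (C.sub A B) N) :
    letI := (C.mapR φ).toRingHom.toAlgebra
    IsLattice (C.sub A' B)
      (Submodule.span (C.sub A' B) ((fun m : M => (1 : C.R12 A') ⊗ₜ[C.R12 A] m) '' (N : Set M))) := by
  let : Algebra (C.R12 A) (C.R12 A') := (C.mapR φ).toRingHom.toAlgebra
  obtain ⟨n, ψ, v, hv, hψ, h1⟩ := h
  let χ : Fin n → (C.R12 A' ⊗[C.R12 A] M) →ₗ[C.R12 A'] C.R12 A' := fun i =>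
    (AlgebraTensorModule.rid (C.R12 A) (C.R12 A') (C.R12 A')).toLinearMap ∘ₗ
      (ψ i).baseChange (C.R12 A')
  have hχ : ∀ i m, χ i (1 ⊗ₜ m) = C.mapR φ (ψ i m) := fun i m => by
    simp only [χ, LinearMap.comp_apply, LinearMap.baseChange_tmul, LinearEquiv.coe_coe,
      AlgebraTensorModule.rid_tmul]
    rw [Algebra.smul_def, mul_one]; rfl
  refine IsLattice.intro χ (fun i => 1 ⊗ₜ v i) (fun i => Submodule.subset_span ⟨v i, hv i, rfl⟩)
    (fun i m hm => ?_) ?_
  · induction hm using Submodule.span_induction with
    | mem x hx =>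
      obtain ⟨m, hm, rfl⟩ := hx
      rw [hχ]
      exact C.mapR_mem_sub φ (hψ i m hm)
    | zero => rw [map_zero]; exact zero_mem _
    | add x y _ _ hx hy => rw [map_add]; exact add_mem hx hy
    | smul c x _ hx =>
      rw [Subalgebra.smul_def, map_smul, smul_eq_mul]
      exact mul_mem c.2 hx
  · simp only [hχ]
    rw [← map_sum, h1, map_one]

namespace Glued

variable (M : Glued C A)

/-- The base change of a bundle. -/
@[reducible] def baseChange : Glued C A' :=
  letI := (C.mapR φ).toRingHom.toAlgebra
  ofLattices (C.R12 A' ⊗[C.R12 A] M.carrier)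
    (Submodule.span (C.R1 A') ((fun m : M.carrier => (1 : C.R12 A') ⊗ₜ[C.R12 A] m) ''
      (M.M1 : Set M.carrier)))
    (Submodule.span (C.R2 A') ((fun m : M.carrier => (1 : C.R12 A') ⊗ₜ[C.R12 A] m) ''
      (M.M2 : Set M.carrier)))
    (IsLattice.baseChangeSpan φ M.isLattice1) (IsLattice.baseChangeSpan φ M.isLattice2)

/-- The map to the base change. -/
def toBaseChange : Hom φ M (M.baseChange φ) :=
  letI := (C.mapR φ).toRingHom.toAlgebra
  { toFun :=
      { toFun := fun m => (1 : C.R12 A') ⊗ₜ[C.R12 A] m
        map_zero' := TensorProduct.tmul_zero _ _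
        map_add' := fun a b => TensorProduct.tmul_add _ a b }
    map_smul := fun r m => by
      show (1 : C.R12 A') ⊗ₜ[C.R12 A] (r • m) = C.mapR φ r • ((1 : C.R12 A') ⊗ₜ[C.R12 A] m)
      rw [TensorProduct.smul_tmul', smul_eq_mul, mul_one, ← TensorProduct.smul_tmul,
        Algebra.smul_def, mul_one]
      rfl
    span1 := rfl
    span2 := rfl }

end Glued

end Fermat.Agent.Row24.Chart

end
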