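import Fermat.Agent.Row24.Chart.Classify
import Fermat.Agent.Row24.Chart.Tensor
import Mathlib.LinearAlgebra.Matrix.Charpoly.Coeff

/-!
# The bundle of a point of the chart

The dual of the ideal of the divisor has a section with value one at the point, and it is the
base change of every bundle whose section cuts out the image of the point.
-/

set_option autoImplicit false
set_option maxSynthPendingDepth 3

universe u

noncomputable section

namespace Fermat.Agent.Row24.Chart

open TensorProduct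

variable {k : Type u} [Field k] {C : CurveRings k} {A : Type u} [CommRing A] [Algebra k A]

namespace CurveRings

variable {z u Y : C.R12 A}

theorem exists_pow_add_eq_one (hY : Y ∈ C.R2 A) (hu : u = 1 - C.yA A * Y) (n : ℕ) :
    ∃ t ∈ C.R2 A, (C.yA A * Y) ^ n + t * u = 1 := by
  refine ⟨∑ i ∈ Finset.range n, (C.yA A * Y) ^ i,
    sum_mem fun i _ => pow_mem (mul_mem C.yA_mem hY) _, ?_⟩
  rw [hu, mul_comm (Finset.sum _ _), mul_neg_geom_sum]
  ring

/-- A function which is regular at the point after multiplying by a unit there is regular. -/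
theorem mem_R2_of_mul_mem (hY : Y ∈ C.R2 A) (hu : u = 1 - C.yA A * Y)
    (h : z * u ∈ C.R2 A) : z ∈ C.R2 A := by
  obtain ⟨n, hn⟩ := C.exists_mul_yA_mem z
  obtain ⟨t, ht, h1⟩ := exists_pow_add_eq_one hY hu n
  have hz : z = Y ^ n * (z * C.yA A ^ n) + t * (z * u) :=
    calc z = z * ((C.yA A * Y) ^ n + t * u) := by rw [h1, mul_one]
      _ = _ := by ring
  rw [hz]
  exact add_mem (mul_mem (pow_mem hY _) hn) (mul_mem ht h)

theorem augA_one_sub_mul (hY : Y ∈ C.R2 A) (h : 1 - C.yA A * Y ∈ C.R2 A) :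
    C.augA A ⟨1 - C.yA A * Y, h⟩ = 1 := by
  have h' : (⟨1 - C.yA A * Y, h⟩ : C.R2 A) =
      1 - C.toR2 A ⟨C.y, C.y_mem⟩ * ⟨Y, hY⟩ := Subtype.ext (by simp)
  rw [h', map_sub, map_one, map_mul, toR2_apply, augA_subEquiv_tmul, C.aug_y, zero_smul, zero_mul,
    sub_zero]

end CurveRings

namespace Glued

variable {A' : Type u} [CommRing A'] [Algebra k A'] {φ : A →ₐ[k] A'}

/-- A base change followed by an isomorphism. -/
def Hom.transIso {M : Glued C A} {M' N : Glued C A'} (f : Hom φ M M') (e : Iso M' N) :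
    Hom φ M N where
  toFun := e.equiv.toLinearMap.toAddMonoidHom.comp f.toFun
  map_smul r m := by simp [f.map_smul]
  span1 := by
    refine le_antisymm (Submodule.span_le.2 ?_) fun n hn => ?_
    · rintro _ ⟨m, hm, rfl⟩
      exact (e.mem1 _).2 (f.mem1 hm)
    · rw [← e.equiv.apply_symm_apply n]
      have h : e.equiv.symm n ∈ Submodule.span (C.R1 A') (f.toFun '' M.M1) := by
        rw [f.span1]; exact (e.symm.mem1 n).2 hn
      generalize e.equiv.symm n = y at h
      induction h using Submodule.span_induction with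
      | mem x hx => obtain ⟨m, hm, rfl⟩ := hx; exact Submodule.subset_span ⟨m, hm, rfl⟩
      | zero => rw [map_zero]; exact zero_mem _
      | add a b _ _ ha hb => rw [map_add]; exact add_mem ha hb
      | smul c a _ ha =>
        rw [show c • a = (c : C.R12 A') • a from rfl, _root_.map_smul]
        exact Submodule.smul_mem _ c ha
  span2 := by
    refine le_antisymm (Submodule.span_le.2 ?_) fun n hn => ?_
    · rintro _ ⟨m, hm, rfl⟩
      exact (e.mem2 _).2 (f.mem2 hm)
    · rw [← e.equiv.apply_symm_apply n]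
      have h : e.equiv.symm n ∈ Submodule.span (C.R2 A') (f.toFun '' M.M2) := by
        rw [f.span2]; exact (e.symm.mem2 n).2 hn
      generalize e.equiv.symm n = y at h
      induction h using Submodule.span_induction with
      | mem x hx => obtain ⟨m, hm, rfl⟩ := hx; exact Submodule.subset_span ⟨m, hm, rfl⟩
      | zero => rw [map_zero]; exact zero_mem _
      | add a b _ _ ha hb => rw [map_add]; exact add_mem ha hb
      | smul c a _ ha =>
        rw [show c • a = (c : C.R12 A') • a from rfl, _root_.map_smul]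
        exact Submodule.smul_mem _ c ha

/-- A bundle is its bidual. -/
def Iso.toDualDual (M : Glued C A) : Iso M M.dual.dual :=
  Iso.ofMem (M := M) (N := M.dual.dual) (Module.evalEquiv (C.R12 A) M.carrier)
    (fun _ hm _ hψ => hψ _ hm)
    (fun Φ hΦ => by
      obtain ⟨n, φ, v, hv, hφ, h1⟩ := M.isLattice1
      refine mem_of_forall_apply_mem φ v hv h1 fun i => ?_
      rw [Module.apply_evalEquiv_symm_apply]
      exact hΦ (φ i) (hφ i))
    (fun _ hm _ hψ => hψ _ hm)
    (fun Φ hΦ => by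
      obtain ⟨n, φ, v, hv, hφ, h1⟩ := M.isLattice2
      refine mem_of_forall_apply_mem φ v hv h1 fun i => ?_
      rw [Module.apply_evalEquiv_symm_apply]
      exact hΦ (φ i) (hφ i))

theorem IsSection.apply_injective {M : Glued C A} {s : M.carrier} (hs : M.IsSection s)
    {θ θ' : M.carrier →ₗ[C.R12 A] C.R12 A} (h : θ s = θ' s) : θ = θ' := by
  refine LinearMap.ext fun m => hs.smul_cancel ?_
  rw [apply_smul_comm θ m s, apply_smul_comm θ' m s, h]

end Glued

namespace CyclicPt

variable {g : ℕ} {b : Fin g → C.B1} (P : CyclicPt k b A)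

/-- The ideal of the divisor on the overlap. -/
def ideal12 : Ideal (C.R12 A) :=
  Ideal.span ((fun r : C.R1 A => (r : C.R12 A)) '' P.ideal)

theorem coe_mem_ideal12 {r : C.R1 A} (hr : r ∈ P.ideal) : (r : C.R12 A) ∈ P.ideal12 :=
  Ideal.subset_span ⟨r, hr, rfl⟩

/-- The ideal of the divisor on the first chart, inside the one of the overlap. -/
def lat1 : Submodule (C.R1 A) P.ideal12 where
  carrier := {z | ∃ r ∈ P.ideal, (r : C.R12 A) = z}
  add_mem' {z w} hz hw := by
    obtain ⟨r, hr, hr'⟩ := hz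
    obtain ⟨s, hs, hs'⟩ := hw
    exact ⟨r + s, add_mem hr hs, by rw [Subalgebra.coe_add, Submodule.coe_add, hr', hs']⟩
  zero_mem' := ⟨0, zero_mem _, by simp⟩
  smul_mem' c z hz := by
    obtain ⟨r, hr, hr'⟩ := hz
    exact ⟨c * r, P.ideal.mul_mem_left c hr, by rw [MulMemClass.coe_mul, hr']; rfl⟩

/-- The ideal of the divisor on the second chart, inside the one of the overlap. -/
def lat2 : Submodule (C.R2 A) P.ideal12 where
  carrier := {z | (z : C.R12 A) ∈ C.R2 A}
  add_mem' {z w} (hz : (z : C.R12 A) ∈ C.R2 A) (hw : (w : C.R12 A) ∈ C.R2 A) :=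
    show (z : C.R12 A) + (w : C.R12 A) ∈ C.R2 A from add_mem hz hw
  zero_mem' := show (0 : C.R12 A) ∈ C.R2 A from zero_mem _
  smul_mem' c z (hz : (z : C.R12 A) ∈ C.R2 A) :=
    show (c : C.R12 A) * (z : C.R12 A) ∈ C.R2 A from mul_mem c.2 hz

theorem exists_pow_smul_mem_lat1 (z : P.ideal12) : ∃ n : ℕ, C.xA A ^ n • z ∈ P.lat1 := by
  obtain ⟨z, hz⟩ := z
  suffices ∀ c : C.R12 A, ∃ n : ℕ, ∃ r ∈ P.ideal, (r : C.R12 A) = C.xA A ^ n * (c * z) by
    obtain ⟨n, r, hr, h⟩ := this 1
    exact ⟨n, r, hr, by rw [h, one_mul]; rfl⟩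
  induction hz using Submodule.span_induction with
  | mem x hx =>
    obtain ⟨r, hr, rfl⟩ := hx
    intro c
    obtain ⟨n, hn⟩ := C.exists_mul_xA_mem c
    exact ⟨n, ⟨_, hn⟩ * r, P.ideal.mul_mem_left _ hr, by
      show c * C.xA A ^ n * (r : C.R12 A) = _
      ring⟩
  | zero => exact fun c => ⟨0, 0, zero_mem _, by simp⟩
  | add x y _ _ hx hy =>
    intro c
    obtain ⟨n, r, hr, h⟩ := hx c
    obtain ⟨l, s, hs, h'⟩ := hy c
    refine ⟨n + l, ⟨_, pow_mem C.xA_mem l⟩ * r + ⟨_, pow_mem C.xA_mem n⟩ * s,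
      add_mem (P.ideal.mul_mem_left _ hr) (P.ideal.mul_mem_left _ hs), ?_⟩
    show C.xA A ^ l * (r : C.R12 A) + C.xA A ^ n * (s : C.R12 A) = _
    rw [h, h', pow_add]
    ring
  | smul a x _ hx =>
    intro c
    obtain ⟨n, r, hr, h⟩ := hx (c * a)
    exact ⟨n, r, hr, by rw [h, smul_eq_mul]; ring⟩

/-- A function vanishing on the divisor with value one at the point. -/
theorem exists_one_sub_mem : ∃ Y ∈ C.R2 A, 1 - C.yA A * Y ∈ P.ideal12 := by
  set xR : C.R1 A := C.subEquiv A C.B1 (1 ⊗ₜ ⟨C.x, C.x_mem⟩)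
  set p := (P.rho ⟨C.x, C.x_mem⟩).charpoly
  have hp : p.Monic := Matrix.charpoly_monic _
  have hq : Polynomial.aeval xR p ∈ P.ideal := by
    rw [mem_ideal, ev_apply, ← Polynomial.aeval_algHom_apply, rhoA_subEquiv, one_smul,
      Matrix.aeval_self_charpoly, Matrix.zero_mulVec]
  refine ⟨-∑ i ∈ Finset.range p.natDegree,
      p.coeff i • C.yA A ^ (p.natDegree - i - 1), neg_mem (sum_mem fun i _ =>
      Subalgebra.smul_mem _ (pow_mem C.yA_mem _) _), ?_⟩
  have hval : ((Polynomial.aeval xR p : C.R1 A) : C.R12 A) = Polynomial.aeval (C.xA A) p :=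
    (Polynomial.aeval_algHom_apply (C.R1 A).val xR p).symm
  have key : 1 - C.yA A * -∑ i ∈ Finset.range p.natDegree,
      p.coeff i • C.yA A ^ (p.natDegree - i - 1) =
      C.yA A ^ p.natDegree * Polynomial.aeval (C.xA A) p := by
    conv_rhs => arg 2; arg 2; rw [hp.as_sum]
    simp only [map_add, map_pow, map_sum, map_mul, Polynomial.aeval_X, Polynomial.aeval_C,
      mul_add, Finset.mul_sum, mul_neg, sub_neg_eq_add]
    rw [← mul_pow, C.yA_mul_xA, one_pow]
    refine congrArg _ (Finset.sum_congr rfl fun i hi => ?_)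
    rw [Finset.mem_range] at hi
    obtain ⟨e, he⟩ := Nat.exists_eq_add_of_lt hi
    rw [show p.natDegree - i - 1 = e by omega,
      show C.yA A ^ p.natDegree = C.yA A ^ (e + 1) * C.yA A ^ i by rw [← pow_add]; congr 1; omega,
      show C.yA A ^ (e + 1) * C.yA A ^ i * (algebraMap A (C.R12 A) (p.coeff i) * C.xA A ^ i) =
        algebraMap A (C.R12 A) (p.coeff i) * C.yA A ^ (e + 1) * (C.yA A * C.xA A) ^ i by ring,
      C.yA_mul_xA, one_pow, mul_one, Algebra.smul_def]
    ring
  rw [key, ← hval]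
  exact P.ideal12.mul_mem_left _ (P.coe_mem_ideal12 hq)

variable [hinv : Module.Invertible (C.R1 A) P.ideal]

include hinv in
theorem isLattice_lat1 : IsLattice (C.R1 A) P.lat1 := by
  let ι : P.ideal →ₗ[C.R1 A] P.lat1 :=
    { toFun := fun r => ⟨⟨((r : C.R1 A) : C.R12 A), P.coe_mem_ideal12 r.2⟩, r, r.2, rfl⟩
      map_add' := fun r s => rfl
      map_smul' := fun c r => Subtype.ext (Subtype.ext rfl) }
  let e : P.ideal ≃ₗ[C.R1 A] P.lat1 := LinearEquiv.ofBijective ι
    ⟨fun r s h => Subtype.ext (Subtype.ext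
        (congrArg (fun z : P.lat1 => ((z.1 : P.ideal12) : C.R12 A)) h)),
      fun ⟨z, r, hr, h⟩ => ⟨⟨r, hr⟩, Subtype.ext (Subtype.ext h)⟩⟩
  have := Module.Invertible.congr e
  exact isLattice_of_invertible C.xA_mem C.isUnit_xA C.exists_mul_xA_mem
    P.exists_pow_smul_mem_lat1

include hinv in
theorem invertible_ideal12 : Module.Invertible (C.R12 A) P.ideal12 := by
  obtain ⟨n, φ, v, hv, hφ, h1⟩ := P.isLattice_lat1
  refine Fermat.Agent.Row24.moduleInvertible_of_swap (fun f a b => ?_) ?_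
  · apply Subtype.ext
    have h : f ((b : C.R12 A) • a) = f ((a : C.R12 A) • b) :=
      congrArg f (Subtype.ext (mul_comm _ _))
    rw [map_smul, map_smul, smul_eq_mul, smul_eq_mul] at h
    show f a * (b : C.R12 A) = f b * (a : C.R12 A)
    rw [mul_comm, h, mul_comm]
  · rw [Ideal.eq_top_iff_one, ← h1]
    exact sum_mem fun i _ => Ideal.subset_span ⟨(φ i, v i), rfl⟩

include hinv in
theorem isLattice_lat2 : IsLattice (C.R2 A) P.lat2 := by
  obtain ⟨n, φ, v, hv, hφ, h1⟩ := P.isLattice_lat1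
  obtain ⟨Y, hY, hu⟩ := P.exists_one_sub_mem
  set ū : P.ideal12 := ⟨_, hu⟩
  choose e he using fun i => C.exists_mul_yA_mem (v i : C.R12 A)
  choose l hl using fun i => C.exists_mul_yA_mem (φ i ū)
  set N := Finset.univ.sup e + Finset.univ.sup l
  have hN : ∀ {z : C.R12 A} {m : ℕ}, z * C.yA A ^ m ∈ C.R2 A → m ≤ N →
      C.yA A ^ N * z ∈ C.R2 A := by
    intro z m hz hm
    rw [← Nat.sub_add_cancel hm, pow_add,
      show C.yA A ^ (N - m) * C.yA A ^ m * z = C.yA A ^ (N - m) * (z * C.yA A ^ m) by ring]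
    exact mul_mem (pow_mem C.yA_mem _) hz
  obtain ⟨t, ht, ht1⟩ := CurveRings.exists_pow_add_eq_one hY rfl (2 * N)
  refine IsLattice.intro (ι := Option (Fin n))
    (fun o => o.elim P.ideal12.subtype fun i => C.yA A ^ N • φ i)
    (fun o => o.elim (t • ū) fun i => (Y ^ (2 * N) * C.yA A ^ N) • v i) ?_ ?_ ?_
  · rintro (_ | i)
    · exact mul_mem ht (sub_mem (one_mem _) (mul_mem C.yA_mem hY))
    · show Y ^ (2 * N) * C.yA A ^ N * (v i : C.R12 A) ∈ C.R2 A
      rw [mul_assoc]
      exact mul_mem (pow_mem hY _) (hN (he i)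
        ((Finset.le_sup (f := e) (Finset.mem_univ i)).trans (Nat.le_add_right _ _)))
  · rintro (_ | i) z hz
    · exact hz
    · refine CurveRings.mem_R2_of_mul_mem hY rfl ?_
      show C.yA A ^ N * φ i z * (ū : C.R12 A) ∈ C.R2 A
      have hswap : φ i ((ū : C.R12 A) • z) = φ i ((z : C.R12 A) • ū) :=
        congrArg (φ i) (Subtype.ext (mul_comm _ _))
      rw [map_smul, map_smul, smul_eq_mul, smul_eq_mul] at hswap
      rw [mul_assoc, mul_comm (φ i z), hswap,
        show C.yA A ^ N * ((z : C.R12 A) * φ i ū) = (z : C.R12 A) * (C.yA A ^ N * φ i ū) by ring]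
      exact mul_mem hz (hN (hl i)
        ((Finset.le_sup (f := l) (Finset.mem_univ i)).trans (Nat.le_add_left _ _)))
  · rw [Fintype.sum_option]
    simp only [Option.elim, Submodule.subtype_apply, LinearMap.smul_apply,
      map_smul, smul_eq_mul]
    rw [show ∑ i, Y ^ (2 * N) * C.yA A ^ N * (C.yA A ^ N * φ i (v i)) =
      (C.yA A * Y) ^ (2 * N) * ∑ i, φ i (v i) by
        rw [Finset.mul_sum]; exact Finset.sum_congr rfl fun i _ => by ring]
    rw [h1, mul_one, add_comm]
    exact ht1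

/-- The bundle of the ideal of the divisor. -/
@[reducible] def idealBundle : Glued C A :=
  have := P.invertible_ideal12
  Glued.ofLattices P.ideal12 P.lat1 P.lat2 P.isLattice_lat1 P.isLattice_lat2

/-- **The bundle of a point.** -/
@[reducible] def bundle : Glued C A := (P.idealBundle).dual

/-- The section of the bundle of a point. -/
def bundleSec : P.bundle.carrier := P.ideal12.subtype

theorem isSection_bundleSec : P.bundle.IsSection P.bundleSec := by
  obtain ⟨Y, hY, hu⟩ := P.exists_one_sub_mem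
  have h : 1 - C.yA A * Y ∈ C.R2 A := sub_mem (one_mem _) (mul_mem C.yA_mem hY)
  refine ⟨?_, fun z hz => hz, LinearMap.applyₗ ⟨_, hu⟩, fun θ hθ => hθ _ h, h,
    CurveRings.augA_one_sub_mul hY h⟩
  rintro z ⟨r, -, hr⟩
  show (z : C.R12 A) ∈ C.R1 A
  rw [← hr]
  exact r.2

theorem bundle_rigid : P.bundle.Rigid := P.isSection_bundleSec.rigid

/-- The values of integral functionals at the section. -/
theorem mem_ideal_iff_exists {r : C.R1 A} : r ∈ P.ideal ↔
    ∃ θ : P.bundle.carrier →ₗ[C.R12 A] C.R12 A,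
      (∀ m ∈ P.bundle.M1, θ m ∈ C.R1 A) ∧ θ P.bundleSec = r := by
  constructor
  · intro hr
    exact ⟨LinearMap.applyₗ (⟨r, P.coe_mem_ideal12 hr⟩ : P.ideal12),
      fun m hm => hm _ ⟨r, hr, rfl⟩, rfl⟩
  · rintro ⟨θ, hθ, hr⟩
    let e := Glued.Iso.toDualDual P.idealBundle
    obtain ⟨r', hr', h⟩ := (e.symm.mem1 θ).2 hθ
    have h2 : θ P.bundleSec = ((e.equiv.symm θ : P.ideal12) : C.R12 A) := by
      conv_lhs => rw [← e.equiv.apply_symm_apply θ]
      rfl
    have h3 : r = r' := Subtype.ext (hr.symm.trans (h2.trans h.symm))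
    rwa [h3]

theorem bundle_divIdeal (hV : P.bundle.Vanish) : P.bundle.divIdeal = P.ideal := by
  ext r
  rw [P.isSection_bundleSec.mem_divIdeal_iff hV, P.mem_ideal_iff_exists]

omit hinv in
theorem map_ideal {A' : Type u} [CommRing A'] [Algebra k A'] (φ : A →ₐ[k] A') :
    (P.map φ).ideal = Ideal.span (mapR1 φ '' P.ideal) := by
  refine le_antisymm (fun r hr => ?_) (Ideal.span_le.2 ?_)
  · have key : ∀ r : C.R1 A', r - ∑ i, (P.map φ).ev r i • C.bA A' b i ∈
        Ideal.span (mapR1 φ '' P.ideal) := by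
      intro r
      induction r using CurveRings.sub_induction with
      | tmul a z =>
        have h0 : C.subEquiv A' C.B1 (a ⊗ₜ z) = a • mapR1 φ (C.subEquiv A C.B1 (1 ⊗ₜ z)) :=
          Subtype.ext (by simp [mapR1, TensorProduct.smul_tmul'])
        set w := C.subEquiv A C.B1 (1 ⊗ₜ z)
        have h1 : C.subEquiv A' C.B1 (a ⊗ₜ z) -
            ∑ i, (P.map φ).ev (C.subEquiv A' C.B1 (a ⊗ₜ z)) i • C.bA A' b i =
            a • mapR1 φ (w - ∑ i, P.ev w i • C.bA A b i) := by
          have hsub : ∀ p q : C.R1 A, mapR1 φ (p - q) = mapR1 φ p - mapR1 φ q :=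
            fun p q => Subtype.ext (map_sub (C.mapR φ) _ _)
          rw [h0, hsub, C.mapR1_combination, _root_.map_smul, ev_map, smul_sub, Finset.smul_sum]
          simp only [Pi.smul_apply, Function.comp_apply, smul_assoc]
        rw [h1]
        exact Submodule.smul_of_tower_mem _ _
          (Ideal.subset_span ⟨_, P.sub_combination_mem w, rfl⟩)
      | zero => simp
      | add p q hp hq =>
        rw [map_add]
        simp only [Pi.add_apply, add_smul, Finset.sum_add_distrib]
        rw [add_sub_add_comm]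
        exact add_mem hp hq
    simpa [mem_ideal.1 hr] using key r
  · rintro _ ⟨w, hw, rfl⟩
    exact P.mapR1_mem_ideal φ hw

/-- **The bundle of a point is universal among bundles cutting out its images.** -/
theorem nonempty_bundleHom {A' : Type u} [CommRing A'] [Algebra k A'] (φ : A →ₐ[k] A')
    {M : Glued C A'} {s : M.carrier} (hs : M.IsSection s)
    (hI : ∀ r : C.R1 A', r ∈ (P.map φ).ideal ↔
      ∃ θ : M.carrier →ₗ[C.R12 A'] C.R12 A', (∀ m ∈ M.M1, θ m ∈ C.R1 A') ∧ θ s = r) :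
    Nonempty (Glued.Hom φ P.bundle M) := by
  have hex : ∀ z : P.ideal12, ∃ θ : M.carrier →ₗ[C.R12 A'] C.R12 A', θ s = C.mapR φ z := by
    rintro ⟨z, hz⟩
    induction hz using Submodule.span_induction with
    | mem x hx =>
      obtain ⟨r, hr, rfl⟩ := hx
      obtain ⟨θ, -, hθ⟩ := (hI _).1 (P.mapR1_mem_ideal φ hr)
      exact ⟨θ, hθ⟩
    | zero => exact ⟨0, by simp⟩
    | add x y _ _ hx hy =>
      obtain ⟨θ, hθ⟩ := hx
      obtain ⟨η, hη⟩ := hy
      exact ⟨θ + η, by simp [hθ, hη]⟩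
    | smul a x _ hx =>
      obtain ⟨θ, hθ⟩ := hx
      exact ⟨C.mapR φ a • θ, by simp [hθ]⟩
  choose F hF using hex
  let f : P.ideal12 →+ (M.carrier →ₗ[C.R12 A'] C.R12 A') :=
    { toFun := F
      map_zero' := hs.apply_injective (by simp [hF])
      map_add' := fun a b => hs.apply_injective (by simp [hF]) }
  have hfs : ∀ (r : C.R12 A) (z : P.ideal12), f (r • z) = C.mapR φ r • f z :=
    fun r z => hs.apply_injective (by simp [f, hF])
  have h1 : Submodule.span (C.R1 A') (f '' P.lat1) = dualLat M.M1 := by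
    refine le_antisymm (Submodule.span_le.2 ?_) fun θ hθ => ?_
    · rintro _ ⟨z, ⟨r, hr, hrz⟩, rfl⟩
      obtain ⟨θ, hθ, hθs⟩ := (hI _).1 (P.mapR1_mem_ideal φ hr)
      have : f z = θ := hs.apply_injective (by
        rw [hθs]; exact (hF z).trans (congrArg (C.mapR φ) hrz.symm))
      rw [this]
      exact hθ
    · have hmem : (⟨θ s, hθ s hs.mem1⟩ : C.R1 A') ∈ Ideal.span (mapR1 φ '' P.ideal) :=
        P.map_ideal φ ▸ (hI _).2 ⟨θ, hθ, rfl⟩
      suffices ∀ r ∈ Ideal.span (mapR1 φ '' P.ideal),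
          ∃ η ∈ Submodule.span (C.R1 A') (f '' P.lat1), η s = ((r : C.R1 A') : C.R12 A') by
        obtain ⟨η, hη, hηs⟩ := this _ hmem
        rwa [hs.apply_injective (θ := θ) (θ' := η) hηs.symm]
      intro r hr
      induction hr using Submodule.span_induction with
      | mem x hx =>
        obtain ⟨w, hw, rfl⟩ := hx
        exact ⟨_, Submodule.subset_span ⟨⟨w, P.coe_mem_ideal12 hw⟩, ⟨w, hw, rfl⟩, rfl⟩,
          hF _⟩
      | zero => exact ⟨0, zero_mem _, by simp⟩
      | add x y _ _ hx hy =>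
        obtain ⟨η, hη, h⟩ := hx
        obtain ⟨η', hη', h'⟩ := hy
        exact ⟨η + η', add_mem hη hη', by simp [h, h']⟩
      | smul a x _ hx =>
        obtain ⟨η, hη, h⟩ := hx
        refine ⟨a • η, Submodule.smul_mem _ a hη, ?_⟩
        show (a : C.R12 A') * η s = (a : C.R12 A') * (x : C.R12 A')
        rw [h]
  let J := Submodule.span (C.R2 A') (f '' P.lat2)
  have hpow : ∀ θ ∈ Submodule.span (C.R1 A') (f '' P.lat1), ∃ n : ℕ,
      C.yA A' ^ n • θ ∈ J := by
    intro θ hθ
    induction hθ using Submodule.span_induction with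
    | mem x hx =>
      obtain ⟨z, -, rfl⟩ := hx
      obtain ⟨n, hn⟩ := C.exists_mul_yA_mem (z : C.R12 A)
      refine ⟨n, Submodule.subset_span ⟨C.yA A ^ n • z, ?_, ?_⟩⟩
      · show C.yA A ^ n * (z : C.R12 A) ∈ C.R2 A
        rwa [mul_comm]
      · rw [hfs, map_pow, C.mapR_yA]
    | zero => exact ⟨0, by simp⟩
    | add x y _ _ hx hy =>
      obtain ⟨n, hn⟩ := hx
      obtain ⟨l, hl⟩ := hy
      refine ⟨n + l, ?_⟩
      rw [smul_add]
      refine add_mem ?_ ?_
      · rw [add_comm n l, pow_add, mul_smul]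
        exact J.smul_mem (⟨_, pow_mem C.yA_mem l⟩ : C.R2 A') hn
      · rw [pow_add, mul_smul]
        exact J.smul_mem (⟨_, pow_mem C.yA_mem n⟩ : C.R2 A') hl
    | smul a x _ hx =>
      obtain ⟨n, hn⟩ := hx
      obtain ⟨l, hl⟩ := C.exists_mul_yA_mem (a : C.R12 A')
      refine ⟨l + n, ?_⟩
      rw [show a • x = (a : C.R12 A') • x from rfl, smul_smul,
        show C.yA A' ^ (l + n) * (a : C.R12 A') = (a : C.R12 A') * C.yA A' ^ l * C.yA A' ^ n by
          ring, mul_smul]
      exact J.smul_mem (⟨_, hl⟩ : C.R2 A') hn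
  have h2 : J = dualLat M.M2 := by
    refine le_antisymm (Submodule.span_le.2 ?_) fun θ hθ => ?_
    · rintro _ ⟨z, hz, rfl⟩
      exact hs.functional_mem_R2 (θ := f z) (by
        show F z s ∈ C.R2 A'
        rw [hF]; exact C.mapR_mem_sub φ hz)
    · obtain ⟨m, hm⟩ := M.dual.loc1 θ
      change C.xA A' ^ m • θ ∈ dualLat M.M1 at hm
      rw [← h1] at hm
      obtain ⟨n, hn⟩ := hpow _ hm
      have hn' : C.yA A' ^ n • θ ∈ J := by
        have hx : C.yA A' ^ n • θ =
            C.yA A' ^ m • C.yA A' ^ n • C.xA A' ^ m • θ := by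
          rw [smul_smul, smul_smul]
          congr 1
          rw [show C.yA A' ^ m * C.yA A' ^ n * C.xA A' ^ m =
            C.yA A' ^ n * (C.yA A' * C.xA A') ^ m by ring, C.yA_mul_xA, one_pow, mul_one]
        rw [hx]
        exact J.smul_mem (⟨_, pow_mem C.yA_mem m⟩ : C.R2 A') hn
      obtain ⟨Y, hY, hu⟩ := P.exists_one_sub_mem
      set ū : P.ideal12 := ⟨_, hu⟩
      have hY' : C.mapR φ Y ∈ C.R2 A' := C.mapR_mem_sub φ hY
      have hū : C.mapR φ ū = 1 - C.yA A' * C.mapR φ Y := by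
        show C.mapR φ (1 - C.yA A * Y) = _
        simp
      obtain ⟨t, ht, h⟩ := CurveRings.exists_pow_add_eq_one hY' hū n
      have hθ' : θ = C.mapR φ Y ^ n • C.yA A' ^ n • θ + (t * θ s) • f ū := by
        refine hs.apply_injective ?_
        simp only [LinearMap.add_apply, LinearMap.smul_apply, smul_eq_mul]
        show θ s = _ + t * θ s * F ū s
        rw [hF]
        calc θ s = θ s * ((C.yA A' * C.mapR φ Y) ^ n + t * C.mapR φ ū) := by rw [h, mul_one]
          _ = _ := by ring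
      rw [hθ']
      refine add_mem (J.smul_mem (⟨_, pow_mem hY' n⟩ : C.R2 A') hn') ?_
      exact J.smul_mem (⟨_, mul_mem ht (hθ s hs.mem2)⟩ : C.R2 A') (Submodule.subset_span
        ⟨ū, show (ū : C.R12 A) ∈ C.R2 A from sub_mem (one_mem _) (mul_mem C.yA_mem hY), rfl⟩)
  let H : Glued.Hom φ P.idealBundle M.dual :=
    { toFun := f
      map_smul := hfs
      span1 := h1
      span2 := h2 }
  exact ⟨H.dual.transIso (Glued.Iso.toDualDual M).symm⟩

end CyclicPt

end Fermat.Agent.Row24.Chart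

end
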