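import Fermat.Agent.Row24.Chart.Section
import Fermat.Agent.Row24.Euler.Glued

/-!
# The point of a bundle in a chart

The point is natural along base change and determines the bundle up to isomorphism.
-/

set_option autoImplicit false
set_option maxSynthPendingDepth 3

universe u

noncomputable section

namespace Fermat.Agent.Row24.Chart

open TensorProduct

variable {k : Type u} [Field k]

namespace CurveRings

variable (C : CurveRings k) {A A' : Type u} [CommRing A] [Algebra k A] [CommRing A']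
  [Algebra k A'] (φ : A →ₐ[k] A')

theorem coe_bA {g : ℕ} (b : Fin g → C.B1) (i : Fin g) :
    (C.bA A b i : C.R12 A) = 1 ⊗ₜ (b i : C.B12) := rfl

theorem mapR1_combination {g : ℕ} (b : Fin g → C.B1) (v : Fin g → A) :
    CyclicPt.mapR1 φ (∑ i, v i • C.bA A b i) = ∑ i, φ (v i) • C.bA A' b i := by
  apply Subtype.ext
  show C.mapR φ ((∑ i, v i • C.bA A b i : C.R1 A) : C.R12 A) = _
  simp [AddSubmonoidClass.coe_finsetSum, coe_bA, TensorProduct.smul_tmul']

end CurveRings

namespace Glued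

variable {C : CurveRings k} {A : Type u} [CommRing A] [Algebra k A] {M : Glued C A}

/-- A section whose multiples cover the fibre at the point has value one for some functional. -/
theorem exists_functional_of_generates {e : M.carrier} (he : e ∈ M.M2)
    (hgen : ∀ m ∈ M.M2, ∃ a : A, m - a • e ∈ M.M2O) :
    ∃ ψ : M.carrier →ₗ[C.R12 A] C.R12 A, (∀ m ∈ M.M2, ψ m ∈ C.R2 A) ∧
      ∃ h : ψ e ∈ C.R2 A, C.augA A ⟨ψ e, h⟩ = 1 := by
  obtain ⟨n, φ, v, hv, hφ, h1⟩ := M.isLattice2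
  choose a ha using fun i => hgen _ (hv i)
  have hψ : ∀ m ∈ M.M2, (∑ i, a i • φ i) m ∈ C.R2 A := by
    intro m hm
    rw [LinearMap.sum_apply]
    exact sum_mem fun i _ => Subalgebra.smul_mem _ (hφ i m hm) _
  refine ⟨_, hψ, hψ e he, ?_⟩
  have hsplit : (⟨(∑ i, a i • φ i) e, hψ e he⟩ : C.R2 A) =
      1 - ∑ i, ⟨φ i (v i - a i • e), hφ i _ (M.M2O_le (ha i))⟩ := by
    apply Subtype.ext
    simp [map_sub, LinearMap.map_smul_of_tower, h1]
  rw [hsplit, map_sub, map_one, map_sum,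
    Finset.sum_eq_zero (fun i _ => M.augA_mul_eq_zero (φ i) (hφ i) (ha i)), sub_zero]

namespace Hom

variable {A' : Type u} [CommRing A'] [Algebra k A'] {φ : A →ₐ[k] A'} {M' : Glued C A'}
  (f : Hom φ M M')

theorem map_smul_sub (B : Subalgebra k C.B12) (r : C.sub A B) (m : M.carrier) :
    f.toFun (r • m) = (⟨C.mapR φ r, C.mapR_mem_sub φ r.2⟩ : C.sub A' B) • f.toFun m :=
  f.map_smul (r : C.R12 A) m

theorem map_M2O {m : M.carrier} (hm : m ∈ M.M2O) : f.toFun m ∈ M'.M2O := by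
  refine Submodule.smul_induction_on (p := fun m => f.toFun m ∈ M'.M2O) hm (fun r hr n hn => ?_)
    (fun a b ha hb => ?_)
  · rw [f.map_smul_sub C.B2]
    refine Submodule.smul_mem_smul ?_ (f.mem2 hn)
    rw [RingHom.mem_ker, C.augA_mapR, RingHom.mem_ker.1 hr, map_zero]
  · rw [map_add]
    exact add_mem ha hb

theorem map_h0 {t : M.carrier} (ht : t ∈ M.h0) : f.toFun t ∈ M'.h0 := ⟨f.mem1 ht.1, f.mem2 ht.2⟩

include f in
theorem generates {e : M.carrier} (he : e ∈ M.M2)
    (hgen : ∀ m ∈ M.M2, ∃ a : A, m - a • e ∈ M.M2O) :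
    ∀ m ∈ M'.M2, ∃ a : A', m - a • f.toFun e ∈ M'.M2O := by
  intro m hm
  rw [← f.span2] at hm
  induction hm using Submodule.span_induction with
  | mem _ hx =>
    obtain ⟨n, hn, rfl⟩ := hx
    obtain ⟨a, ha⟩ := hgen n hn
    exact ⟨φ a, by rw [← f.map_smul_base, ← map_sub]; exact f.map_M2O ha⟩
  | zero => exact ⟨0, by simp⟩
  | add x y _ _ hx hy =>
    obtain ⟨a, ha⟩ := hx
    obtain ⟨a', ha'⟩ := hy
    exact ⟨a + a', by rw [add_smul, add_sub_add_comm]; exact add_mem ha ha'⟩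
  | smul c x _ hx =>
    obtain ⟨a, ha⟩ := hx
    refine ⟨C.augA A' c * a, ?_⟩
    have : c • x - (C.augA A' c * a) • f.toFun e = c • (x - a • f.toFun e) +
        (c - algebraMap A' (C.R2 A') (C.augA A' c)) • (a • f.toFun e) := by
      rw [smul_sub, sub_smul, algebraMap_smul, mul_smul]
      abel
    rw [this]
    exact add_mem (Submodule.smul_mem _ c ha) (Submodule.smul_mem_smul (by simp [RingHom.mem_ker])
      (Submodule.smul_of_tower_mem _ a (f.mem2 he)))

include f in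
theorem rigid (h : M.Rigid) : M'.Rigid := by
  obtain ⟨e, he, hu⟩ := h
  exact M'.rigid_iff.2 ⟨f.toFun e, f.mem2 he, exists_functional_of_generates (f.mem2 he)
    (f.generates he fun m hm => (hu m hm).exists)⟩

theorem isSection {s : M.carrier} (hs : M.IsSection s) : M'.IsSection (f.toFun s) := by
  obtain ⟨ψ, hψ, hu, h1⟩ := hs.one
  exact ⟨f.mem1 hs.mem1, f.mem2 hs.mem2, exists_functional_of_generates (f.mem2 hs.mem2)
    (f.generates hs.mem2 fun m hm => ⟨_, sub_smul_mem_M2O hψ hs.mem2 h1 hm⟩)⟩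

theorem map_span_h0 {t : M.carrier} (ht : t ∈ Submodule.span (C.R1 A) (M.h0 : Set M.carrier)) :
    f.toFun t ∈ Submodule.span (C.R1 A') (M'.h0 : Set M'.carrier) := by
  induction ht using Submodule.span_induction with
  | mem x hx => exact Submodule.subset_span (f.map_h0 hx)
  | zero => rw [map_zero]; exact zero_mem _
  | add x y _ _ hx hy => rw [map_add]; exact add_mem hx hy
  | smul c x _ hx => rw [f.map_smul_sub C.B1]; exact Submodule.smul_mem _ _ hx

include f in
theorem mapR1_mem_divIdeal {r : C.R1 A} (hr : r ∈ M.divIdeal) :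
    CyclicPt.mapR1 φ r ∈ M'.divIdeal := by
  intro m hm
  rw [← f.span1] at hm
  induction hm using Submodule.span_induction with
  | mem _ hx =>
    obtain ⟨n, hn, rfl⟩ := hx
    have := f.map_span_h0 (hr n hn)
    rwa [f.map_smul_sub C.B1] at this
  | zero => rw [smul_zero]; exact zero_mem _
  | add x y _ _ hx hy => rw [smul_add]; exact add_mem hx hy
  | smul c x _ hx => rw [smul_comm]; exact Submodule.smul_mem _ c hx

include f in
theorem onto {g : ℕ} {b : Fin g → C.B1} (h : M.Onto b) : M'.Onto b := by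
  intro r
  induction r using CurveRings.sub_induction with
  | tmul a z =>
    obtain ⟨v, hv⟩ := h (C.subEquiv A C.B1 (1 ⊗ₜ z))
    refine ⟨fun i => a * φ (v i), ?_⟩
    have h' := f.mapR1_mem_divIdeal hv
    have e : C.subEquiv A' C.B1 (a ⊗ₜ z) - ∑ i, (a * φ (v i)) • C.subEquiv A' C.B1 (1 ⊗ₜ b i) =
        a • CyclicPt.mapR1 φ
          (C.subEquiv A C.B1 (1 ⊗ₜ z) - ∑ i, v i • C.subEquiv A C.B1 (1 ⊗ₜ b i)) := by
      have hsub : ∀ p q : C.R1 A, CyclicPt.mapR1 φ (p - q) =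
          CyclicPt.mapR1 φ p - CyclicPt.mapR1 φ q :=
        fun p q => Subtype.ext (map_sub (C.mapR φ) _ _)
      rw [hsub, smul_sub]
      congr 1
      · apply Subtype.ext
        simp [CyclicPt.mapR1, TensorProduct.smul_tmul']
      · rw [show (∑ i, v i • C.subEquiv A C.B1 (1 ⊗ₜ b i)) = ∑ i, v i • C.bA A b i from rfl,
          C.mapR1_combination, Finset.smul_sum]
        refine Finset.sum_congr rfl fun i _ => ?_
        rw [mul_smul]
        rfl
    rw [e]
    exact Submodule.smul_of_tower_mem _ _ h'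
  | zero => exact ⟨0, by simp⟩
  | add p q hp hq =>
    obtain ⟨v, hv⟩ := hp
    obtain ⟨w, hw⟩ := hq
    refine ⟨v + w, ?_⟩
    simp only [Pi.add_apply, add_smul, Finset.sum_add_distrib]
    rw [add_sub_add_comm]
    exact add_mem hv hw

end Hom

variable {b : Fin C.g → C.B1}

/-- **The point of a bundle in a chart.** -/
def ChartCond.point (h : M.ChartCond b) : CyclicPt k b A :=
  CyclicPt.ofIdeal (I := M.divIdeal) h.onto fun _ hv => h.eq_zero_of_combination_mem hv

theorem ChartCond.point_ideal (h : M.ChartCond b) : h.point.ideal = M.divIdeal :=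
  CyclicPt.ideal_ofIdeal _ _

/-- **Naturality of the point.** -/
theorem Hom.point_map {A' : Type u} [CommRing A'] [Algebra k A'] {φ : A →ₐ[k] A'}
    {M' : Glued C A'} (f : Hom φ M M') (h : M.ChartCond b) (h' : M'.ChartCond b) :
    h'.point = h.point.map φ := by
  have hev : ∀ r, h'.point.ev (CyclicPt.mapR1 φ r) = (h.point.map φ).ev (CyclicPt.mapR1 φ r) := by
    intro r
    rw [CyclicPt.ev_map]
    have h1 := f.mapR1_mem_divIdeal (h.point_ideal ▸ h.point.sub_combination_mem r)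
    have hsub : CyclicPt.mapR1 φ (r - ∑ i, h.point.ev r i • C.bA A b i) =
        CyclicPt.mapR1 φ r - CyclicPt.mapR1 φ (∑ i, h.point.ev r i • C.bA A b i) :=
      Subtype.ext (map_sub (C.mapR φ) _ _)
    rw [← h'.point_ideal, CyclicPt.mem_ideal, hsub, C.mapR1_combination, map_sub,
      CyclicPt.ev_combination, sub_eq_zero] at h1
    exact h1
  refine CyclicPt.eq_of_ideal_eq ?_
  have hall : ∀ r, h'.point.ev r = (h.point.map φ).ev r := by
    intro r
    induction r using CurveRings.sub_induction with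
    | tmul a z =>
      have : C.subEquiv A' C.B1 (a ⊗ₜ z) = a • CyclicPt.mapR1 φ (C.subEquiv A C.B1 (1 ⊗ₜ z)) :=
        Subtype.ext (by simp [CyclicPt.mapR1, TensorProduct.smul_tmul'])
      rw [this, _root_.map_smul, _root_.map_smul, hev]
    | zero => rw [map_zero, map_zero]
    | add p q hp hq => rw [map_add, map_add, hp, hq]
  ext r
  rw [CyclicPt.mem_ideal, CyclicPt.mem_ideal, hall]

namespace IsSection

variable {s : M.carrier} (hs : M.IsSection s) {M' : Glued C A} {s' : M'.carrier}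
  (hs' : M'.IsSection s')

include hs in
/-- Maps of bundles agreeing on the section are equal. -/
theorem ext_hom {δ δ' : M.carrier →ₗ[C.R12 A] M'.carrier} (h : δ s = δ' s) : δ = δ' := by
  refine LinearMap.ext fun m => sub_eq_zero.1 ?_
  obtain ⟨n, φ, v, hv, hφ, h1⟩ := M'.isLattice1
  rw [← sum_smul_eq φ v h1 (δ m - δ' m)]
  refine Finset.sum_eq_zero fun j _ => ?_
  suffices φ j (δ m - δ' m) = 0 by rw [this, zero_smul]
  refine hs.eq_zero_of_smul_eq_zero ?_
  obtain ⟨N, θ, w, hw, hθ, hθ1⟩ := M.isLattice1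
  rw [← sum_smul_eq θ w hθ1 (φ j (δ m - δ' m) • s)]
  refine Finset.sum_eq_zero fun i _ => ?_
  suffices θ i (φ j (δ m - δ' m) • s) = 0 by rw [this, zero_smul]
  rw [map_smul, smul_eq_mul, mul_comm, ← smul_eq_mul, ← map_smul, smul_sub, ← map_smul, ← map_smul,
    apply_smul_comm (θ i) s m, map_smul, map_smul, h, sub_self, map_zero]

include hs in
theorem functional_mem_R2 {θ : M.carrier →ₗ[C.R12 A] C.R12 A} (h : θ s ∈ C.R2 A) :
    ∀ m ∈ M.M2, θ m ∈ C.R2 A := by
  intro m hm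
  refine hs.mem_R2_of_smul_mem ?_
  rw [apply_smul_comm θ m s]
  exact M.M2.smul_mem (⟨θ s, h⟩ : C.R2 A) hm

variable (hV : M.Vanish) (hV' : M'.Vanish) (hI : M.divIdeal = M'.divIdeal)
include hs hs' hV hV' hI

theorem exists_functional_eq (φ' : M'.carrier →ₗ[C.R12 A] C.R12 A) :
    ∃ θ : M.carrier →ₗ[C.R12 A] C.R12 A, θ s = φ' s' := by
  obtain ⟨n, φ, v, hv, hφ, h1⟩ := M'.isLattice1
  choose e he using fun i => C.exists_mul_xA_mem (φ' (v i))
  set N := Finset.univ.sup e
  have hN : ∀ m ∈ M'.M1, (C.xA A ^ N • φ') m ∈ C.R1 A := by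
    intro m hm
    conv => arg 2; rw [LinearMap.smul_apply, ← sum_smul_eq φ v h1 m, map_sum, Finset.smul_sum]
    refine sum_mem fun i _ => ?_
    rw [map_smul, smul_eq_mul, smul_eq_mul,
      ← Nat.sub_add_cancel (show e i ≤ N from Finset.le_sup (f := e) (Finset.mem_univ i)), pow_add,
      show C.xA A ^ (N - e i) * C.xA A ^ e i * (φ i m * φ' (v i)) =
        φ i m * C.xA A ^ (N - e i) * (φ' (v i) * C.xA A ^ e i) by ring]
    exact mul_mem (mul_mem (hφ i m hm) (pow_mem C.xA_mem _)) (he i)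
  have hmem : (⟨_, hN s' hs'.mem1⟩ : C.R1 A) ∈ M.divIdeal :=
    hI ▸ (hs'.mem_divIdeal_iff hV').2 ⟨_, hN, rfl⟩
  obtain ⟨θ, -, hθ⟩ := (hs.mem_divIdeal_iff hV).1 hmem
  refine ⟨C.yA A ^ N • θ, ?_⟩
  rw [LinearMap.smul_apply, hθ]
  show C.yA A ^ N * (C.xA A ^ N * φ' s') = φ' s'
  rw [← mul_assoc, ← mul_pow, C.yA_mul_xA, one_pow, one_mul]

/-- The map of bundles with the same divisor. -/
theorem exists_map : ∃ Ψ : M.carrier →ₗ[C.R12 A] M'.carrier,
    Ψ s = s' ∧ (∀ m ∈ M.M1, Ψ m ∈ M'.M1) ∧ (∀ m ∈ M.M2, Ψ m ∈ M'.M2) := by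
  obtain ⟨n, φ, v, hv, hφ, h1⟩ := M'.isLattice1
  have hθ : ∀ j, ∃ θ : M.carrier →ₗ[C.R12 A] C.R12 A,
      (∀ m ∈ M.M1, θ m ∈ C.R1 A) ∧ θ s = φ j s' := fun j =>
    (hs.mem_divIdeal_iff hV).1
      (show (⟨φ j s', hφ j s' hs'.mem1⟩ : C.R1 A) ∈ M.divIdeal from
        hI ▸ (hs'.mem_divIdeal_iff hV').2 ⟨φ j, hφ j, rfl⟩)
  choose θ hθ1 hθs using hθ
  let Ψ : M.carrier →ₗ[C.R12 A] M'.carrier := ∑ j, (θ j).smulRight (v j)
  have hΨs : Ψ s = s' := by
    simp only [Ψ, LinearMap.sum_apply, LinearMap.smulRight_apply, hθs]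
    exact sum_smul_eq φ v h1 s'
  refine ⟨Ψ, hΨs, fun m hm => ?_, ?_⟩
  · simp only [Ψ, LinearMap.sum_apply, LinearMap.smulRight_apply]
    exact sum_mem fun j _ => M'.M1.smul_mem (⟨θ j m, hθ1 j m hm⟩ : C.R1 A) (hv j)
  · obtain ⟨l, χ, w, hw, hχ, hχ1⟩ := M'.isLattice2
    choose η hη using fun j => hs.exists_functional_eq hs' hV hV' hI (χ j)
    have hΨ : Ψ = ∑ j, (η j).smulRight (w j) := hs.ext_hom (by
      simp only [hΨs, LinearMap.sum_apply, LinearMap.smulRight_apply, hη]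
      exact (sum_smul_eq χ w hχ1 s').symm)
    intro m hm
    rw [hΨ]
    simp only [LinearMap.sum_apply, LinearMap.smulRight_apply]
    exact sum_mem fun j _ => M'.M2.smul_mem
      (⟨η j m, hs.functional_mem_R2 (by rw [hη]; exact hχ j s' hs'.mem2) m hm⟩ : C.R2 A) (hw j)

/-- Bundles with the same divisor are isomorphic. -/
theorem nonempty_iso : Nonempty (Iso M M') := by
  obtain ⟨Ψ, hΨ, h1, h2⟩ := hs.exists_map hs' hV hV' hI
  obtain ⟨Ψ', hΨ', h1', h2'⟩ := hs'.exists_map hs hV' hV hI.symm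
  have e : Ψ ∘ₗ Ψ' = LinearMap.id := hs'.ext_hom (by simp [hΨ, hΨ'])
  have e' : Ψ' ∘ₗ Ψ = LinearMap.id := hs.ext_hom (by simp [hΨ, hΨ'])
  refine ⟨⟨LinearEquiv.ofLinearMap Ψ Ψ' e e', fun m => ⟨fun h => ?_, fun h => h1 m h⟩,
    fun m => ⟨fun h => ?_, fun h => h2 m h⟩⟩⟩
  · have := h1' _ h
    rwa [LinearEquiv.coe_ofLinearMap, ← LinearMap.comp_apply, e', LinearMap.id_apply] at this
  · have := h2' _ h
    rwa [LinearEquiv.coe_ofLinearMap, ← LinearMap.comp_apply, e', LinearMap.id_apply] at this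

end IsSection

/-- **The point determines the bundle.** -/
theorem ChartCond.nonempty_iso_of_point_eq {M' : Glued C A} (h : M.ChartCond b)
    (h' : M'.ChartCond b) (e : h.point = h'.point) : Nonempty (Iso M M') := by
  obtain ⟨s, hs⟩ := exists_isSection h.rigid h.vanish
  obtain ⟨s', hs'⟩ := exists_isSection h'.rigid h'.vanish
  exact hs.nonempty_iso hs' h.vanish h'.vanish (by rw [← h.point_ideal, ← h'.point_ideal, e])

end Glued

end Fermat.Agent.Row24.Chart

end
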