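import Fermat.Agent.Row24.InvertibleModule

/-!
# The ideal of the graph of a point of an affine curve

A partition of unity for the diagonal of an affine curve pulls back to one for the ideal of the
graph of a point with values in any algebra.
-/

set_option autoImplicit false

universe u v w

open TensorProduct

noncomputable section

namespace Fermat.Agent.Row24.Chart

/-- A finite family of functionals on an ideal takes the value one. -/
def HasPairing {T : Type v} [CommRing T] (I : Ideal T) : Prop :=
  ∃ (n : ℕ) (g : Fin n → I →ₗ[T] T) (w : Fin n → I), ∑ i, g i (w i) = 1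

theorem HasPairing.of_invertible {T : Type v} [CommRing T] (I : Ideal T) [Module.Invertible T I] :
    HasPairing I := by
  classical
  obtain ⟨t, ht⟩ := (Module.Invertible.bijective (R := T) (M := I)).2 1
  obtain ⟨s, hs⟩ := TensorProduct.exists_finset t
  have h1 : ∑ p ∈ s, p.1 p.2 = 1 := by
    rw [← ht, hs, map_sum]
    exact Finset.sum_congr rfl fun p _ => (contractLeft_apply _ _).symm
  let e := (Fintype.equivFin s).symm
  refine ⟨_, fun i => (e i).1.1, fun i => (e i).1.2, ?_⟩
  rw [e.sum_comp (fun p : s => p.1.1 p.1.2)]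
  rwa [← Finset.sum_coe_sort s] at h1

theorem HasPairing.of_equiv {T T' : Type v} [CommRing T] [CommRing T'] (e : T ≃+* T') {I : Ideal T}
    {I' : Ideal T'} (h : ∀ x, x ∈ I' ↔ e.symm x ∈ I) (hI : HasPairing I) : HasPairing I' := by
  obtain ⟨n, g, w, h1⟩ := hI
  refine ⟨n, fun i =>
    { toFun := fun x => e (g i ⟨e.symm x, (h _).1 x.2⟩)
      map_add' := fun x y => by
        rw [← map_add, ← map_add]
        exact congrArg (fun z => e (g i z)) (Subtype.ext (map_add e.symm (x : T') y))
      map_smul' := fun r x => by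
        rw [RingHom.id_apply, smul_eq_mul, ← e.apply_symm_apply r, ← map_mul, ← smul_eq_mul,
          ← map_smul]
        exact congrArg (fun z => e (g i z))
          (Subtype.ext (by simp)) },
    fun i => ⟨e (w i), (h _).2 (by simp)⟩, ?_⟩
  simp only [LinearMap.coe_mk, AddHom.coe_mk, RingEquiv.symm_apply_apply]
  rw [← map_sum, h1, map_one]

section Graph

variable {k : Type u} [Field k] {A B : Type u} [CommRing A] [Algebra k A] [CommRing B] [Algebra k B]
  (φ : B →ₐ[k] A)

/-- Evaluation at a point with values in `A`. -/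
def pev : A ⊗[k] B →ₐ[A] A :=
  Algebra.TensorProduct.lift (AlgHom.id A A) φ fun _ _ => mul_comm _ _

@[simp] theorem pev_tmul (a : A) (b : B) : pev φ (a ⊗ₜ b) = a * φ b :=
  Algebra.TensorProduct.lift_tmul _ _ _ a b

/-- The difference of the two values of a function, as a function vanishing on the graph. -/
def delta : B →ₗ[k] RingHom.ker (pev φ) where
  toFun b := ⟨1 ⊗ₜ b - φ b ⊗ₜ 1, by simp [RingHom.mem_ker]⟩
  map_add' b c := Subtype.ext (by
    simp only [map_add, TensorProduct.tmul_add, TensorProduct.add_tmul, Submodule.coe_add]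
    abel)
  map_smul' r b := Subtype.ext (by
    simp [TensorProduct.tmul_smul, TensorProduct.smul_tmul', smul_sub])

@[simp] theorem coe_delta (b : B) : (delta φ b : A ⊗[k] B) = 1 ⊗ₜ b - φ b ⊗ₜ 1 := rfl

theorem delta_mul (b c : B) :
    delta φ (b * c) = ((1 : A) ⊗ₜ[k] b) • delta φ c + (φ c ⊗ₜ[k] (1 : B)) • delta φ b :=
  Subtype.ext (by simp [mul_sub, Algebra.TensorProduct.tmul_mul_tmul, mul_comm (φ b)])

theorem sub_pev_mem_span (s : A ⊗[k] B) :
    s - pev φ s ⊗ₜ 1 ∈ Ideal.span (Set.range fun b => (delta φ b : A ⊗[k] B)) := by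
  induction s using TensorProduct.induction_on with
  | zero => simp
  | tmul a b =>
    have : a ⊗ₜ[k] b - pev φ (a ⊗ₜ b) ⊗ₜ 1 = (a ⊗ₜ 1) * (delta φ b : A ⊗[k] B) := by
      simp [mul_sub, Algebra.TensorProduct.tmul_mul_tmul]
    rw [this]
    exact Ideal.mul_mem_left _ _ (Ideal.subset_span ⟨b, rfl⟩)
  | add s t hs ht =>
    rw [map_add, TensorProduct.add_tmul, add_sub_add_comm]
    exact add_mem hs ht

/-- Base change of the universal point. -/
abbrev graphMap : B ⊗[k] B →ₐ[k] A ⊗[k] B := Algebra.TensorProduct.map φ (AlgHom.id k B)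

theorem pev_graphMap (w : B ⊗[k] B) :
    pev φ (graphMap φ w) = φ (pev (AlgHom.id k B) w) := by
  induction w using TensorProduct.induction_on with
  | zero => simp
  | tmul b c => simp
  | add v w hv hw => simp only [map_add, hv, hw]

/-- A partition of unity on the diagonal gives one on every graph. -/
theorem HasPairing.graph (h : HasPairing (RingHom.ker (pev (AlgHom.id k B)))) :
    HasPairing (RingHom.ker (pev φ)) := by
  obtain ⟨n, f, w, h1⟩ := h
  let F : Fin n → A ⊗[k] B →ₗ[A] A ⊗[k] B := fun i =>
    ((graphMap φ).toLinearMap ∘ₗ (f i).restrictScalars k ∘ₗ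
      delta (AlgHom.id k B)).liftBaseChange A
  have hF : ∀ i a b, F i (a ⊗ₜ b) = a • graphMap φ (f i (delta (AlgHom.id k B) b)) :=
    fun i a b => by simp only [F, LinearMap.liftBaseChange_tmul]; rfl
  have hprod : ∀ i s t, F i (s * t) = s * F i t + pev φ t • F i s := by
    intro i s t
    induction s using TensorProduct.induction_on with
    | zero => simp
    | add s s' hs hs' => simp only [add_mul, map_add, smul_add, hs, hs']; abel
    | tmul a b =>
      induction t using TensorProduct.induction_on with
      | zero => simp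
      | add t t' ht ht' => simp only [mul_add, map_add, add_smul, ht, ht']; abel
      | tmul a' c =>
        rw [Algebra.TensorProduct.tmul_mul_tmul, hF, hF, hF, delta_mul, map_add, map_smul, map_smul,
          smul_eq_mul, smul_eq_mul, map_add, map_mul, map_mul]
        simp only [graphMap, Algebra.TensorProduct.map_tmul, AlgHom.coe_id, id_eq, map_one,
          pev_tmul, Algebra.smul_def, Algebra.TensorProduct.algebraMap_apply, map_mul,
          Algebra.algebraMap_self, RingHom.id_apply]
        rw [show a ⊗ₜ[k] b = a ⊗ₜ[k] (1 : B) * (1 : A) ⊗ₜ[k] b by simp]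
        ring
  have hgraph : ∀ i v, F i (graphMap φ v) = graphMap φ (f i ⟨v - pev (AlgHom.id k B) v ⊗ₜ 1,
      by simp [RingHom.mem_ker]⟩) := by
    intro i v
    induction v using TensorProduct.induction_on with
    | zero =>
      rw [map_zero, map_zero]
      refine ((congrArg (graphMap φ) ?_).trans (map_zero _)).symm
      exact (congrArg (f i) (Subtype.ext (by simp))).trans (map_zero _)
    | tmul b c =>
      rw [show graphMap φ (b ⊗ₜ c) = φ b ⊗ₜ c by simp, hF]
      have : (⟨b ⊗ₜ c - pev (AlgHom.id k B) (b ⊗ₜ c) ⊗ₜ 1, by simp [RingHom.mem_ker]⟩ :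
          RingHom.ker (pev (AlgHom.id k B))) = (b ⊗ₜ[k] (1 : B)) • delta (AlgHom.id k B) c :=
        Subtype.ext (by simp [mul_sub, Algebra.TensorProduct.tmul_mul_tmul])
      rw [this, map_smul, smul_eq_mul, map_mul, Algebra.smul_def]
      simp [Algebra.TensorProduct.algebraMap_apply]
    | add v w hv hw =>
      rw [map_add, map_add, hv, hw, ← map_add, ← map_add]
      refine congrArg (fun z => graphMap φ (f i z)) (Subtype.ext ?_)
      simp only [Submodule.coe_add, map_add, TensorProduct.add_tmul]
      abel
  refine ⟨n, fun i =>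
    { toFun := fun x => F i x
      map_add' := fun x y => map_add (F i) (x : A ⊗[k] B) y
      map_smul' := fun r x => by
        simp only [SetLike.val_smul, smul_eq_mul, RingHom.id_apply]
        rw [hprod, RingHom.mem_ker.1 x.2, zero_smul, add_zero] },
    fun i => ⟨graphMap φ (w i), by
      rw [RingHom.mem_ker, pev_graphMap, RingHom.mem_ker.1 (w i).2, map_zero]⟩, ?_⟩
  simp only [LinearMap.coe_mk, AddHom.coe_mk, hgraph]
  rw [← map_sum, ← map_one (graphMap φ), ← h1]
  refine congrArg (graphMap φ) (Finset.sum_congr rfl fun i _ => congrArg (f i) (Subtype.ext ?_))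
  simp [RingHom.mem_ker.1 (w i).2]

end Graph

end Fermat.Agent.Row24.Chart

end
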