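import Fermat.Agent.Row24.InvertibleModule

/-!
# Ideals of families of finite subschemes of an affine curve

An ideal of `A ⊗ B`, for a Dedekind `k`-algebra `B`, whose quotient is finite projective over the
finitely generated `k`-algebra `A`, is invertible.
-/

set_option autoImplicit false

universe u v w

open TensorProduct

noncomputable section

namespace Fermat.Agent.Row24.Chart

section General

variable {A : Type u} [CommRing A] {S : Type v} [CommRing S] [Algebra A S]

/-- An element killing everything modulo a maximal ideal kills everything outside it. -/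
theorem exists_smul_eq_zero_of_smul_mem {M : Type w} [AddCommGroup M] [Module S M]
    [Module.Finite S M] {P : Ideal S} [P.IsMaximal] {h : S} (hh : h ∉ P)
    (hM : ∀ x : M, h • x ∈ P • (⊤ : Submodule S M)) : ∃ r : S, r ∉ P ∧ ∀ x : M, r • x = 0 := by
  obtain ⟨u, p, hp, hup⟩ := Ideal.IsMaximal.exists_inv ‹P.IsMaximal› hh
  have hle : (⊤ : Submodule S M) ≤ P • ⊤ := fun x _ => by
    rw [← one_smul S x, ← hup, add_smul, mul_smul]
    exact add_mem (Submodule.smul_mem _ u (hM x))
      (Submodule.smul_mem_smul hp Submodule.mem_top)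
  obtain ⟨r, hr, hr0⟩ :=
    Submodule.exists_sub_one_mem_and_smul_eq_zero_of_fg_of_le_smul P ⊤ Module.Finite.fg_top hle
  refine ⟨r, fun hrP => ?_, fun x => hr0 x Submodule.mem_top⟩
  exact Ideal.IsPrime.one_notMem inferInstance (by simpa using sub_mem hrP hr)

/-- An ideal is free of rank one away from an element killing the kernel and the cokernel of
multiplication by one of its elements. -/
theorem nonempty_localized_ideal_equiv (I : Ideal S) (f : I) (h : S)
    (hsurj : ∀ i : I, ∃ t : S, h • i = t • f) (hinj : ∀ s : S, s • f = 0 → h * s = 0) :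
    Nonempty (LocalizedModule.Away h I ≃ₗ[Localization.Away h] Localization.Away h) := by
  let m := LocalizedModule.mkLinearMap (Submonoid.powers h) I
  let φ := LinearMap.toSpanSingleton (Localization.Away h) (LocalizedModule.Away h I) (m f)
  have hφ : ∀ s (d : Submonoid.powers h), φ (Localization.mk s d) = LocalizedModule.mk (s • f) d :=
    fun s d => by simp [φ, m, LocalizedModule.mk_smul_mk]
  refine ⟨(LinearEquiv.ofBijective φ ⟨?_, ?_⟩).symm⟩
  · rw [injective_iff_map_eq_zero]
    intro z
    induction z using Localization.ind with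
    | _ y =>
      intro hz
      rw [hφ, ← LocalizedModule.zero_mk 1, LocalizedModule.mk_eq] at hz
      obtain ⟨⟨c, n, rfl⟩, hc⟩ := hz
      simp only [smul_zero, one_smul, Submonoid.smul_def] at hc
      rw [smul_smul] at hc
      rw [Localization.mk_eq_mk', IsLocalization.mk'_eq_zero_iff]
      refine ⟨⟨h ^ (n + 1), n + 1, rfl⟩, ?_⟩
      change h ^ (n + 1) * y.1 = 0
      rw [pow_succ', mul_assoc]
      exact hinj _ hc
  · intro z
    induction z using LocalizedModule.induction_on with
    | _ i d =>
      obtain ⟨t, ht⟩ := hsurj i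
      refine ⟨Localization.mk t (⟨h, Submonoid.mem_powers h⟩ * d), ?_⟩
      rw [hφ, ← ht, LocalizedModule.mk_eq]
      exact ⟨1, by simp [Submonoid.smul_def, smul_smul, mul_comm]⟩

variable (I : Ideal S)

/-- The projection onto an ideal with projective quotient. -/
theorem exists_retraction [Module.Projective A (S ⧸ I)] :
    ∃ p : S →ₗ[A] S, (∀ s, p s ∈ I) ∧ ∀ s ∈ I, p s = s := by
  obtain ⟨σ, hσ⟩ := Module.projective_lifting_property (I.mkQ.restrictScalars A) LinearMap.id
    (Submodule.mkQ_surjective I)
  refine ⟨LinearMap.id - σ ∘ₗ I.mkQ.restrictScalars A, fun s => ?_, fun s hs => ?_⟩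
  · have h1 : I.mkQ (σ (I.mkQ s)) = I.mkQ s := LinearMap.congr_fun hσ (I.mkQ s)
    refine (Submodule.Quotient.mk_eq_zero I).1 ?_
    show I.mkQ (s - σ (I.mkQ s)) = 0
    rw [map_sub, h1, sub_self]
  · show s - σ (I.mkQ s) = s
    have h0 : I.mkQ s = 0 := (Submodule.Quotient.mk_eq_zero I).2 hs
    rw [h0, map_zero, sub_zero]

theorem flat_of_projective_quotient [Module.Flat A S] [Module.Projective A (S ⧸ I)] :
    Module.Flat A I := by
  obtain ⟨p, hp, hp'⟩ := exists_retraction (A := A) I
  exact Module.Flat.of_retract (I.subtype.restrictScalars A)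
    { toFun := fun s => ⟨p s, hp s⟩
      map_add' := fun x y => Subtype.ext (map_add p x y)
      map_smul' := fun a x => Subtype.ext (map_smul p a x) }
    (LinearMap.ext fun x => Subtype.ext (hp' x.1 x.2))

theorem mem_map_mul_of_mem [Module.Projective A (S ⧸ I)] (m : Ideal A) {s : S} (hs : s ∈ I)
    (hm : s ∈ m.map (algebraMap A S)) : s ∈ m.map (algebraMap A S) * I := by
  obtain ⟨p, hp, hp'⟩ := exists_retraction (A := A) I
  have hm' : s ∈ m • (⊤ : Submodule A S) := by
    rw [Ideal.smul_top_eq_map]; exact hm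
  rw [← hp' s hs]
  refine Submodule.smul_induction_on hm' (fun a ha t _ => ?_) fun x y hx hy => ?_
  · rw [map_smul, Algebra.smul_def]
    exact Ideal.mul_mem_mul (Ideal.mem_map_of_mem _ ha) (hp t)
  · rw [map_add]; exact add_mem hx hy

/-- Multiplication by `f` is surjective onto the ideal after inverting some element. -/
theorem exists_surj_nhd [IsNoetherianRing S] [Module.Projective A (S ⧸ I)] {P : Ideal S}
    [P.IsMaximal] (m : Ideal A) (hmP : m.map (algebraMap A S) ≤ P) {h : S} (f' : I) (hh : h ∉ P)
    (hgen : ∀ s ∈ I, ∃ t, h * s - t * (f' : S) ∈ m.map (algebraMap A S)) :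
    ∃ r : S, r ∉ P ∧ ∀ i : I, ∃ t : S, r • i = t • f' := by
  classical
  obtain ⟨f, hf⟩ := f'
  let f' : I := ⟨f, hf⟩
  let K : Submodule S I := Submodule.span S {f'}
  obtain ⟨r, hrP, hr⟩ := exists_smul_eq_zero_of_smul_mem (M := I ⧸ K) hh fun x => by
    obtain ⟨x, rfl⟩ := K.mkQ_surjective x
    obtain ⟨t, ht⟩ := hgen x.1 x.2
    have hmem := mem_map_mul_of_mem (A := A) I m
      (sub_mem (I.mul_mem_left h x.2) (I.mul_mem_left t hf)) ht
    have hmem' : h • x - t • f' ∈ P • (⊤ : Submodule S I) := by
      have h5 : Submodule.map I.subtype (P • ⊤) = P • I := by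
        rw [Submodule.map_smul'', Submodule.map_top, Submodule.range_subtype]
      have h6 : h * x.1 - t * f ∈ Submodule.map I.subtype (P • ⊤) := by
        rw [h5]; exact Ideal.mul_mono hmP le_rfl hmem
      obtain ⟨z, hz, hz'⟩ := h6
      have : z = h • x - t • f' := Subtype.ext hz'
      rwa [← this]
    have h2 : K.mkQ (h • x - t • f') = h • K.mkQ x := by
      have h0 : K.mkQ f' = 0 := (Submodule.Quotient.mk_eq_zero K).2 (Submodule.mem_span_singleton_self _)
      rw [map_sub, map_smul, map_smul, h0, smul_zero, sub_zero]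
    have h3 := Submodule.mem_map_of_mem (f := K.mkQ) hmem'
    rwa [h2, Submodule.map_smul'', Submodule.map_top, Submodule.range_mkQ] at h3
  have hsurj : ∀ i : I, ∃ t : S, r • i = t • f' := fun i => by
    have := hr (K.mkQ i)
    rw [← map_smul] at this
    obtain ⟨t, ht⟩ := Submodule.mem_span_singleton.1 ((Submodule.Quotient.mk_eq_zero K).1 this)
    exact ⟨t, ht.symm⟩
  exact ⟨r, hrP, hsurj⟩

/-- Multiplication by `f` is injective after inverting some element. -/
theorem exists_inj_nhd [IsNoetherianRing S] [Module.Flat A I] {P : Ideal S}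
    [P.IsMaximal] (m : Ideal A) (hmP : m.map (algebraMap A S) ≤ P) {r : S} (f' : I) (hrP : r ∉ P)
    (hsurj : ∀ i : I, ∃ t : S, r • i = t • f')
    (hreg : ∀ s, s * (f' : S) ∈ m.map (algebraMap A S) → s ∈ m.map (algebraMap A S)) :
    ∃ r' : S, r' ∉ P ∧ ∀ s : S, s • f' = 0 → r' * s = 0 := by
  classical
  let N : Submodule S S := LinearMap.ker (LinearMap.toSpanSingleton S I f')
  have hN : ∀ s, s ∈ N ↔ s • f' = 0 := fun s => by simp [N]
  obtain ⟨r', hr'P, hr'⟩ := exists_smul_eq_zero_of_smul_mem (M := N) hrP fun x => by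
    obtain ⟨s, hs⟩ := x
    have hs0 : s • f' = 0 := (hN s).1 hs
    have hsm : s ∈ m • Submodule.span A (Set.range (id : S → S)) := by
      rw [Set.range_id, Submodule.span_univ, Ideal.smul_top_eq_map]
      refine hreg s ?_
      have : s * (f' : S) = 0 := congrArg Subtype.val hs0
      rw [this]; exact zero_mem _
    obtain ⟨a, ha, hsum⟩ := (Submodule.mem_ideal_smul_span_iff_exists_sum m _ s).1 hsm
    replace hsum : ∑ i : a.support, a i • (i : S) = s := by
      rw [Finset.sum_coe_sort a.support (fun i : S => a i • i)]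
      exact hsum
    obtain ⟨k, b, y, hy, hab⟩ := Module.Flat.isTrivialRelation_of_sum_smul_eq_zero (R := A)
      (M := I) (f := fun i : a.support => a i) (x := fun i : a.support => (i : S) • f') (by
        rw [← hs0, ← hsum, Finset.sum_smul]
        exact Finset.sum_congr rfl fun i _ => (smul_assoc (a i) (i : S) f').symm)
    choose t ht using fun j => hsurj (y j)
    have hn : ∀ i : a.support, (r * i - ∑ j, b i j • t j : S) ∈ N := fun i => by
      have hyi : (i : S) • f' = ∑ j, b i j • y j := hy i
      rw [hN, sub_smul, mul_smul, hyi, Finset.smul_sum, Finset.sum_smul, sub_eq_zero]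
      refine Finset.sum_congr rfl fun j _ => ?_
      rw [smul_comm r (b i j) (y j), ht j, smul_assoc]
    have key : r • (⟨s, hs⟩ : N) = ∑ i : a.support, algebraMap A S (a i) • (⟨_, hn i⟩ : N) := by
      refine Subtype.ext ?_
      simp only [Submodule.coe_smul, Submodule.coe_sum, smul_eq_mul, mul_sub, Finset.mul_sum,
        Finset.sum_sub_distrib]
      rw [Finset.sum_comm (f := fun (i : a.support) j => algebraMap A S (a i) * (b i j • t j))]
      have h0 : ∀ j, ∑ i : a.support, algebraMap A S (a i) * (b i j • t j) = 0 := fun j => by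
        simp only [Algebra.smul_def, ← mul_assoc, ← map_mul, ← Finset.sum_mul, ← map_sum, hab j,
          map_zero, zero_mul]
      simp only [h0, Finset.sum_const_zero, sub_zero]
      rw [← hsum, Finset.mul_sum]
      exact Finset.sum_congr rfl fun i _ => by rw [Algebra.smul_def]; ring
    rw [key]
    exact Submodule.sum_mem _ fun i _ => Submodule.smul_mem_smul
      (hmP (Ideal.mem_map_of_mem _ (ha i))) Submodule.mem_top
  exact ⟨r', hr'P, fun s hs => congrArg Subtype.val (hr' ⟨s, (hN s).2 hs⟩)⟩

/-- The local statement at a maximal ideal over a point of the base. -/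
theorem exists_free_nhd [IsNoetherianRing S] [Module.Flat A S] [Module.Projective A (S ⧸ I)]
    {P : Ideal S} [P.IsMaximal] (m : Ideal A) (hmP : m.map (algebraMap A S) ≤ P) {f h : S}
    (hf : f ∈ I) (hh : h ∉ P)
    (hgen : ∀ s ∈ I, ∃ t, h * s - t * f ∈ m.map (algebraMap A S))
    (hreg : ∀ s, s * f ∈ m.map (algebraMap A S) → s ∈ m.map (algebraMap A S)) :
    ∃ r : S, r ∉ P ∧
      Nonempty (LocalizedModule.Away r I ≃ₗ[Localization.Away r] Localization.Away r) := by
  have := flat_of_projective_quotient (A := A) I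
  obtain ⟨r, hrP, hsurj⟩ := exists_surj_nhd (A := A) I m hmP ⟨f, hf⟩ hh hgen
  obtain ⟨r', hr'P, hinj⟩ := exists_inj_nhd (A := A) I m hmP ⟨f, hf⟩ hrP hsurj hreg
  refine ⟨r * r', Ideal.IsPrime.mul_notMem inferInstance hrP hr'P,
    nonempty_localized_ideal_equiv I ⟨f, hf⟩ (r * r') (fun i => ?_) fun s hs => ?_⟩
  · obtain ⟨t, ht⟩ := hsurj i
    exact ⟨r' * t, by rw [mul_comm r, mul_smul, ht, smul_smul]⟩
  · rw [mul_assoc, hinj s hs, mul_zero]

end General

end Fermat.Agent.Row24.Chart
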