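import Fermat.Agent.Row24.Chart.Classify
import Fermat.Agent.Row24.Chart.BaseChange
import Fermat.Agent.Row24.TwoTerm.Locus
import Mathlib.RingTheory.Localization.Away.Basic

/-!
# The open locus of a chart

The chart condition is stable under base change and holds on an open set of the base: no
cohomology after twisting down, and the chosen functions span the functions on the divisor.
-/

set_option autoImplicit false
set_option maxSynthPendingDepth 3

universe u

noncomputable section

namespace Fermat.Agent.Row24.Chart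

open TensorProduct

variable {k : Type u} [Field k] {C : CurveRings k}

/-- The map of algebras to a localisation. -/
abbrev toAwayHom (A : Type u) [CommRing A] [Algebra k A] (f : A) : A →ₐ[k] Localization.Away f :=
  IsScalarTower.toAlgHom k A (Localization.Away f)

namespace Glued

variable {A : Type u} [CommRing A] [Algebra k A] {M : Glued C A}
  {A' : Type u} [CommRing A'] [Algebra k A'] {φ : A →ₐ[k] A'} {M' : Glued C A'}
  {b : Fin C.g → C.B1}

theorem Hom.vanish (f : Hom φ M M') (h : M.Vanish) : M'.Vanish :=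
  f.vanish_iff.2 fun q => by
    have h' := (Iso.refl M).toHom.vanish_iff.1 h (q.comap φ.toRingHom)
    exact h'

/-- **The chart condition is stable under base change.** -/
theorem Hom.chartCond (f : Hom φ M M') (h : M.ChartCond b) : M'.ChartCond b :=
  ⟨f.rigid h.rigid, f.vanish h.vanish, f.onto h.onto⟩

/-- The base change of a bundle maps to every bundle under it. -/
theorem Hom.nonempty_descend {A'' : Type u} [CommRing A''] [Algebra k A''] {M'' : Glued C A''}
    {θ : A →ₐ[k] A''} (F : Hom θ M M'') (ψ : A' →ₐ[k] A'') (h : θ = ψ.comp φ) :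
    Nonempty (Hom ψ (M.baseChange φ) M'') := by
  subst h
  let : Algebra (C.R12 A) (C.R12 A') := (C.mapR φ).toRingHom.toAlgebra
  let T : (C.R12 A' ⊗[C.R12 A] M.carrier) →+ M''.carrier :=
    TensorProduct.liftAddHom
      { toFun := fun c =>
          { toFun := fun m => C.mapR ψ c • F.toFun m
            map_zero' := by rw [map_zero, smul_zero]
            map_add' := fun m m' => by rw [map_add, smul_add] }
        map_zero' := by ext m; simp
        map_add' := fun c c' => by ext m; simp [add_smul] }
      (fun r c m => by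
        show C.mapR ψ (C.mapR φ r * c) • F.toFun m = C.mapR ψ c • F.toFun (r • m)
        rw [F.map_smul, C.mapR_comp, smul_smul, map_mul, mul_comm])
  have hT : ∀ c m, T (c ⊗ₜ m) = C.mapR ψ c • F.toFun m := fun c m => rfl
  have hT1 : ∀ m, T (1 ⊗ₜ m) = F.toFun m := fun m => by rw [hT, map_one, one_smul]
  have hTr : ∀ (r : C.R12 A') (z : C.R12 A' ⊗[C.R12 A] M.carrier),
      T (r • z) = C.mapR ψ r • T z := by
    intro r z
    induction z using TensorProduct.induction_on with
    | zero => simp
    | add x y hx hy => rw [smul_add, map_add, map_add, smul_add, hx, hy]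
    | tmul c m => rw [TensorProduct.smul_tmul', hT, hT, smul_eq_mul, map_mul, mul_smul]
  have hspan : ∀ (B : Subalgebra k C.B12) (N : Submodule (C.sub A B) M.carrier)
      (N'' : Submodule (C.sub A'' B) M''.carrier),
      Submodule.span (C.sub A'' B) (F.toFun '' (N : Set M.carrier)) = N'' →
      Submodule.span (C.sub A'' B) (T '' (Submodule.span (C.sub A' B)
        ((fun m : M.carrier => (1 : C.R12 A') ⊗ₜ[C.R12 A] m) '' (N : Set M.carrier)) :
          Set (C.R12 A' ⊗[C.R12 A] M.carrier))) = N'' := by
    intro B N N'' hN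
    refine le_antisymm (Submodule.span_le.2 ?_) ?_
    · rintro _ ⟨z, hz, rfl⟩
      induction hz using Submodule.span_induction with
      | mem x hx =>
        obtain ⟨m, hm, rfl⟩ := hx
        show T (1 ⊗ₜ m) ∈ N''
        rw [hT1, ← hN]
        exact Submodule.subset_span ⟨m, hm, rfl⟩
      | zero => rw [map_zero]; exact zero_mem _
      | add x y _ _ hx hy => rw [map_add]; exact add_mem hx hy
      | smul c x _ hx =>
        rw [Subalgebra.smul_def, hTr]
        exact N''.smul_mem (⟨_, C.mapR_mem_sub ψ c.2⟩ : C.sub A'' B) hx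
    · rw [← hN]
      refine Submodule.span_mono ?_
      rintro _ ⟨m, hm, rfl⟩
      exact ⟨1 ⊗ₜ m, Submodule.subset_span ⟨m, hm, rfl⟩, hT1 m⟩
  exact ⟨{ toFun := T, map_smul := hTr, span1 := hspan C.B1 M.M1 M''.M1 F.span1
           span2 := hspan C.B2 M.M2 M''.M2 F.span2 }⟩

/-- The composite of base changes. -/
def Hom.comp {A'' : Type u} [CommRing A''] [Algebra k A''] {M'' : Glued C A''}
    {ψ : A' →ₐ[k] A''} (F : Hom φ M M') (G : Hom ψ M' M'') : Hom (ψ.comp φ) M M'' where
  toFun := G.toFun.comp F.toFun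
  map_smul r m := by
    show G.toFun (F.toFun (r • m)) = _
    rw [F.map_smul, G.map_smul, ← C.mapR_comp]
    rfl
  span1 := by
    refine le_antisymm (Submodule.span_le.2 ?_) ?_
    · rintro _ ⟨m, hm, rfl⟩
      exact G.mem1 (F.mem1 hm)
    · conv_lhs => rw [← G.span1]
      rw [Submodule.span_le]
      rintro _ ⟨m, hm, rfl⟩
      rw [SetLike.mem_coe, ← F.span1] at hm
      induction hm using Submodule.span_induction with
      | mem x hx =>
        obtain ⟨n, hn, rfl⟩ := hx
        exact Submodule.subset_span ⟨n, hn, rfl⟩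
      | zero => rw [map_zero]; exact zero_mem _
      | add x y _ _ hx hy => rw [map_add]; exact add_mem hx hy
      | smul c x _ hx => rw [G.map_smul_sub C.B1]; exact Submodule.smul_mem _ _ hx
  span2 := by
    refine le_antisymm (Submodule.span_le.2 ?_) ?_
    · rintro _ ⟨m, hm, rfl⟩
      exact G.mem2 (F.mem2 hm)
    · conv_lhs => rw [← G.span2]
      rw [Submodule.span_le]
      rintro _ ⟨m, hm, rfl⟩
      rw [SetLike.mem_coe, ← F.span2] at hm
      induction hm using Submodule.span_induction with
      | mem x hx =>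
        obtain ⟨n, hn, rfl⟩ := hx
        exact Submodule.subset_span ⟨n, hn, rfl⟩
      | zero => rw [map_zero]; exact zero_mem _
      | add x y _ _ hx hy => rw [map_add]; exact add_mem hx hy
      | smul c x _ hx => rw [G.map_smul_sub C.B2]; exact Submodule.smul_mem _ _ hx

variable (M b) in
/-- Combinations of the chosen functions and the ideal of the divisor. -/
def ontoDiff : ((Fin C.g → A) × M.divIdeal) →ₗ[A] C.R1 A :=
  LinearMap.coprod (Fintype.linearCombination A (C.bA A b))
    ((M.divIdeal : Submodule (C.R1 A) (C.R1 A)).subtype.restrictScalars A)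

theorem mem_range_ontoDiff {r : C.R1 A} : r ∈ LinearMap.range (M.ontoDiff b) ↔
    ∃ a : Fin C.g → A, r - ∑ i, a i • C.bA A b i ∈ M.divIdeal := by
  constructor
  · rintro ⟨⟨a, i⟩, rfl⟩
    refine ⟨a, ?_⟩
    have : M.ontoDiff b (a, i) = (∑ j, a j • C.bA A b j) + (i : C.R1 A) := by
      simp [ontoDiff, Fintype.linearCombination_apply]
    rw [this, add_sub_cancel_left]
    exact i.2
  · rintro ⟨a, ha⟩
    exact ⟨(a, ⟨_, ha⟩), by simp [ontoDiff, Fintype.linearCombination_apply]⟩

theorem finite_coker_ontoDiff (hR : M.Rigid) (hV : M.Vanish) :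
    Module.Finite A (C.R1 A ⧸ LinearMap.range (M.ontoDiff b)) := by
  obtain ⟨s, hs⟩ := exists_isSection hR hV
  have := hs.finite_quotient hV
  have hle : M.divIdeal.restrictScalars A ≤ LinearMap.range (M.ontoDiff b) := fun r hr =>
    mem_range_ontoDiff.2 ⟨0, by simpa using hr⟩
  exact Module.Finite.of_surjective
    (Submodule.factor hle ∘ₗ (Submodule.Quotient.restrictScalarsEquiv A M.divIdeal).symm.toLinearMap)
    ((Submodule.factor_surjective hle).comp (LinearEquiv.surjective _))

/-- **Generation is detected on the vanishing locus of the cokernel.** -/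
theorem Hom.onto_iff (f : Hom φ M M') (hR : M.Rigid) (hV : M.Vanish) :
    M'.Onto b ↔ ∀ q : PrimeSpectrum A', q.comap φ.toRingHom ∈ vanishH1 (M.ontoDiff b) := by
  let alg : Algebra A A' := φ.toRingHom.toAlgebra
  have := finite_coker_ontoDiff (b := b) hR hV
  have key := surjective_baseChange_iff (d := M.ontoDiff b) A'
  rw [show algebraMap A A' = φ.toRingHom from rfl] at key
  rw [← key]
  obtain ⟨s, hs⟩ := exists_isSection hR hV
  have hs' := f.isSection hs
  have hV' := f.vanish hV
  -- comparison of `A' ⊗ R₁` with the base changed ring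
  let e : A' ⊗[A] C.R1 A →+ C.R1 A' := TensorProduct.liftAddHom
    { toFun := fun a =>
        { toFun := fun r => a • CyclicPt.mapR1 φ r
          map_zero' := by
            rw [show CyclicPt.mapR1 φ (0 : C.R1 A) = 0 from Subtype.ext (map_zero (C.mapR φ)),
              smul_zero]
          map_add' := fun r r' => by
            rw [show CyclicPt.mapR1 φ (r + r') = CyclicPt.mapR1 φ r + CyclicPt.mapR1 φ r' from
              Subtype.ext (map_add (C.mapR φ) _ _), smul_add] }
      map_zero' := by ext r; simp
      map_add' := fun a a' => by ext r; simp [add_smul] }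
    (fun c a r => by
      show (c • a) • CyclicPt.mapR1 φ r = a • CyclicPt.mapR1 φ (c • r)
      have : CyclicPt.mapR1 φ (c • r) = φ c • CyclicPt.mapR1 φ r := Subtype.ext (by
        show C.mapR φ (c • (r : C.R12 A)) = φ c • C.mapR φ (r : C.R12 A)
        rw [Algebra.smul_def, map_mul, C.mapR_algebraMap, Algebra.smul_def])
      rw [this, smul_smul]
      refine congrArg (· • CyclicPt.mapR1 φ r) ?_
      show algebraMap A A' c * a = a * φ c
      rw [mul_comm]
      rfl)
  have he : ∀ a r, e (a ⊗ₜ r) = a • CyclicPt.mapR1 φ r := fun a r => rfl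
  have hesmul : ∀ (a : A') z, e (a • z) = a • e z := by
    intro a z
    induction z using TensorProduct.induction_on with
    | zero => simp
    | add x y hx hy => rw [smul_add, map_add, map_add, smul_add, hx, hy]
    | tmul c r => rw [TensorProduct.smul_tmul', he, he, smul_eq_mul, mul_smul]
  let σ₀ : A' ⊗[k] C.B1 →+ A' ⊗[A] C.R1 A := TensorProduct.liftAddHom
    { toFun := fun a =>
        { toFun := fun z => a ⊗ₜ C.subEquiv A C.B1 (1 ⊗ₜ z)
          map_zero' := by rw [tmul_zero, map_zero, tmul_zero]
          map_add' := fun z z' => by rw [tmul_add, map_add, tmul_add] }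
      map_zero' := by ext z; simp
      map_add' := fun a a' => by ext z; simp [add_tmul] }
    (fun c a z => by
      show (c • a) ⊗ₜ[A] C.subEquiv A C.B1 (1 ⊗ₜ z) = a ⊗ₜ[A] C.subEquiv A C.B1 (1 ⊗ₜ (c • z))
      rw [TensorProduct.tmul_smul, ← algebraMap_smul A c ((1 : A) ⊗ₜ[k] z), _root_.map_smul,
        TensorProduct.tmul_smul, TensorProduct.smul_tmul', Algebra.smul_def, Algebra.smul_def]
      congr 2
      exact (φ.commutes c).symm)
  have hinj : Function.Injective e := by
    refine Function.LeftInverse.injective (g := fun r => σ₀ ((C.subEquiv A' C.B1).symm r))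
      fun z => ?_
    induction z using TensorProduct.induction_on with
    | zero => simp
    | add x y hx hy => simp only [map_add] at hx hy ⊢; rw [hx, hy]
    | tmul a r =>
      induction r using CurveRings.sub_induction with
      | zero => simp
      | add p q hp hq => simp only [tmul_add, map_add] at hp hq ⊢; rw [hp, hq]
      | tmul c z =>
        have h1 : a • CyclicPt.mapR1 φ (C.subEquiv A C.B1 (c ⊗ₜ z)) =
            C.subEquiv A' C.B1 ((a * φ c) ⊗ₜ z) := Subtype.ext (by
          simp [CyclicPt.mapR1, TensorProduct.smul_tmul'])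
        simp only [he, h1, AlgEquiv.symm_apply_apply]
        show (a * φ c) ⊗ₜ[A] C.subEquiv A C.B1 (1 ⊗ₜ z) = a ⊗ₜ[A] C.subEquiv A C.B1 (c ⊗ₜ z)
        rw [show c ⊗ₜ[k] z = c • ((1 : A) ⊗ₜ[k] z) by
          rw [TensorProduct.smul_tmul', smul_eq_mul, mul_one], _root_.map_smul, ← TensorProduct.smul_tmul,
          Algebra.smul_def, mul_comm]
        rfl
  have hbd : ∀ a (w : (Fin C.g → A) × M.divIdeal), e ((M.ontoDiff b).baseChange A' (a ⊗ₜ w)) =
      (∑ i, (a * φ (w.1 i)) • C.bA A' b i) + a • CyclicPt.mapR1 φ (w.2 : C.R1 A) := by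
    intro a w
    rw [LinearMap.baseChange_tmul, he]
    have : M.ontoDiff b w = (∑ j, w.1 j • C.bA A b j) + (w.2 : C.R1 A) := by
      simp [ontoDiff, Fintype.linearCombination_apply]
    rw [this, show ∀ p q : C.R1 A, CyclicPt.mapR1 φ (p + q) =
        CyclicPt.mapR1 φ p + CyclicPt.mapR1 φ q from
      fun p q => Subtype.ext (map_add (C.mapR φ) _ _), smul_add, C.mapR1_combination,
      Finset.smul_sum]
    simp only [mul_smul]
  constructor
  · intro hO z
    -- the ideal of the base change is spanned by the images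
    obtain ⟨a, ha⟩ := hO (e z)
    obtain ⟨φ', hφ', hval⟩ := (hs'.mem_divIdeal_iff hV').1 ha
    obtain ⟨n, θ, v, hv, hθ, h1⟩ := M.isLattice1
    choose θ' hθ' using fun i => f.exists_extendFun (θ i)
    have hsum : ∑ i, θ' i (f.toFun (v i)) = 1 := by
      simp only [hθ']
      rw [← map_sum, h1, map_one]
    have hI : ∀ i, (⟨θ i s, hθ i s hs.mem1⟩ : C.R1 A) ∈ M.divIdeal := fun i =>
      (hs.mem_divIdeal_iff hV).2 ⟨θ i, hθ i, rfl⟩
    have hexp : e z - ∑ i, a i • C.bA A' b i =
        ∑ i, (⟨φ' (f.toFun (v i)), hφ' _ (f.mem1 (hv i))⟩ : C.R1 A') *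
          CyclicPt.mapR1 φ ⟨θ i s, hθ i s hs.mem1⟩ := by
      apply Subtype.ext
      refine hval.symm.trans ?_
      conv_lhs => rw [← sum_smul_eq θ' (fun i => f.toFun (v i)) hsum (f.toFun s), map_sum]
      rw [AddSubmonoidClass.coe_finsetSum]
      refine Finset.sum_congr rfl fun i _ => ?_
      rw [_root_.map_smul, hθ', smul_eq_mul, mul_comm]
      rfl
    have hmul : ∀ (c : C.R1 A') (i : C.R1 A), i ∈ M.divIdeal →
        ∃ w, e ((M.ontoDiff b).baseChange A' w) = c * CyclicPt.mapR1 φ i := by
      intro c i hi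
      induction c using CurveRings.sub_induction with
      | zero => exact ⟨0, by simp⟩
      | add p q hp hq =>
        obtain ⟨w, hw⟩ := hp
        obtain ⟨w', hw'⟩ := hq
        exact ⟨w + w', by rw [map_add, map_add, hw, hw', add_mul]⟩
      | tmul c z =>
        refine ⟨c ⊗ₜ (0, ⟨C.subEquiv A C.B1 (1 ⊗ₜ z) * i, Ideal.mul_mem_left _ _ hi⟩), ?_⟩
        rw [hbd]
        simp only [Pi.zero_apply, map_zero, mul_zero, zero_smul, Finset.sum_const_zero, zero_add]
        apply Subtype.ext
        simp [CyclicPt.mapR1, TensorProduct.smul_tmul', ← smul_mul_assoc]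
    choose w hw using fun i =>
      hmul (⟨φ' (f.toFun (v i)), hφ' _ (f.mem1 (hv i))⟩ : C.R1 A') _ (hI i)
    refine ⟨(∑ i, w i) + ∑ i, a i • ((1 : A') ⊗ₜ[A] (Pi.single i (1 : A), (0 : M.divIdeal))), ?_⟩
    apply hinj
    rw [map_add, map_add, map_sum, map_sum, map_sum, map_sum]
    simp only [hw, _root_.map_smul, hesmul, hbd]
    rw [← hexp]
    have hone : ∀ i : Fin C.g, (∑ j, ((1 : A') * φ ((Pi.single i (1 : A) : Fin C.g → A) j)) •
        C.bA A' b j) + (1 : A') • CyclicPt.mapR1 φ ((0 : M.divIdeal) : C.R1 A) = C.bA A' b i := by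
      intro i
      rw [show CyclicPt.mapR1 φ ((0 : M.divIdeal) : C.R1 A) = 0 from Subtype.ext (map_zero (C.mapR φ))]
      simp [Pi.single_apply, apply_ite φ]
    simp only [hone]
    abel
  · intro hsurj r
    obtain ⟨z, rfl⟩ : ∃ z, e z = r := by
      induction r using CurveRings.sub_induction with
      | zero => exact ⟨0, map_zero e⟩
      | add p q hp hq =>
        obtain ⟨x, hx⟩ := hp
        obtain ⟨y, hy⟩ := hq
        exact ⟨x + y, by rw [map_add, hx, hy]⟩
      | tmul a z =>
        exact ⟨a ⊗ₜ C.subEquiv A C.B1 (1 ⊗ₜ z), Subtype.ext (by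
          simp [he, CyclicPt.mapR1, TensorProduct.smul_tmul'])⟩
    obtain ⟨w, rfl⟩ := hsurj z
    induction w using TensorProduct.induction_on with
    | zero => exact ⟨0, by simp⟩
    | add x y hx hy =>
      obtain ⟨v, hv⟩ := hx
      obtain ⟨v', hv'⟩ := hy
      refine ⟨v + v', ?_⟩
      simp only [Pi.add_apply, add_smul, Finset.sum_add_distrib, map_add]
      rw [add_sub_add_comm]
      exact add_mem hv hv'
    | tmul a w =>
      refine ⟨fun i => a * φ (w.1 i), ?_⟩
      rw [hbd, show ∑ i, (a * φ (w.1 i)) • C.subEquiv A' C.B1 (1 ⊗ₜ b i) =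
        ∑ i, (a * φ (w.1 i)) • C.bA A' b i from rfl, add_sub_cancel_left]
      exact Submodule.smul_of_tower_mem _ _ (f.mapR1_mem_divIdeal w.2.2)

variable (M b) in
/-- The locus where a bundle lies in a chart. -/
def chartLocus : Set (PrimeSpectrum A) :=
  ⋃ f ∈ {f : A | (M.baseChange (toAwayHom (k := k) A f)).ChartCond b},
    (PrimeSpectrum.basicOpen f : Set (PrimeSpectrum A))

theorem isOpen_chartLocus : IsOpen (M.chartLocus b) :=
  isOpen_biUnion fun f _ => (PrimeSpectrum.basicOpen f).isOpen

/-- A base change on which the element is a unit factors through the localisation. -/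
theorem Hom.nonempty_away (F : Hom φ M M') {f : A} (hf : IsUnit (φ f)) :
    ∃ ψ : Localization.Away f →ₐ[k] A', ψ.comp (toAwayHom (k := k) A f) = φ ∧
      Nonempty (Hom ψ (M.baseChange (toAwayHom (k := k) A f)) M') := by
  let ψ : Localization.Away f →ₐ[k] A' :=
    { IsLocalization.Away.lift (S := Localization.Away f) f (g := φ.toRingHom) hf with
      commutes' := fun a => by
        show IsLocalization.Away.lift f hf (algebraMap k (Localization.Away f) a) = _
        rw [IsScalarTower.algebraMap_apply k A (Localization.Away f), IsLocalization.Away.lift_eq]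
        exact φ.commutes a }
  have h : ψ.comp (toAwayHom (k := k) A f) = φ :=
    AlgHom.ext fun a => IsLocalization.Away.lift_eq f hf a
  exact ⟨ψ, h, F.nonempty_descend ψ h.symm⟩

theorem mem_basicOpen_of_point {f : A} (q : PrimeSpectrum (Localization.Away f)) :
    q.comap (toAwayHom (k := k) A f).toRingHom ∈ PrimeSpectrum.basicOpen f := by
  rw [PrimeSpectrum.mem_basicOpen]
  exact fun hf => q.isPrime.ne_top
    (Ideal.eq_top_of_isUnit_mem _ hf (IsLocalization.Away.algebraMap_isUnit f))

theorem chartLocus_subset_vanishBoth : M.chartLocus b ⊆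
    vanishBoth (A := A) (P := M.M1 × M.M2O) (N := M.carrier) M.cechO := by
  intro p hp
  obtain ⟨f, hf, hpf⟩ := Set.mem_iUnion₂.1 hp
  obtain ⟨q, hq⟩ : p ∈ Set.range (PrimeSpectrum.comap (algebraMap A (Localization.Away f))) := by
    rw [PrimeSpectrum.localization_away_comap_range (Localization.Away f) f]; exact hpf
  have := (M.toBaseChange (toAwayHom (k := k) A f)).vanish_iff.1 hf.vanish q
  rwa [← hq]

/-- **The locus of a chart.** -/
theorem Hom.chartCond_iff (F : Hom φ M M') (hR : M.Rigid) :
    M'.ChartCond b ↔ Set.range (PrimeSpectrum.comap φ.toRingHom) ⊆ M.chartLocus b := by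
  constructor
  · rintro h _ ⟨q, rfl⟩
    have hV := F.vanish_iff.1 h.vanish q
    obtain ⟨_, ⟨g, rfl⟩, hpg, hsub⟩ :=
      PrimeSpectrum.isTopologicalBasis_basic_opens.exists_subset_of_mem_open hV
        M.isOpen_vanishBoth
    -- the bundle over the basic open
    set Mg := M.baseChange (toAwayHom (k := k) A g)
    have hMgV : Mg.Vanish := (M.toBaseChange _).vanish_iff.2 fun q' =>
      hsub (mem_basicOpen_of_point q')
    have hMgR : Mg.Rigid := (M.toBaseChange _).rigid hR
    -- shrink the target
    set A'' := Localization.Away (φ g)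
    set φ'' : A →ₐ[k] A'' := (toAwayHom (k := k) A' (φ g)).comp φ with hφ''
    set M'' := M'.baseChange (toAwayHom (k := k) A' (φ g))
    have hM'' : M''.ChartCond b := (M'.toBaseChange _).chartCond h
    let F'' : Hom φ'' M M'' := F.comp (M'.toBaseChange _)
    obtain ⟨ψ, hψ, ⟨G⟩⟩ := F''.nonempty_away (f := g)
      (IsLocalization.Away.algebraMap_isUnit (S := A'') (φ g))
    -- a point of the shrunk target over `q`
    obtain ⟨q'', hq''⟩ : q ∈ Set.range (PrimeSpectrum.comap (algebraMap A' A'')) := by
      rw [PrimeSpectrum.localization_away_comap_range A'' (φ g)]; exact hpg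
    have hmem := (G.onto_iff hMgR hMgV).1 hM''.onto q''
    have hfin := finite_coker_ontoDiff (b := b) hMgR hMgV
    obtain ⟨_, ⟨c, rfl⟩, hpc, hsubc⟩ :=
      PrimeSpectrum.isTopologicalBasis_basic_opens.exists_subset_of_mem_open hmem
        (isOpen_vanishH1 (d := Mg.ontoDiff b))
    obtain ⟨⟨a, ⟨_, n, rfl⟩⟩, hc⟩ := IsLocalization.surj (Submonoid.powers g) c
    have hq : PrimeSpectrum.comap (toAwayHom (k := k) A g).toRingHom
        (PrimeSpectrum.comap ψ.toRingHom q'') = PrimeSpectrum.comap φ.toRingHom q := by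
      rw [← hq'']
      show PrimeSpectrum.comap (ψ.comp (toAwayHom (k := k) A g)).toRingHom q'' = _
      rw [hψ]; rfl
    refine Set.mem_iUnion₂.2 ⟨g * a, ?_, ?_⟩
    · -- the chart condition over the smaller open
      set χ := toAwayHom (k := k) A (g * a)
      have hu : IsUnit (χ g) := isUnit_of_mul_isUnit_left (y := χ a) (by
        rw [← map_mul]; exact IsLocalization.Away.algebraMap_isUnit (g * a))
      obtain ⟨ω, hω, ⟨H⟩⟩ := (M.toBaseChange χ).nonempty_away (f := g) hu
      refine ⟨H.rigid hMgR, H.vanish hMgV, (H.onto_iff hMgR hMgV).2 fun q' => hsubc ?_⟩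
      show c ∉ (q'.comap ω.toRingHom).asIdeal
      intro hcq
      have hga := mem_basicOpen_of_point (k := k) q'
      apply hga
      have h2 : algebraMap A (Localization.Away g) a ∈ (q'.comap ω.toRingHom).asIdeal := by
        rw [← hc]; exact Ideal.mul_mem_right _ _ hcq
      have h3 : χ a ∈ q'.asIdeal := by
        have h4 : ω (toAwayHom (k := k) A g a) = χ a := AlgHom.congr_fun hω a
        rw [← h4]; exact h2
      exact Ideal.mul_mem_left _ g h3
    · show g * a ∉ (q.comap φ.toRingHom).asIdeal
      refine fun hga => ((q.comap φ.toRingHom).isPrime.mem_or_mem hga).elim hpg fun ha => ?_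
      rw [← hq] at ha
      have ha' : algebraMap A (Localization.Away g) a ∈ (q''.comap ψ.toRingHom).asIdeal := ha
      rw [← hc] at ha'
      refine ((q''.comap ψ.toRingHom).isPrime.mem_or_mem ha').elim hpc fun hgn => ?_
      exact (q''.comap ψ.toRingHom).isPrime.ne_top (Ideal.eq_top_of_isUnit_mem _ hgn
        (IsLocalization.map_units (Localization.Away g)
          (⟨g ^ n, n, rfl⟩ : Submonoid.powers g)))
  · intro hsub
    have hV' : M'.Vanish := F.vanish_iff.2 fun q => chartLocus_subset_vanishBoth (hsub ⟨q, rfl⟩)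
    have hR' : M'.Rigid := F.rigid hR
    refine ⟨hR', hV', ((Iso.refl M').toHom.onto_iff hR' hV').2 fun q => ?_⟩
    obtain ⟨f, hf, hqf⟩ := Set.mem_iUnion₂.1 (hsub ⟨q, rfl⟩)
    set χ := toAwayHom (k := k) A' (φ f)
    obtain ⟨F''⟩ : Nonempty (Hom (χ.comp φ) M (M'.baseChange χ)) :=
      ⟨F.comp (M'.toBaseChange χ)⟩
    obtain ⟨ψ, -, ⟨G⟩⟩ := F''.nonempty_away (f := f)
      (IsLocalization.Away.algebraMap_isUnit (S := Localization.Away (φ f)) (φ f))
    obtain ⟨q'', hq''⟩ : q ∈ Set.range
        (PrimeSpectrum.comap (algebraMap A' (Localization.Away (φ f)))) := by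
      rw [PrimeSpectrum.localization_away_comap_range (Localization.Away (φ f)) (φ f)]; exact hqf
    have h := ((M'.toBaseChange χ).onto_iff hR' hV').1 (G.chartCond hf).onto q''
    rw [← hq'']
    exact h

end Glued

end Fermat.Agent.Row24.Chart

end
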