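import Fermat.Agent.Row24.Chart.Bundle
import Fermat.Agent.Row24.Chart.IdealCurve
import Fermat.Agent.Row24.Euler.Glued

/-!
# The bundle over the chart ring

Where the bundle of the universal point has no cohomology it lies in the chart and its point is
the universal one; every point of a bundle in the chart lands there.
-/

set_option autoImplicit false
set_option maxSynthPendingDepth 3

universe u

noncomputable section

namespace Fermat.Agent.Row24.Chart

open TensorProduct

variable {k : Type u} [Field k] {C : CurveRings k}

namespace CyclicPt

variable {b : Fin C.g → C.B1} {A : Type u} [CommRing A] [Algebra k A] (P : CyclicPt k b A)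
  [Module.Invertible (C.R1 A) P.ideal]

theorem bundle_onto (hV : P.bundle.Vanish) : P.bundle.Onto b := fun r =>
  ⟨P.ev r, by rw [P.bundle_divIdeal hV]; exact P.sub_combination_mem r⟩

theorem bundle_chartCond (hV : P.bundle.Vanish) : P.bundle.ChartCond b :=
  ⟨P.bundle_rigid, hV, P.bundle_onto hV⟩

theorem bundle_point (h : P.bundle.ChartCond b) : h.point = P :=
  eq_of_ideal_eq (h.point_ideal.trans (P.bundle_divIdeal h.vanish))

/-- The points where the bundle of a point has no cohomology. -/
def vanishLocus : Set (PrimeSpectrum A) :=
  vanishBoth (A := A) (P := P.bundle.M1 × P.bundle.M2O) (N := P.bundle.carrier) P.bundle.cechO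

theorem isOpen_vanishLocus : IsOpen P.vanishLocus := P.bundle.isOpen_vanishBoth

variable {A' : Type u} [CommRing A'] [Algebra k A'] (φ : A →ₐ[k] A')

/-- A bundle in the chart whose point is the image of a point is the base change of its bundle. -/
theorem nonempty_bundleHom_of_point_eq {M : Glued C A'} (h : M.ChartCond b)
    (e : P.map φ = h.point) : Nonempty (Glued.Hom φ P.bundle M) := by
  obtain ⟨s, hs⟩ := Glued.exists_isSection h.rigid h.vanish
  refine P.nonempty_bundleHom φ hs fun r => ?_
  rw [e, h.point_ideal, hs.mem_divIdeal_iff h.vanish]

theorem range_subset_vanishLocus {M : Glued C A'} (h : M.ChartCond b)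
    (e : P.map φ = h.point) :
    Set.range (PrimeSpectrum.comap φ.toRingHom) ⊆ P.vanishLocus := by
  obtain ⟨f⟩ := P.nonempty_bundleHom_of_point_eq φ h e
  rintro _ ⟨q, rfl⟩
  exact f.vanish_iff.1 h.vanish q

theorem map_bundle_vanish [Module.Invertible (C.R1 A') (P.map φ).ideal]
    (h : Set.range (PrimeSpectrum.comap φ.toRingHom) ⊆ P.vanishLocus) :
    (P.map φ).bundle.Vanish := by
  obtain ⟨f⟩ := P.nonempty_bundleHom φ (P.map φ).isSection_bundleSec
    fun r => (P.map φ).mem_ideal_iff_exists
  exact f.vanish_iff.2 fun q => h ⟨q, rfl⟩

end CyclicPt

section AlgClosed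

variable [IsAlgClosed k] (b : Fin C.g → C.B1)

theorem invertible_universalPt_ideal :
    Module.Invertible (C.R1 (ChartRing k b)) (universalPt k b).ideal :=
  have := C.finiteType_B1
  (universalPt k b).invertible_idealPt

/-- The open subset of the chart ring filled by the chart. -/
def chartLocus : Set (PrimeSpectrum (ChartRing k b)) :=
  have := invertible_universalPt_ideal b
  (universalPt k b).vanishLocus

theorem isOpen_chartLocus : IsOpen (chartLocus b) :=
  have := invertible_universalPt_ideal b
  (universalPt k b).isOpen_vanishLocus

/-- The point of a bundle in the chart lands in the open subset of the chart ring. -/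
theorem range_classifyPt_subset_chartLocus {A : Type u} [CommRing A] [Algebra k A]
    {M : Glued C A} (h : M.ChartCond b) :
    Set.range (PrimeSpectrum.comap (classifyPt h.point).toRingHom) ⊆ chartLocus b :=
  have := invertible_universalPt_ideal b
  (universalPt k b).range_subset_vanishLocus _ h (map_classifyPt _)

/-- **The universal bundles over the open subset of the chart ring.** -/
theorem exists_chartLocus_bundle (f : ChartRing k b)
    (hf : (PrimeSpectrum.basicOpen f : Set _) ⊆ chartLocus b) :
    ∃ (M : Glued C (Localization.Away f)) (h : M.ChartCond b),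
      classifyPt h.point = IsScalarTower.toAlgHom k (ChartRing k b) (Localization.Away f) := by
  have := invertible_universalPt_ideal b
  have := C.finiteType_B1
  have : Algebra.FiniteType (ChartRing k b) (Localization.Away f) :=
    IsLocalization.finiteType_of_monoid_fg (Submonoid.powers f) _
  have : Algebra.FiniteType k (Localization.Away f) :=
    Algebra.FiniteType.trans (S := ChartRing k b) inferInstance inferInstance
  set φ := IsScalarTower.toAlgHom k (ChartRing k b) (Localization.Away f)
  have := CyclicPt.invertible_idealPt ((universalPt k b).map φ)
  have hV : ((universalPt k b).map φ).bundle.Vanish :=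
    (universalPt k b).map_bundle_vanish φ fun q hq => hf
      ((PrimeSpectrum.localization_away_comap_range (Localization.Away f) f).le hq)
  refine ⟨_, ((universalPt k b).map φ).bundle_chartCond hV, ?_⟩
  rw [CyclicPt.bundle_point]
  exact classifyPt_map φ

end AlgClosed

end Fermat.Agent.Row24.Chart

end
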