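import Fermat.Agent.Row24.Atlas.Chart
import Fermat.Agent.Row24.Chart.Locus
import Fermat.Agent.Row24.Chart.Universal
import Fermat.Agent.Row24.Chart.IdealCurve
import Mathlib.RingTheory.FinitePresentation

/-!
# The theory of the charts

Over an algebraically closed field every choice of `g` functions on the first chart gives a chart.
-/

set_option autoImplicit false
set_option maxSynthPendingDepth 3

universe u

noncomputable section

namespace Fermat.Agent.Row24.Chart

variable {k : Type u} [Field k] [IsAlgClosed k] {C : CurveRings k} (b : Fin C.g → C.B1)

/-- **The theory of a chart.** -/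
def chartTheory : Fermat.Agent.Row24.ChartTheory C b where
  cond_hom f h := f.chartCond h
  point _ h := h.point
  point_hom f h h' := f.point_map h h'
  iso_of_point_eq h h' e := h.nonempty_iso_of_point_eq h' e
  exists_locus M hR := ⟨M.chartLocus b, Glued.isOpen_chartLocus, fun {_ _ _ _ _} f => f.chartCond_iff hR⟩
  W := chartLocus b
  isOpen_W := isOpen_chartLocus b
  mem_W _ h := range_classifyPt_subset_chartLocus b h
  exists_universal := exists_chartLocus_bundle b

end Fermat.Agent.Row24.Chart

end
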