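import Fermat.Agent.Row24.Chart.PointBundle
import Fermat.Agent.Row24.Euler.Decompose

/-!
# The ideal bundles of rational points form a point family

Over the ground field the ideal bundle of a point is the bundle of the functions vanishing at it,
so bundles of Euler characteristic `1 - g` are iterated differences of point bundles.
-/

set_option autoImplicit false

universe u

noncomputable section

namespace Fermat.Agent.Row24.Chart

open TensorProduct

variable {k : Type u} [Field k] [IsAlgClosed k] {C : CurveRings k}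

namespace CurveRings

variable (C)

/-- A point of a chart over `k`, read on the chart ring of the base change. -/
def restrictPt {B : Subalgebra k C.B12} (φ : C.sub k B →ₐ[k] k) : B →ₐ[k] k :=
  φ.comp ((C.subEquiv k B).toAlgHom.comp Algebra.TensorProduct.includeRight)

omit [IsAlgClosed k] in
theorem evSub_restrictPt {B : Subalgebra k C.B12} (φ : C.sub k B →ₐ[k] k) :
    C.evSub (C.restrictPt φ) = φ := by
  refine AlgHom.ext fun r => ?_
  induction r using sub_induction with
  | tmul a z =>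
    rw [evSub_subEquiv, pev_tmul, ← smul_eq_mul, restrictPt, AlgHom.comp_apply, ← map_smul]
    refine congrArg φ ?_
    show a • C.subEquiv k B (1 ⊗ₜ z) = _
    rw [← map_smul, TensorProduct.smul_tmul', smul_eq_mul, mul_one]
  | zero => simp
  | add r s hr hs => rw [map_add, map_add, hr, hs]

omit [IsAlgClosed k] in
theorem evSub_aug : C.evSub ((Algebra.ofId k k).comp C.aug) = C.augA k := by
  refine AlgHom.ext fun r => ?_
  induction r using sub_induction with
  | tmul a z =>
    rw [evSub_subEquiv, pev_tmul, augA_subEquiv_tmul, smul_eq_mul, mul_comm]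
    rfl
  | zero => simp
  | add r s hr hs => rw [map_add, map_add, hr, hs]

end CurveRings

namespace Glued

omit [IsAlgClosed k] in
theorem range_subtype_eq_smul_top (J : Ideal (C.R12 k)) :
    LinearMap.range (Submodule.subtype J) = J • (⊤ : Submodule (C.R12 k) (C.R12 k)) := by
  rw [Submodule.range_subtype, smul_eq_mul, Ideal.mul_top]

/-- The ideal bundle of a point of the first chart consists of the functions in its ideals. -/
theorem nonempty_isDown_pt1 (φ : C.B1 →ₐ[k] k) {I1 : Ideal (C.R1 k)} {I2 : Ideal (C.R2 k)}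
    {I12 : Ideal (C.R12 k)} (h1 : C.graphIdeal φ = I1)
    (h12 : (C.pair1 k).ext (C.graphIdeal φ) = I12)
    (h2 : ∀ r : C.R2 k, (r : C.R12 k) ∈ I12 ↔ r ∈ I2) :
    Nonempty (IsDown (C.pt1 φ) (trivial C k) I1 I2 I12) := by
  subst h1
  refine ⟨⟨Submodule.subtype ((C.pair1 k).ext (C.graphIdeal φ)), Subtype.val_injective,
    (range_subtype_eq_smul_top _).trans (by rw [h12]), ?_, ?_⟩⟩
  · ext r
    rw [Submodule.mem_map, mem_smul_span_one]
    constructor
    · rintro ⟨m, ⟨hm, hI⟩, rfl⟩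
      exact ⟨⟨_, hm⟩, hI, rfl⟩
    · rintro ⟨y, hy, rfl⟩
      exact ⟨⟨_, (C.pair1 k).mem_ext_of_mem _ hy⟩, ⟨y.2, hy⟩, rfl⟩
  · ext r
    rw [Submodule.mem_map, mem_smul_span_one]
    constructor
    · rintro ⟨m, hm, rfl⟩
      exact ⟨⟨_, hm⟩, (h2 _).1 (h12 ▸ m.2), rfl⟩
    · rintro ⟨y, hy, rfl⟩
      exact ⟨⟨_, h12.symm ▸ (h2 y).2 hy⟩, y.2, rfl⟩

/-- The ideal bundle of the base point. -/
theorem nonempty_isDown_ptO :
    Nonempty (IsDown (C.ptO k) (trivial C k) ⊤ (RingHom.ker (C.augA k)) ⊤) := by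
  have hI : C.graphIdeal ((Algebra.ofId k k).comp C.aug) = RingHom.ker (C.augA k) := by
    rw [CurveRings.graphIdeal, C.evSub_aug]
  have hy : (⟨C.yA k, C.yA_mem⟩ : C.R2 k) ∈ C.graphIdeal ((Algebra.ofId k k).comp C.aug) := by
    rw [RingHom.mem_ker, show (⟨C.yA k, C.yA_mem⟩ : C.R2 k) =
      ⟨1 ⊗ₜ C.y, C.tmul_mem_sub 1 C.y_mem⟩ from Subtype.ext rfl, C.evSub_tmul_coe _ C.y_mem,
      AlgHom.comp_apply, C.aug_y, map_zero, mul_zero]
  have htop : (C.pair2 k).ext (C.graphIdeal ((Algebra.ofId k k).comp C.aug)) = ⊤ :=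
    Ideal.eq_top_of_isUnit_mem _ ((C.pair2 k).mem_ext_of_mem _ hy) C.isUnit_yA
  refine ⟨⟨Submodule.subtype ((C.pair2 k).ext (C.graphIdeal ((Algebra.ofId k k).comp C.aug))),
    Subtype.val_injective, (range_subtype_eq_smul_top _).trans (by rw [htop]), ?_, ?_⟩⟩
  · ext r
    rw [Submodule.mem_map, mem_smul_span_one]
    constructor
    · rintro ⟨m, hm, rfl⟩
      exact ⟨⟨_, hm⟩, Submodule.mem_top, rfl⟩
    · rintro ⟨y, -, rfl⟩
      exact ⟨⟨_, htop.symm ▸ Submodule.mem_top⟩, y.2, rfl⟩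
  · ext r
    rw [Submodule.mem_map, mem_smul_span_one]
    constructor
    · rintro ⟨m, ⟨hm, hI'⟩, rfl⟩
      exact ⟨⟨_, hm⟩, hI ▸ hI', rfl⟩
    · rintro ⟨y, hy', rfl⟩
      have hy'' : y ∈ C.graphIdeal ((Algebra.ofId k k).comp C.aug) := hI.symm ▸ hy'
      exact ⟨⟨_, (C.pair2 k).mem_ext_of_mem _ hy''⟩, ⟨y.2, hy''⟩, rfl⟩

variable {ι : Type*} {G : ι → Glued C k}

/-- **Point bundles form a point family.** -/
theorem pointFamily_of_pt1
    (hsurj : ∀ φ : C.B1 →ₐ[k] k, ∃ p, Nonempty (Iso (G p) ((C.pt1 φ).diff (C.ptO k)))) :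
    PointFamily G (C.ptO k) where
  infty := nonempty_isDown_ptO
  both π := by
    set φ := C.restrictPt (π.comp (C.R1 k).val) with hφ
    obtain ⟨p, ⟨e⟩⟩ := hsurj φ
    have h1 : C.graphIdeal φ = RingHom.ker (π.comp (C.R1 k).val) := by
      rw [CurveRings.graphIdeal, hφ, C.evSub_restrictPt]
    refine ⟨p, C.pt1 φ, nonempty_isDown_pt1 φ h1 ?_ fun r => Iff.rfl,
      ⟨(e.tensor (Iso.refl _)).trans (diffTensor _ _)⟩⟩
    exact ChartPair.ext_eq_ker (P := C.pair1 k) (I := C.graphIdeal φ) π fun t => by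
      rw [h1]; exact Iff.rfl
  first φ' hx := by
    set φ := C.restrictPt φ' with hφ
    obtain ⟨p, ⟨e⟩⟩ := hsurj φ
    have h1 : C.graphIdeal φ = RingHom.ker φ' := by
      rw [CurveRings.graphIdeal, hφ, C.evSub_restrictPt]
    refine ⟨p, C.pt1 φ, nonempty_isDown_pt1 φ h1 (Ideal.eq_top_of_isUnit_mem _
      ((C.pair1 k).mem_ext_of_mem _ (h1.symm ▸ (RingHom.mem_ker.2 hx) :
        C.x1 ∈ C.graphIdeal φ)) C.isUnit_xA) fun r => iff_of_true Submodule.mem_top Submodule.mem_top,
      ⟨(e.tensor (Iso.refl _)).trans (diffTensor _ _)⟩⟩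

/-- **Bundles of Euler characteristic `1 - g` are iterated differences of point bundles.** -/
theorem exists_foldl_of_pt1
    (hsurj : ∀ φ : C.B1 →ₐ[k] k, ∃ p, Nonempty (Iso (G p) ((C.pt1 φ).diff (C.ptO k))))
    (L : Glued C k) (hL : L.chi = 1 - C.g) :
    ∃ l : List ι, Nonempty (Iso L (l.foldl (fun b p => b.diff (G p)) (trivial C k))) :=
  (pointFamily_of_pt1 hsurj).exists_foldl L (hL.trans chi_trivial.symm)

end Glued

end Fermat.Agent.Row24.Chart

end
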