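import Mathlib

/-!
# The scheme of cyclic representations with a prescribed basis

For a `k`-algebra `B` and elements `b i`, the pairs of a vector `q` of `A ^ g` and an action of `B`
on `A ^ g` with `b i • q = e i` are the `A`-points of an explicit algebra `ChartRing`, which is of
finite type when `B` is.
-/

set_option autoImplicit false

universe u v

noncomputable section

namespace Fermat.Agent.Row24.Chart

open Matrix TensorProduct

variable {k : Type u} [Field k] {B : Type u} [CommRing B] [Algebra k B] {g : ℕ}

/-- A vector and an action of `B` on `A ^ g` sending the chosen elements to the standard basis. -/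
@[ext]
structure CyclicPt (k : Type u) [Field k] {B : Type u} [CommRing B] [Algebra k B] {g : ℕ}
    (b : Fin g → B) (A : Type v) [CommRing A] [Algebra k A] where
  /-- the action -/
  rho : B →ₐ[k] Matrix (Fin g) (Fin g) A
  /-- the vector -/
  q : Fin g → A
  basis : ∀ i, rho (b i) *ᵥ q = Pi.single i 1

variable {b : Fin g → B}

/-- Push forward along a map of algebras. -/
def CyclicPt.map {A A' : Type*} [CommRing A] [Algebra k A] [CommRing A'] [Algebra k A']
    (f : A →ₐ[k] A') (P : CyclicPt k b A) : CyclicPt k b A' where
  rho := f.mapMatrix.comp P.rho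
  q := f ∘ P.q
  basis i := funext fun l => by
    have h := congrArg f (congrFun (P.basis i) l)
    refine ((RingHom.map_mulVec (f : A →+* A') (P.rho (b i)) P.q l).symm.trans h).trans ?_
    rw [Pi.single_apply, Pi.single_apply]
    split_ifs <;> simp

/-- The variables: the entries of the action and of the vector. -/
abbrev Var (B : Type u) (g : ℕ) : Type u := (B × Fin g × Fin g) ⊕ Fin g

variable (k g) in
/-- The generic matrix of an element. -/
def genMat (c : B) : Matrix (Fin g) (Fin g) (MvPolynomial (Var B g) k) :=
  Matrix.of fun i j => MvPolynomial.X (.inl (c, i, j))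

/-- The generic vector. -/
def genVec : Fin g → MvPolynomial (Var B g) k := fun i => MvPolynomial.X (.inr i)

variable (b) in
/-- The equations. -/
def relSet : Set (MvPolynomial (Var B g) k) :=
  {r | (∃ (c d : B) (i j : Fin g), r = genMat k g (c + d) i j - (genMat k g c i j + genMat k g d i j)) ∨
    (∃ (c d : B) (i j : Fin g),
      r = genMat k g (c * d) i j - (genMat k g c * genMat k g d : Matrix _ _ _) i j) ∨
    (∃ (a : k) (i j : Fin g), r = genMat k g (algebraMap k B a) i j -
      if i = j then MvPolynomial.C a else 0) ∨
    ∃ l i, r = (genMat k g (b l) *ᵥ genVec) i - if i = l then 1 else 0}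

variable (k b) in
/-- The coordinate ring. -/
def ChartRing : Type u := MvPolynomial (Var B g) k ⧸ Ideal.span (relSet (k := k) b)

instance : CommRing (ChartRing k b) := Ideal.Quotient.commRing _

instance : Algebra k (ChartRing k b) := Ideal.Quotient.algebra k

variable (b) in
/-- The projection from the polynomial ring. -/
def chartMk : MvPolynomial (Var B g) k →ₐ[k] ChartRing k b := Ideal.Quotient.mkₐ k _

theorem chartMk_rel {r : MvPolynomial (Var B g) k} (h : r ∈ relSet b) : chartMk b r = 0 :=
  Ideal.Quotient.eq_zero_iff_mem.mpr (Ideal.subset_span h)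

variable (k b) in
/-- The universal point. -/
def universalPt : CyclicPt k b (ChartRing k b) where
  q := chartMk b ∘ genVec
  rho := AlgHom.ofLinearMap
    { toFun := fun c => (genMat k g c).map (chartMk b)
      map_add' := fun c d => Matrix.ext fun i j => by
        have h := chartMk_rel (b := b) (Or.inl ⟨c, d, i, j, rfl⟩ :
          genMat k g (c + d) i j - (genMat k g c i j + genMat k g d i j) ∈ relSet b)
        rw [map_sub, map_add, sub_eq_zero] at h
        exact h
      map_smul' := fun a c => Matrix.ext fun i j => by
        have h := chartMk_rel (b := b) (Or.inr (Or.inl ⟨algebraMap k B a, c, i, j, rfl⟩) :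
          genMat k g (algebraMap k B a * c) i j -
            (genMat k g (algebraMap k B a) * genMat k g c) i j ∈ relSet b)
        have h' : ∀ l, chartMk (k := k) b (genMat k g (algebraMap k B a) i l) =
            if i = l then algebraMap k _ a else 0 := fun l => by
          have h2 := chartMk_rel (b := b) (Or.inr (Or.inr (Or.inl ⟨a, i, l, rfl⟩)) :
            genMat k g (algebraMap k B a) i l - (if i = l then MvPolynomial.C a else 0) ∈
              relSet b)
          rw [map_sub, sub_eq_zero] at h2
          rw [h2, apply_ite (chartMk b), map_zero]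
          split_ifs with hil
          · exact (chartMk b).commutes a
          · rfl
        rw [map_sub, sub_eq_zero, Matrix.mul_apply, map_sum] at h
        simp only [map_mul, h', ite_mul, zero_mul, Finset.sum_ite_eq, Finset.mem_univ,
          if_true] at h
        simpa [Algebra.smul_def] using h }
    (Matrix.ext fun i j => by
      have h := chartMk_rel (b := b) (Or.inr (Or.inr (Or.inl ⟨1, i, j, rfl⟩)) :
        genMat k g (algebraMap k B 1) i j - (if i = j then MvPolynomial.C 1 else 0) ∈
          relSet b)
      rw [map_sub, sub_eq_zero, map_one, apply_ite (chartMk b), map_zero, map_one, map_one] at h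
      simpa [Matrix.one_apply] using h)
    (fun c d => Matrix.ext fun i j => by
      have h := chartMk_rel (b := b) (Or.inr (Or.inl ⟨c, d, i, j, rfl⟩) :
        genMat k g (c * d) i j - (genMat k g c * genMat k g d) i j ∈ relSet b)
      rw [map_sub, sub_eq_zero, Matrix.mul_apply, map_sum] at h
      simpa [Matrix.mul_apply] using h)
  basis l := funext fun i => by
    have h := chartMk_rel (b := b) (Or.inr (Or.inr (Or.inr ⟨l, i, rfl⟩)) :
      (genMat k g (b l) *ᵥ genVec) i - (if i = l then 1 else 0) ∈ relSet b)
    rw [map_sub, sub_eq_zero, apply_ite (chartMk b), map_zero, map_one] at h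
    rw [Pi.single_apply, ← h]
    exact (RingHom.map_mulVec (chartMk b).toRingHom (genMat k g (b l)) genVec i).symm

section Lift

variable {A : Type v} [CommRing A] [Algebra k A]

/-- The evaluation of the variables at a point. -/
def evalPt (P : CyclicPt k b A) : MvPolynomial (Var B g) k →ₐ[k] A :=
  MvPolynomial.aeval (Sum.elim (fun t => P.rho t.1 t.2.1 t.2.2) P.q)

theorem map_genMat (P : CyclicPt k b A) (c : B) : (genMat k g c).map (evalPt P) = P.rho c :=
  Matrix.ext fun i j => by simp [genMat, evalPt]

theorem evalPt_rel (P : CyclicPt k b A) {r : MvPolynomial (Var B g) k} (h : r ∈ relSet b) :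
    evalPt P r = 0 := by
  have hm : ∀ c i j, evalPt P (genMat k g c i j) = P.rho c i j := fun c i j =>
    congrFun (congrFun (map_genMat P c) i) j
  rcases h with ⟨c, d, i, j, rfl⟩ | ⟨c, d, i, j, rfl⟩ | ⟨a, i, j, rfl⟩ | ⟨l, i, rfl⟩
  · simp [hm]
  · simp [hm, Matrix.mul_apply]
  · rw [map_sub, hm, AlgHom.commutes, Matrix.algebraMap_matrix_apply]
    split_ifs <;> simp [evalPt]
  · rw [map_sub]
    have h1 := RingHom.map_mulVec (evalPt P).toRingHom (genMat k g (b l)) genVec i
    simp only [AlgHom.toRingHom_eq_coe, RingHom.coe_coe] at h1
    rw [h1, map_genMat, show (evalPt P) ∘ genVec = P.q from funext fun m => by simp [genVec, evalPt],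
      P.basis, Pi.single_apply]
    split_ifs <;> simp

/-- The map classifying a point. -/
def classifyPt (P : CyclicPt k b A) : ChartRing k b →ₐ[k] A :=
  Ideal.Quotient.liftₐ _ (evalPt P) fun _ hr =>
    (Ideal.span_le.mpr fun _ h => evalPt_rel P h : Ideal.span (relSet b) ≤ RingHom.ker _) hr

theorem map_classifyPt (P : CyclicPt k b A) : (universalPt k b).map (classifyPt P) = P := by
  refine CyclicPt.ext (AlgHom.ext fun c => ?_) (funext fun i => ?_)
  · exact Matrix.ext fun i j => congrFun (congrFun (map_genMat P c) i) j
  · show evalPt P (genVec i) = _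
    simp [genVec, evalPt]

theorem classifyPt_map (f : ChartRing k b →ₐ[k] A) :
    classifyPt ((universalPt k b).map f) = f := by
  refine Ideal.Quotient.algHom_ext _ (MvPolynomial.algHom_ext fun v => ?_)
  show evalPt _ (MvPolynomial.X v) = f (chartMk b (MvPolynomial.X v))
  rcases v with ⟨c, i, j⟩ | i <;> simp [evalPt] <;> rfl

end Lift

/-- **The chart ring is of finite type.** -/
instance finiteType_chartRing [Algebra.FiniteType k B] :
    Algebra.FiniteType k (ChartRing k b) := by
  classical
  obtain ⟨s, hs⟩ := Algebra.FiniteType.out (R := k) (A := B)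
  set P := universalPt k b
  let T : Finset (ChartRing k b) :=
    (s ×ˢ (Finset.univ : Finset (Fin g × Fin g))).image (fun t => P.rho t.1 t.2.1 t.2.2) ∪
      Finset.univ.image P.q
  refine ⟨⟨T, ?_⟩⟩
  set S := Algebra.adjoin k (T : Set (ChartRing k b))
  let Sm : Subalgebra k B :=
    { carrier := {c | ∀ i j, P.rho c i j ∈ S}
      mul_mem' := fun {c d} hc hd i j => by
        rw [map_mul, Matrix.mul_apply]
        exact sum_mem fun l _ => mul_mem (hc i l) (hd l j)
      add_mem' := fun {c d} hc hd i j => by
        rw [map_add, Matrix.add_apply]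
        exact add_mem (hc i j) (hd i j)
      algebraMap_mem' := fun a i j => by
        rw [AlgHom.commutes, Matrix.algebraMap_matrix_apply]
        split_ifs
        · exact S.algebraMap_mem a
        · exact zero_mem S }
  have hall : ∀ c i j, P.rho c i j ∈ S := fun c => by
    have h : Algebra.adjoin k (s : Set B) ≤ Sm := Algebra.adjoin_le fun c hc i j =>
      Algebra.subset_adjoin (Finset.mem_union_left _
        (Finset.mem_image.mpr ⟨(c, i, j), by simpa using hc, rfl⟩))
    exact h (hs ▸ Algebra.mem_top)
  rw [eq_top_iff]
  rintro r -
  obtain ⟨r, rfl⟩ := Ideal.Quotient.mk_surjective r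
  show chartMk b r ∈ S
  induction r using MvPolynomial.induction_on with
  | C a => exact (chartMk b).commutes a ▸ S.algebraMap_mem a
  | add p q hp hq => rw [map_add]; exact add_mem hp hq
  | mul_X p v hp =>
    rw [map_mul]
    refine mul_mem hp ?_
    rcases v with ⟨c, i, j⟩ | i
    · exact hall c i j
    · exact Algebra.subset_adjoin (Finset.mem_union_right _
        (Finset.mem_image.mpr ⟨i, Finset.mem_univ i, rfl⟩))

end Fermat.Agent.Row24.Chart

end
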