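import Fermat.Agent.Row24.Chart.Ops
import Fermat.Agent.Row24.Chart.Point
import Mathlib.RingTheory.Filtration
import Mathlib.RingTheory.Nakayama
import Mathlib.RingTheory.Artinian.Ring
import Mathlib.LinearAlgebra.TensorProduct.Basis
import Mathlib.LinearAlgebra.TensorProduct.Pi

/-!
# The section of a bundle in a chart

If the fibre at the point is free and the bundle twisted down has no cohomology, there is a unique
section with value one at the point, it is regular, and it cuts out on the first chart a divisor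
whose functions are free of rank `g` once the chosen functions span them.
-/

set_option autoImplicit false
set_option maxSynthPendingDepth 3

universe u

noncomputable section

namespace Fermat.Agent.Row24.Chart

open TensorProduct

variable {k : Type u} [Field k]

/-- Shortcut instance: the search for the action on the first lattice is slow. -/
local instance {C : CurveRings k} {A : Type u} [CommRing A] [Algebra k A] (M : Glued C A) : SMul (C.R1 A) M.M1 :=
  M.M1.module.toDistribMulAction.toMulAction.toSMul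

/-- An invertible module is cyclic modulo an ideal with Artinian quotient. -/
theorem exists_generator_mod_of_invertible {R N : Type u} [CommRing R] [AddCommGroup N] [Module R N]
    [Module.Invertible R N] (J : Ideal R) [IsArtinianRing (R ⧸ J)] :
    ∃ m₀ : N, ∀ m : N, ∃ r : R, m - r • m₀ ∈ J • (⊤ : Submodule R N) := by
  have : Subsingleton (CommRing.Pic (R ⧸ J)) := inferInstance
  obtain ⟨eS⟩ := Module.Invertible.free_iff_linearEquiv.1
    (inferInstance : Module.Free (R ⧸ J) ((R ⧸ J) ⊗[R] N))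
  obtain ⟨m₀, hm₀⟩ := TensorProduct.mk_surjective (R) N (R ⧸ J)
    Ideal.Quotient.mk_surjective (eS.symm 1)
  rw [TensorProduct.mk_apply] at hm₀
  refine ⟨m₀, fun m => ?_⟩
  obtain ⟨r, hr⟩ := Ideal.Quotient.mk_surjective (eS ((1 : R ⧸ J) ⊗ₜ m))
  refine ⟨r, ?_⟩
  have h : (1 : R ⧸ J) ⊗ₜ[R] m = (Ideal.Quotient.mk J r) • eS.symm 1 := by
    rw [← map_smul, smul_eq_mul, mul_one, hr, LinearEquiv.symm_apply_apply]
  rw [← hm₀, TensorProduct.smul_tmul', smul_eq_mul, mul_one] at h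
  have h' : (Ideal.Quotient.mk J r) ⊗ₜ[R] m₀ = (1 : R ⧸ J) ⊗ₜ[R] (r • m₀) := by
    rw [← TensorProduct.smul_tmul, Algebra.smul_def, mul_one]; rfl
  rw [← Submodule.Quotient.mk_eq_zero]
  apply (TensorProduct.quotTensorEquivQuotSMul N J).symm.injective
  rw [TensorProduct.quotTensorEquivQuotSMul_symm_mk, map_zero, TensorProduct.tmul_sub, h, h',
    sub_self]

namespace CurveRings

variable (C : CurveRings k) (A : Type u) [CommRing A] [Algebra k A]

/-- The functions on the second chart inside their extension. -/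
def toR2 : C.B2 →ₐ[k] C.R2 A :=
  ((C.subEquiv A C.B2).toAlgHom.restrictScalars k).comp Algebra.TensorProduct.includeRight

theorem toR2_apply (z : C.B2) : C.toR2 A z = C.subEquiv A C.B2 (1 ⊗ₜ z) := rfl

@[simp] theorem coe_toR2_y : (C.toR2 A ⟨C.y, C.y_mem⟩ : C.R12 A) = C.yA A := rfl

variable {A}

theorem ker_augA_le : RingHom.ker (C.augA A) ≤ Ideal.map (C.toR2 A) (RingHom.ker C.aug) := by
  have h : ∀ r : C.R2 A, r - algebraMap A (C.R2 A) (C.augA A r) ∈
      Ideal.map (C.toR2 A) (RingHom.ker C.aug) := by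
    intro r
    induction r using sub_induction with
    | tmul a z =>
      have : C.subEquiv A C.B2 (a ⊗ₜ z) -
          algebraMap A (C.R2 A) (C.augA A (C.subEquiv A C.B2 (a ⊗ₜ z))) =
          algebraMap A (C.R2 A) a * C.toR2 A (z - algebraMap k C.B2 (C.aug z)) := by
        rw [augA_subEquiv_tmul, map_sub, AlgHom.commutes, mul_sub, toR2_apply,
          ← Algebra.smul_def, ← map_smul, TensorProduct.smul_tmul', smul_eq_mul, mul_one,
          IsScalarTower.algebraMap_apply k A (C.R2 A), ← map_mul, Algebra.smul_def, mul_comm]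
      rw [this]
      exact Ideal.mul_mem_left _ _ (Ideal.mem_map_of_mem _ (by simp [RingHom.mem_ker]))
    | zero => simp
    | add r s hr hs =>
      rw [map_add, map_add, show ∀ p q p' q' : C.R2 A, p + q - (p' + q') = (p - p') + (q - q')
        from fun p q p' q' => by abel]
      exact add_mem hr hs
  intro r hr
  simpa [RingHom.mem_ker.1 hr] using h r

/-- A function with value one at the point is a unit modulo every power of `y`. -/
theorem exists_mul_eq_one_add {u : C.R2 A} (hu : C.augA A u = 1) (n : ℕ) :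
    ∃ w t : C.R2 A, u * w = 1 + C.toR2 A ⟨C.y, C.y_mem⟩ ^ n * t := by
  obtain ⟨d, hd⟩ := C.exists_pow_ker_aug_le
  have hle : RingHom.ker (C.augA A) ^ d ≤ Ideal.span {C.toR2 A ⟨C.y, C.y_mem⟩} := by
    refine (Ideal.pow_right_mono C.ker_augA_le d).trans ?_
    rw [← Ideal.map_pow]
    refine (Ideal.map_mono hd).trans ?_
    rw [Ideal.map_span, Set.image_singleton]
  obtain ⟨c, hc⟩ := Ideal.mem_span_singleton'.1
    (hle (Ideal.pow_mem_pow (C.one_mem_ker_add hu) d))
  refine ⟨∑ i ∈ Finset.range (d * n), (1 - u) ^ i, -c ^ n, ?_⟩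
  have h := mul_neg_geom_sum (1 - u) (d * n)
  rw [sub_sub_cancel, pow_mul, ← hc] at h
  rw [h, mul_pow]
  ring

/-- No nonzero function on the second chart is divisible by every power of `y`. -/
theorem eq_zero_of_forall_pow_y {r : C.R2 A}
    (h : ∀ n : ℕ, ∃ t, r = C.toR2 A ⟨C.y, C.y_mem⟩ ^ n * t) : r = 0 := by
  obtain ⟨w, rfl⟩ := (C.subEquiv A C.B2).surjective r
  suffices w = 0 by rw [this, map_zero]
  let 𝔟 := Module.Free.chooseBasis k A
  apply (TensorProduct.equivFinsuppOfBasisLeft 𝔟 (N := C.B2)).injective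
  rw [map_zero]
  refine Finsupp.ext fun i => ?_
  have := C.isDedekind2
  have hy : Ideal.span {(⟨C.y, C.y_mem⟩ : C.B2)} ≠ ⊤ := fun htop => by
    have : (Ideal.span {(⟨C.y, C.y_mem⟩ : C.B2)}) ≤ RingHom.ker C.aug :=
      (Ideal.span_singleton_le_iff_mem _).2 (RingHom.mem_ker.2 C.aug_y)
    exact RingHom.ker_ne_top C.aug (top_le_iff.1 (htop ▸ this))
  have key : ∀ n : ℕ, (TensorProduct.equivFinsuppOfBasisLeft 𝔟 w) i ∈
      Ideal.span {(⟨C.y, C.y_mem⟩ : C.B2)} ^ n := by
    intro n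
    obtain ⟨t, ht⟩ := h n
    obtain ⟨t, rfl⟩ := (C.subEquiv A C.B2).surjective t
    rw [toR2_apply, ← map_pow, ← map_mul, Algebra.TensorProduct.tmul_pow, one_pow] at ht
    rw [(C.subEquiv A C.B2).injective ht]
    clear ht
    induction t using TensorProduct.induction_on with
    | zero => simp
    | tmul a z =>
      rw [Algebra.TensorProduct.tmul_mul_tmul, one_mul,
        TensorProduct.equivFinsuppOfBasisLeft_apply_tmul_apply, Algebra.smul_def]
      exact Ideal.mul_mem_left _ _ (Ideal.mul_mem_right _ _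
        (Ideal.pow_mem_pow (Ideal.mem_span_singleton_self _) n))
    | add v v' hv hv' =>
      rw [mul_add, map_add, Finsupp.add_apply]
      exact add_mem hv hv'
  simpa [Ideal.iInf_pow_eq_bot_of_isDomain _ hy] using Submodule.mem_iInf _ |>.2 key

/-- Coordinates of the first cohomology of the trivial bundle. -/
def h1Map : C.R12 A →ₗ[A] (Fin C.g → A) :=
  (TensorProduct.piScalarRight k A A (Fin C.g)).toLinearMap ∘ₗ
    (C.h1Equiv.toLinearMap ∘ₗ Submodule.mkQ _).baseChange A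

theorem h1Map_surjective : Function.Surjective (C.h1Map (A := A)) :=
  (TensorProduct.piScalarRight k A A (Fin C.g)).surjective.comp
    (LinearMap.lTensor_surjective A
      (C.h1Equiv.surjective.comp (Submodule.mkQ_surjective _)))

theorem h1Map_eq_zero_iff {z : C.R12 A} :
    C.h1Map z = 0 ↔ ∃ r₁ ∈ C.R1 A, ∃ r₂ ∈ C.R2 A, z = r₁ + r₂ := by
  set N := Subalgebra.toSubmodule C.B1 ⊔ Subalgebra.toSubmodule C.B2
  have hex : Function.Exact (N.subtype.lTensor A)
      ((C.h1Equiv.toLinearMap ∘ₗ N.mkQ).lTensor A) :=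
    lTensor_exact A (LinearMap.exact_iff.2 (by
      rw [Submodule.range_subtype, LinearMap.ker_comp_of_ker_eq_bot _ (LinearEquiv.ker _),
        Submodule.ker_mkQ])) (C.h1Equiv.surjective.comp (Submodule.mkQ_surjective _))
  have h0 : C.h1Map z = 0 ↔ (C.h1Equiv.toLinearMap ∘ₗ N.mkQ).lTensor A z = 0 :=
    (TensorProduct.piScalarRight k A A (Fin C.g)).map_eq_zero_iff
  rw [h0, hex z]
  constructor
  · rintro ⟨w, rfl⟩
    clear h0
    induction w using TensorProduct.induction_on with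
    | zero => exact ⟨0, zero_mem _, 0, zero_mem _, by simp⟩
    | tmul a w =>
      obtain ⟨w₁, h₁, w₂, h₂, hw⟩ := Submodule.mem_sup.1 w.2
      exact ⟨a ⊗ₜ w₁, C.tmul_mem_sub a h₁, a ⊗ₜ w₂, C.tmul_mem_sub a h₂, by
        rw [LinearMap.lTensor_tmul, Submodule.subtype_apply, ← hw, TensorProduct.tmul_add]⟩
    | add v v' hv hv' =>
      obtain ⟨p, hp, q, hq, h⟩ := hv
      obtain ⟨p', hp', q', hq', h'⟩ := hv'
      exact ⟨p + p', add_mem hp hp', q + q', add_mem hq hq', by rw [map_add, h, h']; abel⟩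
  · rintro ⟨r₁, h₁, r₂, h₂, rfl⟩
    have key : ∀ (B : Subalgebra k C.B12), Subalgebra.toSubmodule B ≤ N →
        ∀ r ∈ C.sub A B, r ∈ Set.range (N.subtype.lTensor A) := by
      rintro B hB _ ⟨w, rfl⟩
      induction w using TensorProduct.induction_on with
      | zero => exact ⟨0, by simp⟩
      | tmul a w => exact ⟨a ⊗ₜ ⟨(w : C.B12), hB w.2⟩, rfl⟩
      | add v v' hv hv' =>
        obtain ⟨p, hp⟩ := hv
        obtain ⟨p', hp'⟩ := hv'
        exact ⟨p + p', by simp only [map_add, hp, hp']⟩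
    obtain ⟨p, hp⟩ := key C.B1 le_sup_left r₁ h₁
    obtain ⟨q, hq⟩ := key C.B2 le_sup_right r₂ h₂
    exact ⟨p + q, by rw [map_add, hp, hq]⟩

end CurveRings

namespace Glued

variable {C : CurveRings k} {A : Type u} [CommRing A] [Algebra k A] {M : Glued C A}

theorem sub_smul_mem_M2O {ψ : M.carrier →ₗ[C.R12 A] C.R12 A}
    (hψ : ∀ m ∈ M.M2, ψ m ∈ C.R2 A) {e : M.carrier} (he : e ∈ M.M2)
    (h1 : C.augA A ⟨ψ e, hψ e he⟩ = 1) {m : M.carrier} (hm : m ∈ M.M2) :
    m - C.augA A ⟨ψ m, hψ m hm⟩ • e ∈ M.M2O := by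
  set f : C.R2 A := ⟨ψ m, hψ m hm⟩
  have hid : m - C.augA A f • e = (1 - ⟨ψ e, hψ e he⟩ : C.R2 A) • m +
      (f - algebraMap A (C.R2 A) (C.augA A f)) • e := by
    rw [sub_smul, sub_smul, one_smul, algebraMap_smul]
    have : (⟨ψ e, hψ e he⟩ : C.R2 A) • m = f • e := apply_smul_comm ψ e m
    rw [this]; abel
  rw [hid]
  exact add_mem (Submodule.smul_mem_smul (C.one_mem_ker_add h1) hm)
    (Submodule.smul_mem_smul (by simp [RingHom.mem_ker]) he)

variable (M) in
/-- A global section with value one at the point. -/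
structure IsSection (s : M.carrier) : Prop where
  mem1 : s ∈ M.M1
  mem2 : s ∈ M.M2
  one : ∃ ψ : M.carrier →ₗ[C.R12 A] C.R12 A, (∀ m ∈ M.M2, ψ m ∈ C.R2 A) ∧
    ∃ h : ψ s ∈ C.R2 A, C.augA A ⟨ψ s, h⟩ = 1

theorem exists_isSection (hR : M.Rigid) (hV : M.Vanish) : ∃ s, M.IsSection s := by
  obtain ⟨e, he, ψ, hψ, h, h1⟩ := M.rigid_iff.1 hR
  obtain ⟨⟨p, q⟩, hpq⟩ := hV.2 e
  rw [cechO_apply] at hpq
  have hp : (p : M.carrier) = e + q := eq_add_of_sub_eq hpq
  have hp2 : (p : M.carrier) ∈ M.M2 := hp ▸ add_mem he (M.M2O_le q.2)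
  refine ⟨p, p.2, hp2, ψ, hψ, hψ _ hp2, ?_⟩
  have : (⟨ψ p, hψ _ hp2⟩ : C.R2 A) = ⟨ψ e, h⟩ + ⟨ψ q, hψ _ (M.M2O_le q.2)⟩ :=
    Subtype.ext (by simp [hp])
  rw [this, map_add, h1, M.augA_mul_eq_zero ψ hψ q.2, add_zero]

theorem eq_zero_of_mem_M1_M2O (hV : M.Vanish) {m : M.carrier} (h1 : m ∈ M.M1) (h2 : m ∈ M.M2O) :
    m = 0 := by
  have := hV.1 (a₁ := ((⟨m, h1⟩ : M.M1), (⟨m, h2⟩ : M.M2O))) (a₂ := 0) (by simp)
  exact congrArg (fun p => (p.1 : M.carrier)) this

namespace IsSection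

variable {s : M.carrier} (hs : M.IsSection s)
include hs

theorem rigid : M.Rigid := M.rigid_iff.2 ⟨s, hs.mem2, hs.one⟩

theorem mem_h0 : s ∈ M.h0 := ⟨hs.mem1, hs.mem2⟩

theorem eq_zero_of_smul_eq_zero {z : C.R12 A} (h : z • s = 0) : z = 0 := by
  obtain ⟨ψ, -, hu, h1⟩ := hs.one
  obtain ⟨n, hn⟩ := C.exists_mul_yA_mem z
  suffices (⟨_, hn⟩ : C.R2 A) = 0 by
    have h' : z * C.yA A ^ n = 0 := congrArg Subtype.val this
    exact (C.isUnit_yA.pow n).mul_left_eq_zero.1 h'
  refine C.eq_zero_of_forall_pow_y fun l => ?_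
  obtain ⟨w, t, hwt⟩ := C.exists_mul_eq_one_add h1 l
  have hzu : (⟨_, hn⟩ : C.R2 A) * ⟨ψ s, hu⟩ = 0 := by
    apply Subtype.ext
    show z * C.yA A ^ n * ψ s = 0
    rw [mul_right_comm, ← smul_eq_mul z, ← map_smul, h, map_zero, zero_mul]
  refine ⟨-(⟨_, hn⟩ * t), ?_⟩
  have h' := congrArg (fun a => (⟨_, hn⟩ : C.R2 A) * a) hwt
  rw [← mul_assoc, hzu, zero_mul, mul_add, mul_one] at h'
  linear_combination -1 * h'

theorem smul_cancel {z w : C.R12 A} (h : z • s = w • s) : z = w :=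
  sub_eq_zero.1 (hs.eq_zero_of_smul_eq_zero (by rw [sub_smul, h, sub_self]))

theorem exists_smul_eq (hV : M.Vanish) {t : M.carrier} (ht : t ∈ M.h0) : ∃ a : A, t = a • s := by
  obtain ⟨ψ, hψ, hu, h1⟩ := hs.one
  refine ⟨C.augA A ⟨ψ t, hψ t ht.2⟩, sub_eq_zero.1 (eq_zero_of_mem_M1_M2O hV ?_
    (sub_smul_mem_M2O hψ hs.mem2 h1 ht.2))⟩
  exact sub_mem ht.1 (Submodule.smul_of_tower_mem _ _ hs.mem1)

theorem span_h0 (hV : M.Vanish) :
    Submodule.span (C.R1 A) (M.h0 : Set M.carrier) = Submodule.span (C.R1 A) {s} := by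
  refine le_antisymm (Submodule.span_le.2 fun t ht => ?_)
    (Submodule.span_mono (Set.singleton_subset_iff.2 hs.mem_h0))
  obtain ⟨a, rfl⟩ := hs.exists_smul_eq hV ht
  exact Submodule.smul_of_tower_mem _ _ (Submodule.mem_span_singleton_self s)

theorem mem_R2_of_smul_mem {z : C.R12 A} (h : z • s ∈ M.M2) : z ∈ C.R2 A := by
  obtain ⟨ψ, hψ, hu, h1⟩ := hs.one
  obtain ⟨n, hn⟩ := C.exists_mul_yA_mem z
  obtain ⟨w, t, hwt⟩ := C.exists_mul_eq_one_add h1 n
  have hzu : z * ψ s ∈ C.R2 A := by rw [← smul_eq_mul, ← map_smul]; exact hψ _ h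
  have hwt' : ψ s * (w : C.R12 A) = 1 + C.yA A ^ n * (t : C.R12 A) := by
    simpa using congrArg Subtype.val hwt
  have : z = z * ψ s * (w : C.R12 A) - z * C.yA A ^ n * (t : C.R12 A) := by
    rw [mul_assoc, hwt']; ring
  rw [this]
  exact sub_mem (mul_mem hzu w.2) (mul_mem hn t.2)

/-- Every section on the overlap is a multiple of the section up to one vanishing at the point. -/
theorem exists_sub_smul_mem (m : M.carrier) : ∃ z : C.R12 A, m - z • s ∈ M.M2O := by
  obtain ⟨ψ, hψ, hu, h1⟩ := hs.one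
  obtain ⟨n, hn⟩ := M.loc2 m
  obtain ⟨w, t, hwt⟩ := C.exists_mul_eq_one_add h1 n
  have hwt' : ψ s * (w : C.R12 A) = 1 + C.yA A ^ n * (t : C.R12 A) := by
    simpa using congrArg Subtype.val hwt
  set q := C.yA A ^ n • m
  have hq : q = ((w : C.R12 A) * ψ q) • s - (C.yA A ^ n * (t : C.R12 A)) • q := by
    rw [mul_smul, ← apply_smul_comm ψ s q, ← mul_smul, ← sub_smul, mul_comm (w : C.R12 A), hwt',
      add_sub_cancel_right, one_smul]
  have hdec : m - (C.xA A ^ n * ((w : C.R12 A) * ψ q)) • s = -((t : C.R12 A) • q) := by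
    have hxy : C.xA A ^ n * C.yA A ^ n = 1 := by rw [← mul_pow, C.xA_mul_yA, one_pow]
    calc m - (C.xA A ^ n * ((w : C.R12 A) * ψ q)) • s
        = C.xA A ^ n • (q - ((w : C.R12 A) * ψ q) • s) := by
          rw [smul_sub, smul_smul, smul_smul, hxy, one_smul]
      _ = C.xA A ^ n • -((C.yA A ^ n * (t : C.R12 A)) • q) := by
          rw [show q - ((w : C.R12 A) * ψ q) • s = -((C.yA A ^ n * (t : C.R12 A)) • q) by
            nth_rewrite 1 [hq]; abel]
      _ = -((t : C.R12 A) • q) := by rw [smul_neg, smul_smul, ← mul_assoc, hxy, one_mul]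
  have hmem : -((t : C.R12 A) • q) ∈ M.M2 := neg_mem (M.M2.smul_mem t hn)
  refine ⟨C.xA A ^ n * ((w : C.R12 A) * ψ q) + algebraMap A _ (C.augA A ⟨_, hψ _ hmem⟩), ?_⟩
  rw [add_smul, algebraMap_smul, ← sub_sub, hdec]
  exact sub_smul_mem_M2O hψ hs.mem2 h1 hmem

variable (hV : M.Vanish)
include hV

theorem h1Map_eq_of_sub_mem {m : M.carrier} {z z' : C.R12 A} (h : m - z • s ∈ M.M2O)
    (h' : m - z' • s ∈ M.M2O) : C.h1Map z = C.h1Map z' := by
  rw [← sub_eq_zero, ← map_sub, C.h1Map_eq_zero_iff]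
  refine ⟨0, zero_mem _, z - z', hs.mem_R2_of_smul_mem ?_, (zero_add _).symm⟩
  rw [sub_smul, show z • s - z' • s = (m - z' • s) - (m - z • s) by abel]
  exact M.M2O_le (sub_mem h' h)

omit hV in
/-- Coordinates of the functions on the divisor, as a map on sections of the first chart. -/
def quotMapFun (m : M.carrier) : Fin C.g → A := C.h1Map (hs.exists_sub_smul_mem m).choose

theorem quotMapFun_eq {m : M.carrier} {z : C.R12 A} (h : m - z • s ∈ M.M2O) :
    hs.quotMapFun m = C.h1Map z :=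
  hs.h1Map_eq_of_sub_mem hV (hs.exists_sub_smul_mem m).choose_spec h

/-- Coordinates of the functions on the divisor. -/
def quotMap : M.M1 →ₗ[A] (Fin C.g → A) where
  toFun m := hs.quotMapFun m
  map_add' m m' := by
    have h := (hs.exists_sub_smul_mem m).choose_spec
    have h' := (hs.exists_sub_smul_mem m').choose_spec
    rw [hs.quotMapFun_eq hV (z := (hs.exists_sub_smul_mem m).choose +
      (hs.exists_sub_smul_mem m').choose), map_add]
    · rfl
    · rw [Submodule.coe_add, add_smul, add_sub_add_comm]; exact add_mem h h'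
  map_smul' a m := by
    have h := (hs.exists_sub_smul_mem m).choose_spec
    rw [RingHom.id_apply, hs.quotMapFun_eq hV (z := a • (hs.exists_sub_smul_mem m).choose),
      map_smul]
    · rfl
    · rw [Submodule.coe_smul_of_tower, smul_assoc, ← smul_sub]
      exact Submodule.smul_of_tower_mem _ _ h

theorem quotMap_eq {m : M.M1} {z : C.R12 A} (h : (m : M.carrier) - z • s ∈ M.M2O) :
    hs.quotMap hV m = C.h1Map z := hs.quotMapFun_eq hV h

theorem quotMap_surjective : Function.Surjective (hs.quotMap hV) := fun v => by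
  obtain ⟨z, rfl⟩ := C.h1Map_surjective v
  obtain ⟨⟨p, q⟩, hpq⟩ := hV.2 (z • s)
  rw [cechO_apply] at hpq
  exact ⟨p, hs.quotMap_eq hV (by rw [← hpq, sub_sub_cancel]; exact q.2)⟩

theorem quotMap_eq_zero_iff {m : M.M1} :
    hs.quotMap hV m = 0 ↔ ∃ c : C.R1 A, (m : M.carrier) = c • s := by
  constructor
  · intro h0
    obtain ⟨z, hz⟩ := hs.exists_sub_smul_mem (m : M.carrier)
    rw [hs.quotMap_eq hV hz, C.h1Map_eq_zero_iff] at h0
    obtain ⟨r₁, h₁, r₂, h₂, rfl⟩ := h0
    have hmem : (m : M.carrier) - r₁ • s ∈ M.h0 := by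
      refine ⟨sub_mem m.2 (M.M1.smul_mem (⟨r₁, h₁⟩ : C.R1 A) hs.mem1), ?_⟩
      rw [show (m : M.carrier) - r₁ • s = ((m : M.carrier) - (r₁ + r₂) • s) + r₂ • s by
        rw [add_smul]; abel]
      exact add_mem (M.M2O_le hz) (M.M2.smul_mem (⟨r₂, h₂⟩ : C.R2 A) hs.mem2)
    obtain ⟨a, ha⟩ := hs.exists_smul_eq hV hmem
    refine ⟨⟨r₁, h₁⟩ + algebraMap A _ a, ?_⟩
    rw [add_smul, algebraMap_smul, ← ha]
    exact (add_sub_cancel _ _).symm
  · rintro ⟨c, hc⟩
    rw [hs.quotMap_eq hV (z := (c : C.R12 A)), C.h1Map_eq_zero_iff]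
    · exact ⟨c, c.2, 0, zero_mem _, (add_zero _).symm⟩
    · rw [hc]
      show (c : C.R12 A) • s - (c : C.R12 A) • s ∈ M.M2O
      rw [sub_self]; exact zero_mem _

/-- The ideal of the divisor is the image of the dual lattice. -/
theorem mem_divIdeal_iff {r : C.R1 A} : r ∈ M.divIdeal ↔
    ∃ φ : M.carrier →ₗ[C.R12 A] C.R12 A, (∀ m ∈ M.M1, φ m ∈ C.R1 A) ∧ φ s = r := by
  constructor
  · intro hr
    have hex : ∀ m : M.M1, ∃ c : C.R1 A, c • s = r • (m : M.carrier) := fun m => by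
      have := hr m m.2
      rw [hs.span_h0 hV] at this
      exact Submodule.mem_span_singleton.1 this
    choose c hc using hex
    have cancel : ∀ {a b : C.R1 A}, a • s = b • s → a = b := fun h => Subtype.ext (hs.smul_cancel h)
    obtain ⟨φ, hφ⟩ := exists_extend (C.xA_mem (A := A)) C.isUnit_xA C.exists_mul_xA_mem M.loc1
      { toFun := c
        map_add' := fun a b => cancel (by rw [hc, add_smul, hc, hc, ← smul_add]; rfl)
        map_smul' := fun a b => cancel (by
          rw [hc, RingHom.id_apply, smul_eq_mul, mul_smul, hc, smul_smul, mul_comm, mul_smul]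
          rfl) }
    refine ⟨φ, fun m hm => by rw [hφ m hm]; exact SetLike.coe_mem _, ?_⟩
    rw [hφ s hs.mem1]
    exact congrArg Subtype.val (cancel (hc ⟨s, hs.mem1⟩))
  · rintro ⟨φ, hφ, hr⟩ m hm
    rw [hs.span_h0 hV, Submodule.mem_span_singleton]
    refine ⟨⟨φ m, hφ m hm⟩, ?_⟩
    show φ m • s = (r : C.R12 A) • m
    rw [← hr, apply_smul_comm]

theorem quotMap_smul_eq_zero {r : C.R1 A} (hr : r ∈ M.divIdeal) (m : M.M1) :
    hs.quotMap hV (r • m) = 0 := by
  rw [hs.quotMap_eq_zero_iff hV]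
  have := hr m m.2
  rw [hs.span_h0 hV] at this
  obtain ⟨c, hc⟩ := Submodule.mem_span_singleton.1 this
  exact ⟨c, hc.symm⟩

end IsSection

variable {b : Fin C.g → C.B1}

section Independence

variable {s : M.carrier}

/-- The quotient by the ideal of the divisor is a retract of a finite free module. -/
theorem IsSection.exists_retraction (hs : M.IsSection s) (hV : M.Vanish) :
    ∃ (n : ℕ) (p : (C.R1 A ⧸ M.divIdeal) →ₗ[A] (Fin n → Fin C.g → A))
      (q : (Fin n → Fin C.g → A) →ₗ[A] C.R1 A ⧸ M.divIdeal), q ∘ₗ p = LinearMap.id := by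
  classical
  set I := M.divIdeal
  obtain ⟨n, φ, u, hu, hφ, h1⟩ := M.isLattice1
  let β : C.R1 A →ₗ[A] (Fin n → Fin C.g → A) := LinearMap.pi fun j => hs.quotMap hV ∘ₗ
    (LinearMap.toSpanSingleton (C.R1 A) M.M1 ⟨u j, hu j⟩).restrictScalars A
  have hβI : ∀ r ∈ I, β r = 0 := fun r hr => funext fun j =>
    hs.quotMap_smul_eq_zero hV hr ⟨u j, hu j⟩
  let β' : (C.R1 A ⧸ I) →ₗ[A] (Fin n → Fin C.g → A) :=
    Submodule.liftQ (I.restrictScalars A) β (fun r hr => hβI r hr) ∘ₗ
      (Submodule.Quotient.restrictScalarsEquiv A I).symm.toLinearMap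
  have hretract : ∀ j, ∃ γ : (Fin C.g → A) →ₗ[A] C.R1 A ⧸ I, ∀ m : M.M1,
      γ (hs.quotMap hV m) = Ideal.Quotient.mk I ⟨φ j m, hφ j m m.2⟩ := by
    intro j
    let F : M.M1 →ₗ[A] C.R1 A ⧸ I :=
      { toFun := fun m => Ideal.Quotient.mk I ⟨φ j m, hφ j m m.2⟩
        map_add' := fun m m' => by
          rw [← map_add]; exact congrArg _ (Subtype.ext (map_add (φ j) _ _))
        map_smul' := fun a m => by
          rw [RingHom.id_apply, ← Ideal.Quotient.mkₐ_eq_mk A, ← map_smul]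
          exact congrArg _ (Subtype.ext (LinearMap.map_smul_of_tower (φ j) a (m : M.carrier))) }
    have hker : LinearMap.ker (hs.quotMap hV) ≤ LinearMap.ker F := fun m hm => by
      obtain ⟨c, hc⟩ := (hs.quotMap_eq_zero_iff hV).1 (LinearMap.mem_ker.1 hm)
      rw [LinearMap.mem_ker]
      refine Ideal.Quotient.eq_zero_iff_mem.2 ?_
      have : (⟨φ j m, hφ j m m.2⟩ : C.R1 A) = c * ⟨φ j s, hφ j s hs.mem1⟩ :=
        Subtype.ext ((congrArg (φ j) hc).trans (map_smul (φ j) (c : C.R12 A) s))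
      rw [this]
      exact I.mul_mem_left _ ((hs.mem_divIdeal_iff hV).2 ⟨φ j, hφ j, rfl⟩)
    let L : (M.M1 ⧸ LinearMap.ker (hs.quotMap hV)) →ₗ[A] (Fin C.g → A) :=
      Submodule.liftQ (LinearMap.ker (hs.quotMap hV)) (hs.quotMap hV) le_rfl
    let eQ : (M.M1 ⧸ LinearMap.ker (hs.quotMap hV)) ≃ₗ[A] (Fin C.g → A) :=
      LinearEquiv.ofBijective L
      ⟨LinearMap.ker_eq_bot.1 (Submodule.ker_liftQ_eq_bot _ _ _ le_rfl), fun v => by
        obtain ⟨m, rfl⟩ := hs.quotMap_surjective hV v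
        exact ⟨Submodule.Quotient.mk m, rfl⟩⟩
    refine ⟨(Submodule.liftQ _ F hker).comp eQ.symm.toLinearMap, fun m => ?_⟩
    rw [LinearMap.comp_apply, LinearEquiv.coe_coe,
      show eQ.symm (hs.quotMap hV m) = Submodule.Quotient.mk m from
        eQ.injective (by rw [LinearEquiv.apply_symm_apply]; rfl)]
    rfl
  choose γ hγ using hretract
  refine ⟨n, β', ∑ j, γ j ∘ₗ LinearMap.proj j, LinearMap.ext fun x => ?_⟩
  exact (by
      obtain ⟨r, rfl⟩ := Ideal.Quotient.mk_surjective x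
      have hβ' : ∀ j, β' (Ideal.Quotient.mk I r) j = hs.quotMap hV (r • ⟨u j, hu j⟩) := fun j => rfl
      simp only [LinearMap.comp_apply, LinearMap.sum_apply, LinearMap.proj_apply, hβ', hγ,
        LinearMap.id_apply]
      rw [← map_sum]
      congr 1
      apply Subtype.ext
      rw [AddSubmonoidClass.coe_finsetSum]
      show ∑ j, φ j ((r : C.R12 A) • u j) = (r : C.R12 A)
      simp only [map_smul, smul_eq_mul, ← Finset.mul_sum, h1, mul_one])

/-- The quotient by the ideal of the divisor is projective. -/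
theorem IsSection.projective_quotient (hs : M.IsSection s) (hV : M.Vanish) :
    Module.Projective A (C.R1 A ⧸ M.divIdeal) := by
  obtain ⟨n, p, q, h⟩ := hs.exists_retraction hV
  exact Module.Projective.of_split p q h

/-- The quotient by the ideal of the divisor is finite. -/
theorem IsSection.finite_quotient (hs : M.IsSection s) (hV : M.Vanish) :
    Module.Finite A (C.R1 A ⧸ M.divIdeal) := by
  obtain ⟨n, p, q, h⟩ := hs.exists_retraction hV
  exact Module.Finite.of_surjective q fun x => ⟨p x, LinearMap.congr_fun h x⟩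

theorem IsSection.quotMap_smul_mem (hs : M.IsSection s) (hV : M.Vanish) {𝔪 : Ideal A} {r : C.R1 A}
    (hr : r ∈ M.divIdeal ⊔ 𝔪.map (algebraMap A (C.R1 A))) (m : M.M1) (l : Fin C.g) :
    hs.quotMap hV (r • m) l ∈ 𝔪 := by
  obtain ⟨p, hp, q, hq, rfl⟩ := Submodule.mem_sup.1 hr
  rw [add_smul, map_add, hs.quotMap_smul_eq_zero hV hp, zero_add]
  have key : ∀ q ∈ 𝔪.map (algebraMap A (C.R1 A)), ∀ m : M.M1,
      hs.quotMap hV (q • m) l ∈ 𝔪 := by
    intro q hq
    refine Submodule.span_induction (p := fun q _ => ∀ m : M.M1, hs.quotMap hV (q • m) l ∈ 𝔪)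
      ?_ ?_ ?_ ?_ hq
    · rintro _ ⟨a, ha, rfl⟩ m
      rw [algebraMap_smul, map_smul]
      exact Ideal.mul_mem_right _ _ ha
    · intro m
      simp
    · intro q q' _ _ h h' m
      rw [add_smul, map_add]
      exact add_mem (h m) (h' m)
    · intro c q _ h m
      rw [smul_eq_mul, mul_comm, mul_smul]
      exact h _
  exact key q hq m

end Independence

theorem isArtinianRing_quotient (hO : M.Onto b) (𝔪 : Ideal A) [h𝔪 : 𝔪.IsMaximal]
    {J : Ideal (C.R1 A)} (hI : M.divIdeal ≤ J) (hm : 𝔪.map (algebraMap A (C.R1 A)) ≤ J) :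
    IsArtinianRing (C.R1 A ⧸ J) := by
  let π : (Fin C.g → A) →ₗ[A] C.R1 A ⧸ J :=
    (Ideal.Quotient.mkₐ A J).toLinearMap ∘ₗ Fintype.linearCombination A (C.bA A b)
  have hπ : Function.Surjective π := fun x => by
    obtain ⟨r, rfl⟩ := Ideal.Quotient.mk_surjective x
    obtain ⟨a, ha⟩ := hO r
    exact ⟨a, ((Ideal.Quotient.mk_eq_mk_iff_sub_mem _ _).2 (hI ha)).symm⟩
  let S : Submodule A (Fin C.g → A) := Submodule.pi Set.univ fun _ => 𝔪
  have hS : S ≤ LinearMap.ker π := fun a ha => by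
    rw [LinearMap.mem_ker]
    refine Ideal.Quotient.eq_zero_iff_mem.2 ?_
    rw [Fintype.linearCombination_apply]
    refine Ideal.sum_mem _ fun i _ => ?_
    rw [Algebra.smul_def]
    exact J.mul_mem_right _ (hm (Ideal.mem_map_of_mem _ (ha i (Set.mem_univ i))))
  let _ := Ideal.Quotient.field 𝔪
  have : IsArtinian A (A ⧸ 𝔪) :=
    isArtinian_of_surjective_algebraMap (R := A ⧸ 𝔪) Ideal.Quotient.mk_surjective
  have : IsArtinian A ((Fin C.g → A) ⧸ S) :=
    isArtinian_of_linearEquiv (Submodule.quotientPi (fun _ : Fin C.g => 𝔪)).symm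
  have : IsArtinian A (C.R1 A ⧸ J) := isArtinian_of_surjective _ (Submodule.liftQ S π hS)
    (fun x => (hπ x).elim fun a ha => ⟨Submodule.Quotient.mk a, ha⟩)
  exact isArtinian_of_tower A this

theorem exists_generator_mod {J : Ideal (C.R1 A)} [IsArtinianRing (C.R1 A ⧸ J)] :
    ∃ m₀ : M.M1, ∀ m : M.M1, ∃ r : C.R1 A, m - r • m₀ ∈ J • (⊤ : Submodule (C.R1 A) M.M1) :=
  exists_generator_mod_of_invertible J

theorem mem_smul_imp {s : M.carrier} (hs : M.IsSection s) (hV : M.Vanish) {𝔪 : Ideal A}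
    {J : Ideal (C.R1 A)} (hJ : J ≤ M.divIdeal ⊔ 𝔪.map (algebraMap A (C.R1 A))) {x : M.M1}
    (hx : x ∈ J • (⊤ : Submodule (C.R1 A) M.M1)) (l : Fin C.g) :
    hs.quotMap hV x l ∈ 𝔪 := by
  refine Submodule.smul_induction_on (p := fun x => hs.quotMap hV x l ∈ 𝔪) hx ?_ ?_
  · exact fun q hq x _ => hs.quotMap_smul_mem hV (hJ hq) x l
  · intro x x' hx hx'
    rw [map_add]
    exact add_mem hx hx'

/-- The relations among the chosen functions on the divisor lie in every maximal ideal. -/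
theorem ChartCond.mem_maximal (h : M.ChartCond b) {w : Fin C.g → A}
    (hw : ∑ i, w i • C.bA A b i ∈ M.divIdeal) (𝔪 : Ideal A) [h𝔪 : 𝔪.IsMaximal] (i : Fin C.g) :
    w i ∈ 𝔪 := by
  classical
  obtain ⟨s, hs⟩ := exists_isSection h.rigid h.vanish
  have hV := h.vanish
  set J : Ideal (C.R1 A) := M.divIdeal ⊔ 𝔪.map (algebraMap A (C.R1 A)) with hJ
  have : IsArtinianRing (C.R1 A ⧸ J) := isArtinianRing_quotient h.onto 𝔪 le_sup_left le_sup_right
  obtain ⟨m₀, hgen⟩ := exists_generator_mod (M := M) (J := J)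
  let E : (Fin C.g → A) →ₗ[A] (Fin C.g → A) := hs.quotMap hV ∘ₗ
    (LinearMap.toSpanSingleton (C.R1 A) M.M1 m₀).restrictScalars A ∘ₗ
      Fintype.linearCombination A (C.bA A b)
  have hE : ∀ a, E a = hs.quotMap hV ((∑ i, a i • C.bA A b i) • m₀) := fun a => by
    simp only [E, LinearMap.comp_apply, Fintype.linearCombination_apply]
    rfl
  let _ := Ideal.Quotient.field 𝔪
  let Ē : (Fin C.g → A ⧸ 𝔪) →ₗ[A ⧸ 𝔪] (Fin C.g → A ⧸ 𝔪) :=
    Matrix.mulVecLin ((LinearMap.toMatrix' E).map (Ideal.Quotient.mk 𝔪))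
  have hĒ : ∀ a, Ē (Ideal.Quotient.mk 𝔪 ∘ a) = Ideal.Quotient.mk 𝔪 ∘ E a := fun a => by
    funext l
    rw [Matrix.mulVecLin_apply, ← RingHom.map_mulVec, ← Matrix.toLin'_apply,
      Matrix.toLin'_toMatrix']
    rfl
  have hsurj : Function.Surjective Ē := by
    intro x
    choose a ha using fun l => Ideal.Quotient.mk_surjective (x l)
    obtain ⟨m, hm⟩ := hs.quotMap_surjective hV a
    obtain ⟨r, hr⟩ := hgen m
    obtain ⟨c, hc⟩ := h.onto r
    have hc' : hs.quotMap hV (r • m₀) = E c := by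
      rw [hE, ← sub_eq_zero, ← map_sub, ← sub_smul]
      exact hs.quotMap_smul_eq_zero hV hc m₀
    refine ⟨Ideal.Quotient.mk 𝔪 ∘ c, ?_⟩
    rw [hĒ]
    funext l
    rw [← ha l, ← hm]
    refine (Ideal.Quotient.mk_eq_mk_iff_sub_mem _ _).2 ?_
    have := neg_mem (mem_smul_imp hs hV hJ.le hr l)
    rw [map_sub, hc', Pi.sub_apply, neg_sub] at this
    exact this
  have hinj := LinearMap.injective_iff_surjective.2 hsurj
  have hEw : E w = 0 := by rw [hE]; exact hs.quotMap_smul_eq_zero hV hw m₀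
  have hz : Ideal.Quotient.mk 𝔪 ∘ w = 0 := hinj (by
    rw [hĒ, hEw, map_zero]; exact funext fun _ => map_zero _)
  exact Ideal.Quotient.eq_zero_iff_mem.1 (congrFun hz i)

/-- The chosen functions are independent on the divisor. -/
theorem ChartCond.eq_zero_of_combination_mem (h : M.ChartCond b) {v : Fin C.g → A}
    (hv : ∑ i, v i • C.bA A b i ∈ M.divIdeal) : v = 0 := by
  classical
  obtain ⟨s, hs⟩ := exists_isSection h.rigid h.vanish
  set I := M.divIdeal
  let f : (Fin C.g → A) →ₗ[A] C.R1 A ⧸ I :=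
    (Ideal.Quotient.mkₐ A I).toLinearMap ∘ₗ Fintype.linearCombination A (C.bA A b)
  have hfker : ∀ w, f w = 0 ↔ ∑ i, w i • C.bA A b i ∈ I := fun w => Ideal.Quotient.eq_zero_iff_mem
  have hf : Function.Surjective f := fun x => by
    obtain ⟨r, rfl⟩ := Ideal.Quotient.mk_surjective x
    obtain ⟨a, ha⟩ := h.onto r
    exact ⟨a, ((Ideal.Quotient.mk_eq_mk_iff_sub_mem _ _).2 ha).symm⟩
  have : Module.Projective A (C.R1 A ⧸ I) := hs.projective_quotient h.vanish
  obtain ⟨σ, hσ⟩ := Module.projective_lifting_property f LinearMap.id hf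
  let e : (Fin C.g → A) →ₗ[A] (Fin C.g → A) := LinearMap.id - σ ∘ₗ f
  have hfe : ∀ w, f (e w) = 0 := fun w => by
    have h1 : f (σ (f w)) = f w := LinearMap.congr_fun hσ (f w)
    simp [e, h1]
  have hbot : LinearMap.range e = ⊥ := by
    refine Submodule.eq_bot_of_le_smul_of_le_jacobson_bot (Ideal.jacobson ⊥) _
      (by rw [LinearMap.range_eq_map]; exact (Module.finite_def.1 inferInstance).map e)
      (fun w hw => ?_) le_rfl
    obtain ⟨w', rfl⟩ := hw
    have hew : e (e w') = e w' := by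
      show e w' - σ (f (e w')) = e w'
      rw [hfe, map_zero, sub_zero]
    have hsum : e w' = ∑ j, e w' j • Pi.single (M := fun _ : Fin C.g => A) j 1 :=
      pi_eq_sum_univ' _
    rw [← hew]
    nth_rewrite 1 [hsum]
    rw [map_sum]
    refine sum_mem fun j _ => ?_
    rw [map_smul]
    refine Submodule.smul_mem_smul ?_ ⟨_, rfl⟩
    exact Submodule.mem_sInf.2 fun 𝔪 h𝔪 => h.mem_maximal ((hfker _).1 (hfe w')) 𝔪 (h𝔪 := h𝔪.2) j
  have hev : e v = v := by
    show v - σ (f v) = v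
    rw [(hfker v).2 hv, map_zero, sub_zero]
  rw [← hev]
  exact (Submodule.eq_bot_iff _).1 hbot _ ⟨v, rfl⟩

end Glued

end Fermat.Agent.Row24.Chart

end
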