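import Fermat.Agent.Row24.Chart.Ops
import Fermat.Agent.Row24.Chart.GraphIdeal

/-!
# A divisor of one chart as a bundle on both

An invertible ideal `I` of one chart containing `u - a`, `u` the coordinate which is inverted on
the overlap, spreads to the other chart by intersecting: `1 - a u⁻¹` lies in the extension, so it
does not meet the complement of the overlap.
-/

set_option autoImplicit false

universe u

noncomputable section

namespace Fermat.Agent.Row24.Chart

/-- Two subrings of a ring, localising to it at mutually inverse elements. -/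
structure ChartPair (A S : Type u) [CommRing A] [CommRing S] [Algebra A S] where
  /-- the first subring -/
  T : Subalgebra A S
  /-- the second subring -/
  T' : Subalgebra A S
  /-- the element inverted in the first -/
  u : S
  /-- its inverse -/
  u' : S
  u_mem : u ∈ T
  u'_mem : u' ∈ T'
  mul_eq : u * u' = 1
  loc : ∀ z, ∃ n : ℕ, z * u ^ n ∈ T
  loc' : ∀ z, ∃ n : ℕ, z * u' ^ n ∈ T'

namespace ChartPair

variable {A S : Type u} [CommRing A] [CommRing S] [Algebra A S] (P : ChartPair A S)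

theorem isUnit_u : IsUnit P.u := .of_mul_eq_one _ P.mul_eq

theorem pow_mem_of_le {z : S} {n m : ℕ} (h : z * P.u' ^ n ∈ P.T') (hnm : n ≤ m) :
    z * P.u' ^ m ∈ P.T' := by
  rw [← Nat.sub_add_cancel hnm, pow_add, mul_comm (P.u' ^ (m - n)), ← mul_assoc]
  exact mul_mem h (pow_mem P.u'_mem _)

variable (I : Ideal P.T)

/-- Shortcut instance: the search for the action on an ideal is slow. -/
local instance : SMul P.T I := I.module.toDistribMulAction.toMulAction.toSMul

/-- The extension to the overlap. -/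
abbrev ext : Ideal S := Ideal.map P.T.val I

theorem mem_ext_of_mem {t : P.T} (h : t ∈ I) : (t : S) ∈ P.ext I := Ideal.mem_map_of_mem _ h

/-- The ideal inside its extension. -/
def fst : Submodule P.T (P.ext I) where
  carrier := {m | ∃ h : (m : S) ∈ P.T, (⟨m, h⟩ : P.T) ∈ I}
  add_mem' := fun ⟨_, ha⟩ ⟨_, hb⟩ => ⟨_, add_mem ha hb⟩
  zero_mem' := ⟨zero_mem _, zero_mem I⟩
  smul_mem' t _ := fun ⟨_, ha⟩ => ⟨_, I.mul_mem_left t ha⟩

/-- The functions of the second subring in the extension. -/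
def snd : Submodule P.T' (P.ext I) where
  carrier := {m | (m : S) ∈ P.T'}
  add_mem' := fun ha hb => add_mem (s := P.T') ha hb
  zero_mem' := zero_mem P.T'
  smul_mem' t _ := fun ha => mul_mem (s := P.T') t.2 ha

theorem exists_pow_smul_mem_fst (m : P.ext I) : ∃ n : ℕ, P.u ^ n • m ∈ P.fst I := by
  obtain ⟨m, hm⟩ := m
  refine Submodule.span_induction (p := fun m hm => ∃ n : ℕ,
    P.u ^ n • (⟨m, hm⟩ : P.ext I) ∈ P.fst I) ?_ ?_ ?_ ?_ hm
  · rintro _ ⟨t, ht, rfl⟩
    exact ⟨0, by rw [pow_zero, one_smul]; exact ⟨t.2, ht⟩⟩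
  · exact ⟨0, by rw [pow_zero, one_smul]; exact (P.fst I).zero_mem⟩
  · rintro x y hx hy ⟨a, ha⟩ ⟨b, hb⟩
    refine ⟨a + b, ?_⟩
    have : P.u ^ (a + b) • (⟨x + y, add_mem hx hy⟩ : P.ext I) =
        (⟨P.u ^ b, pow_mem P.u_mem b⟩ : P.T) • (P.u ^ a • ⟨x, hx⟩) +
          (⟨P.u ^ a, pow_mem P.u_mem a⟩ : P.T) • (P.u ^ b • ⟨y, hy⟩) := Subtype.ext <| by
      show P.u ^ (a + b) * (x + y) = P.u ^ b * (P.u ^ a * x) + P.u ^ a * (P.u ^ b * y)
      ring
    rw [this]
    exact add_mem (Submodule.smul_mem _ _ ha) (Submodule.smul_mem _ _ hb)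
  · rintro r x hx ⟨a, ha⟩
    obtain ⟨b, hb⟩ := P.loc r
    refine ⟨a + b, ?_⟩
    have : P.u ^ (a + b) • (⟨r • x, Ideal.mul_mem_left _ r hx⟩ : P.ext I) =
        (⟨_, hb⟩ : P.T) • (P.u ^ a • ⟨x, hx⟩) := Subtype.ext <| by
      show P.u ^ (a + b) * (r * x) = r * P.u ^ b * (P.u ^ a * x)
      ring
    rw [this]
    exact Submodule.smul_mem _ _ ha

theorem apply_mul_comm {J : Ideal S} (φ : J →ₗ[S] S) (m m' : J) :
    φ m * (m' : S) = φ m' * (m : S) := by
  have h := congrArg φ (show (m' : S) • m = (m : S) • m' from Subtype.ext (mul_comm _ _))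
  rw [map_smul, map_smul, smul_eq_mul, smul_eq_mul] at h
  rw [mul_comm (φ m), h, mul_comm]

theorem invertible_of_isLattice {T : Subalgebra A S} {J : Ideal S} {N : Submodule T J}
    (h : IsLattice T N) : Module.Invertible S J := by
  obtain ⟨n, φ, v, -, -, h1⟩ := h
  refine Fermat.Agent.Row24.moduleInvertible_of_swap (fun f x y => Subtype.ext ?_) ?_
  · exact apply_mul_comm f x y
  · rw [Ideal.eq_top_iff_one, ← h1]
    exact sum_mem fun i _ => Ideal.subset_span ⟨(φ i, v i), rfl⟩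

theorem isLattice_fst (hI : HasPairing I) : IsLattice P.T (P.fst I) := by
  obtain ⟨n, g, w, h1⟩ := hI
  let g' : Fin n → P.fst I →ₗ[P.T] P.T := fun i =>
    { toFun := fun m => g i ⟨⟨_, m.2.choose⟩, m.2.choose_spec⟩
      map_add' := fun m m' => by
        rw [← map_add]
        exact congrArg (g i) (Subtype.ext (Subtype.ext rfl))
      map_smul' := fun t m => by
        rw [RingHom.id_apply, ← map_smul]
        exact congrArg (g i) (Subtype.ext (Subtype.ext rfl)) }
  choose φ hφ using fun i =>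
    exists_extend P.u_mem P.isUnit_u P.loc (P.exists_pow_smul_mem_fst I) (g' i)
  refine IsLattice.intro φ (fun i => ⟨_, P.mem_ext_of_mem I (w i).2⟩)
    (fun i => ⟨(w i).1.2, (w i).2⟩) (fun i m hm => by rw [hφ i m hm]; exact SetLike.coe_mem _) ?_
  have h1' := congrArg P.T.val h1
  rw [map_sum, map_one] at h1'
  refine Eq.trans (Finset.sum_congr rfl fun i _ => ?_) h1'
  exact (hφ i _ (⟨(w i).1.2, (w i).2⟩ :
    (⟨_, P.mem_ext_of_mem I (w i).2⟩ : P.ext I) ∈ P.fst I)).trans rfl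

variable {a : A} (ha : (⟨P.u, P.u_mem⟩ : P.T) - algebraMap A P.T a ∈ I)
include ha

theorem one_sub_mem : 1 - algebraMap A S a * P.u' ∈ P.ext I := by
  have h := Ideal.mul_mem_right P.u' _ (P.mem_ext_of_mem I ha)
  rwa [AddSubgroupClass.coe_sub, Subalgebra.coe_algebraMap, sub_mul, P.mul_eq] at h

omit ha in
theorem one_sub_mem' : 1 - algebraMap A S a * P.u' ∈ P.T' :=
  sub_mem (one_mem _) (mul_mem (P.T'.algebraMap_mem a) P.u'_mem)

theorem isLattice_snd (h : IsLattice P.T (P.fst I)) : IsLattice P.T' (P.snd I) := by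
  classical
  obtain ⟨n, φ, v, -, -, h1⟩ := h
  set c := algebraMap A S a * P.u'
  have hc : c ∈ P.T' := mul_mem (P.T'.algebraMap_mem a) P.u'_mem
  let e : P.ext I := ⟨1 - c, P.one_sub_mem I ha⟩
  choose d hd using fun i => P.loc' (φ i e)
  choose d' hd' using fun i => P.loc' (v i : S)
  obtain ⟨N₁, hN₁⟩ : ∃ N, ∀ i, φ i e * P.u' ^ N ∈ P.T' :=
    ⟨Finset.univ.sup d, fun i => P.pow_mem_of_le (hd i) (Finset.le_sup (Finset.mem_univ i))⟩
  obtain ⟨N₂, hN₂⟩ : ∃ N, ∀ i, (v i : S) * P.u' ^ N ∈ P.T' :=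
    ⟨Finset.univ.sup d', fun i => P.pow_mem_of_le (hd' i) (Finset.le_sup (Finset.mem_univ i))⟩
  have hgeom : ∀ K : ℕ, ∃ G ∈ P.T', 1 - c ^ K = (1 - c) * G := fun K =>
    ⟨∑ j ∈ Finset.range K, c ^ j, sum_mem fun j _ => pow_mem hc j, (mul_neg_geom_sum c K).symm⟩
  have hint : ∀ i, ∀ m ∈ P.snd I, P.u' ^ N₁ * φ i m ∈ P.T' := by
    intro i m hm
    obtain ⟨K, hK⟩ := P.loc' (φ i m)
    obtain ⟨G, hG, hGeq⟩ := hgeom K
    have he : φ i m * (1 - c) = φ i e * m := apply_mul_comm (φ i) m e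
    have : P.u' ^ N₁ * φ i m =
        φ i e * P.u' ^ N₁ * m * G + P.u' ^ N₁ * algebraMap A S a ^ K * (φ i m * P.u' ^ K) := by
      calc P.u' ^ N₁ * φ i m
          = P.u' ^ N₁ * φ i m * (1 - c ^ K) + P.u' ^ N₁ * φ i m * c ^ K := by ring
        _ = _ := by
          rw [hGeq, show P.u' ^ N₁ * φ i m * ((1 - c) * G) = P.u' ^ N₁ * (φ i m * (1 - c)) * G
            by ring, he]
          simp only [c, mul_pow]
          ring
    rw [this]
    exact add_mem (mul_mem (mul_mem (hN₁ i) hm) hG)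
      (mul_mem (mul_mem (pow_mem P.u'_mem _) (pow_mem (P.T'.algebraMap_mem a) _)) hK)
  obtain ⟨G, hG, hGeq⟩ := hgeom (N₁ + N₂)
  have he₀ : 1 - c ^ (N₁ + N₂) ∈ P.ext I := hGeq ▸ Ideal.mul_mem_right _ _ (P.one_sub_mem I ha)
  refine IsLattice.intro (ι := Option (Fin n))
    (fun o => o.elim (P.ext I).subtype fun i => P.u' ^ N₁ • φ i)
    (fun o => o.elim ⟨_, he₀⟩ fun i => (algebraMap A S a ^ (N₁ + N₂) * P.u' ^ N₂) • v i)
    (fun o => ?_) (fun o => ?_) ?_
  · cases o with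
    | none =>
      show 1 - c ^ (N₁ + N₂) ∈ P.T'
      exact sub_mem (one_mem _) (pow_mem hc _)
    | some i =>
      show algebraMap A S a ^ (N₁ + N₂) * P.u' ^ N₂ * (v i : S) ∈ P.T'
      rw [mul_assoc, mul_comm (P.u' ^ N₂)]
      exact mul_mem (pow_mem (P.T'.algebraMap_mem a) _) (hN₂ i)
  · cases o with
    | none => exact fun m hm => hm
    | some i => exact hint i
  · rw [Fintype.sum_option]
    simp only [Option.elim_none, Option.elim_some, LinearMap.smul_apply, map_smul, smul_eq_mul,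
      Submodule.subtype_apply, ← mul_assoc, ← Finset.mul_sum, h1, mul_one]
    simp only [c, mul_pow, pow_add]
    ring

omit ha in
variable {P I} in
/-- If the ideal is cut out by an evaluation on the overlap, so is its extension. -/
theorem ext_eq_ker (ev : S →ₐ[A] A) (h : ∀ t : P.T, t ∈ I ↔ ev t = 0) :
    P.ext I = RingHom.ker ev := by
  refine le_antisymm (Ideal.map_le_iff_le_comap.2 fun t ht => (h t).1 ht) fun r hr => ?_
  obtain ⟨n, hn⟩ := P.loc r
  have hmem := P.mem_ext_of_mem I ((h ⟨_, hn⟩).2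
    (by simp [map_mul, RingHom.mem_ker.1 hr]))
  exact ((P.ext I).mul_unit_mem_iff_mem (P.isUnit_u.pow n)).1 hmem

section Map

omit ha
variable {A' S' : Type u} [CommRing A'] [CommRing S'] [Algebra A' S'] {P' : ChartPair A' S'}
  {I' : Ideal P'.T} {σ : S →+* S'} (hT : ∀ t ∈ P.T, σ t ∈ P'.T) (hT' : ∀ t ∈ P.T', σ t ∈ P'.T')
  (hI : ∀ t : P.T, t ∈ I → (⟨σ t, hT t t.2⟩ : P'.T) ∈ I')

include hI in
theorem map_ext {m : S} (hm : m ∈ P.ext I) : σ m ∈ P'.ext I' := by
  refine (Ideal.map_le_iff_le_comap (K := Ideal.comap σ (P'.ext I'))).2 ?_ hm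
  intro t ht
  exact P'.mem_ext_of_mem I' (hI t ht)

/-- The map of the extensions. -/
def mapHom : P.ext I →+ P'.ext I' where
  toFun m := ⟨σ m, P.map_ext I hT hI m.2⟩
  map_zero' := Subtype.ext (map_zero σ)
  map_add' m m' := Subtype.ext (map_add σ (m : S) m')

variable (hgen : ∀ t : P'.T, t ∈ I' →
  t ∈ Ideal.span (Set.range fun s : I => (⟨σ (s : P.T), hT _ s.1.2⟩ : P'.T)))

include hgen in
theorem span_fst :
    Submodule.span P'.T (P.mapHom I hT hI '' (P.fst I : Set (P.ext I))) = P'.fst I' := by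
  refine le_antisymm (Submodule.span_le.2 ?_) fun m hm => ?_
  · rintro _ ⟨m, ⟨h, hm⟩, rfl⟩
    exact ⟨hT _ h, hI ⟨m, h⟩ hm⟩
  obtain ⟨m, hm0⟩ := m
  obtain ⟨h, hm⟩ := hm
  suffices ∀ t : P'.T, t ∈ Ideal.span (Set.range fun s : I => (⟨σ (s : P.T), hT _ s.1.2⟩ : P'.T)) →
      ∃ hI' : (t : S') ∈ P'.ext I', (⟨t, hI'⟩ : P'.ext I') ∈
        Submodule.span P'.T (P.mapHom I hT hI '' (P.fst I : Set (P.ext I))) from
    (this ⟨m, h⟩ (hgen _ hm)).2
  intro t ht
  induction ht using Submodule.span_induction with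
  | mem x hx =>
    obtain ⟨s, rfl⟩ := hx
    exact ⟨P'.mem_ext_of_mem I' (hI s.1 s.2),
      Submodule.subset_span ⟨⟨_, P.mem_ext_of_mem I s.2⟩, ⟨s.1.2, s.2⟩, rfl⟩⟩
  | zero => exact ⟨zero_mem _, (Submodule.span _ _).zero_mem⟩
  | add x y _ _ hx hy => exact ⟨add_mem hx.1 hy.1, add_mem hx.2 hy.2⟩
  | smul r x _ hx =>
    refine ⟨Ideal.mul_mem_left _ _ hx.1, ?_⟩
    exact Submodule.smul_mem _ r hx.2

variable {a' : A'} (hu' : σ P.u' = P'.u') (haσ : σ (algebraMap A S a) = algebraMap A' S' a')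

include hgen hT' ha hu' haσ in
theorem span_snd :
    Submodule.span P'.T' (P.mapHom I hT hI '' (P.snd I : Set (P.ext I))) = P'.snd I' := by
  refine le_antisymm (Submodule.span_le.2 ?_) fun m hm => ?_
  · rintro _ ⟨m, hm, rfl⟩
    exact hT' _ hm
  set N := Submodule.span P'.T' (P.mapHom I hT hI '' (P.snd I : Set (P.ext I))) with hN
  -- a power of the inverse coordinate moves everything into the span
  have key : ∀ q : P'.ext I', q ∈ P'.fst I' → ∃ L : ℕ, P'.u' ^ L • q ∈ N := by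
    intro q hq
    rw [← P.span_fst I hT hI hgen] at hq
    induction hq using Submodule.span_induction with
    | mem x hx =>
      obtain ⟨m₀, -, rfl⟩ := hx
      obtain ⟨L, hL⟩ := P.loc' (m₀ : S)
      refine ⟨L, Submodule.subset_span ⟨P.u' ^ L • m₀, ?_, Subtype.ext ?_⟩⟩
      · show P.u' ^ L * (m₀ : S) ∈ P.T'
        rwa [mul_comm]
      · show σ (P.u' ^ L * (m₀ : S)) = P'.u' ^ L * σ m₀
        rw [map_mul, map_pow, hu']
    | zero => exact ⟨0, by rw [pow_zero, one_smul]; exact N.zero_mem⟩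
    | add x y _ _ hx hy =>
      obtain ⟨l, hl⟩ := hx
      obtain ⟨l', hl'⟩ := hy
      refine ⟨l + l', ?_⟩
      have : P'.u' ^ (l + l') • (x + y) = (⟨P'.u' ^ l', pow_mem P'.u'_mem _⟩ : P'.T') •
          (P'.u' ^ l • x) + (⟨P'.u' ^ l, pow_mem P'.u'_mem _⟩ : P'.T') • (P'.u' ^ l' • y) :=
        Subtype.ext <| by
          show P'.u' ^ (l + l') * ((x : S') + y) =
            P'.u' ^ l' * (P'.u' ^ l * x) + P'.u' ^ l * (P'.u' ^ l' * y)
          ring
      rw [this]
      exact add_mem (Submodule.smul_mem _ _ hl) (Submodule.smul_mem _ _ hl')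
    | smul r x _ hx =>
      obtain ⟨l, hl⟩ := hx
      obtain ⟨l', hl'⟩ := P'.loc' (r : S')
      refine ⟨l + l', ?_⟩
      have : P'.u' ^ (l + l') • (r • x) = (⟨_, hl'⟩ : P'.T') • (P'.u' ^ l • x) :=
        Subtype.ext <| by
          show P'.u' ^ (l + l') * ((r : S') * x) = (r : S') * P'.u' ^ l' * (P'.u' ^ l * x)
          ring
      rw [this]
      exact Submodule.smul_mem _ _ hl
  obtain ⟨n, hn⟩ := P'.exists_pow_smul_mem_fst I' m
  obtain ⟨L, hL⟩ := key _ hn
  set c := algebraMap A' S' a' * P'.u'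
  have hc : c ∈ P'.T' := mul_mem (P'.T'.algebraMap_mem a') P'.u'_mem
  let e : P.ext I := ⟨1 - algebraMap A S a * P.u', P.one_sub_mem I ha⟩
  set G := ∑ j ∈ Finset.range (n + L), c ^ j with hG
  have hdec : m = (⟨(m : S') * G, mul_mem hm (sum_mem fun j _ => pow_mem hc j)⟩ : P'.T') •
      P.mapHom I hT hI e +
        (⟨algebraMap A' S' a' ^ (n + L) * P'.u' ^ (n + n),
          mul_mem (pow_mem (P'.T'.algebraMap_mem a') _) (pow_mem P'.u'_mem _)⟩ : P'.T') •
          (P'.u' ^ L • P'.u ^ n • m) := Subtype.ext <| by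
    show (m : S') = (m : S') * G * σ (1 - algebraMap A S a * P.u') +
      algebraMap A' S' a' ^ (n + L) * P'.u' ^ (n + n) * (P'.u' ^ L * (P'.u ^ n * (m : S')))
    have hgs : (1 - c) * G = 1 - c ^ (n + L) := mul_neg_geom_sum c (n + L)
    have hpow : P'.u' ^ n * P'.u ^ n = 1 := by
      rw [← mul_pow, mul_comm, P'.mul_eq, one_pow]
    have hcp : c ^ (n + L) = algebraMap A' S' a' ^ (n + L) * P'.u' ^ (n + L) := mul_pow _ _ _
    rw [map_sub, map_one, map_mul, hu', haσ, show 1 - algebraMap A' S' a' * P'.u' = 1 - c from rfl,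
      mul_assoc (m : S'), mul_comm G, hgs, hcp]
    have h2 : algebraMap A' S' a' ^ (n + L) * P'.u' ^ (n + n) * (P'.u' ^ L * (P'.u ^ n * (m : S'))) =
        algebraMap A' S' a' ^ (n + L) * P'.u' ^ (n + L) * m * (P'.u' ^ n * P'.u ^ n) := by
      ring
    rw [h2, hpow]
    ring
  rw [hdec]
  exact add_mem
    (Submodule.smul_mem _ _ (Submodule.subset_span ⟨e, P.one_sub_mem', rfl⟩))
    (Submodule.smul_mem _ _ hL)

end Map

end ChartPair

end Fermat.Agent.Row24.Chart

end
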